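import Fermat.Agent.HeckeModule.Operators

/-!
Functoriality of `H¹(Γ₀(N), A)` in `A`, and the killing of boundary terms by Eisenstein elements.
-/

set_option autoImplicit false

open CongruenceSubgroup Matrix.SpecialLinearGroup
open scoped MatrixGroups OnePoint

universe uO uA uB uC

namespace Fermat.Agent.HeckeModule

open HeckeJ0

variable {N : ℕ} {O : Type uO} [CommRing O]
  {A : Type uA} [AddCommGroup A] [Module O A]
  {B : Type uB} [AddCommGroup B] [Module O B]
  {C : Type uC} [AddCommGroup C] [Module O C]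
  {ρA : Representation O (ZMod N)ˣ A} {ρB : Representation O (ZMod N)ˣ B}
  {ρC : Representation O (ZMod N)ˣ C}

/-- Equivariant linear maps. -/
def IsIntertwining (ρA : Representation O (ZMod N)ˣ A) (ρB : Representation O (ZMod N)ˣ B)
    (f : A →ₗ[O] B) : Prop :=
  ∀ u a, f (ρA u a) = ρB u (f a)

lemma IsIntertwining.comp {f : A →ₗ[O] B} {g : B →ₗ[O] C} (hg : IsIntertwining ρB ρC g)
    (hf : IsIntertwining ρA ρB f) : IsIntertwining ρA ρC (g ∘ₗ f) := fun u a => by
  simp [hf u a, hg u]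

lemma comp_mem_cocycle {f : A →ₗ[O] B} (hf : IsIntertwining ρA ρB f) (c : Cocycle ρA) :
    (fun γ => f (c.1 γ)) ∈ cocycles (gammaRep ρB) {negOne N} :=
  ⟨fun g h => by
    show f (c.1 (g * h)) = f (c.1 g) + gammaRep ρB g (f (c.1 h))
    rw [c.2.1, map_add, gammaRep_apply, hf, gammaRep_apply],
    fun k hk => by
      show f (c.1 k) = 0
      rw [c.2.2 k hk, map_zero]⟩

/-- The map on cocycles. -/
noncomputable def cocycleMap (f : A →ₗ[O] B) (hf : IsIntertwining ρA ρB f) :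
    Cocycle ρA →ₗ[O] Cocycle ρB where
  toFun c := ⟨fun γ => f (c.1 γ), comp_mem_cocycle hf c⟩
  map_add' _ _ := Subtype.ext (funext fun _ => map_add f _ _)
  map_smul' r _ := Subtype.ext (funext fun _ => map_smul f r _)

@[simp] lemma cocycleMap_apply (f : A →ₗ[O] B) (hf : IsIntertwining ρA ρB f) (c : Cocycle ρA)
    (γ : Gamma0 N) : (cocycleMap f hf c).1 γ = f (c.1 γ) := rfl

/-- The map on `H¹`, linear over the base ring. -/
noncomputable def cohMapO (f : A →ₗ[O] B) (hf : IsIntertwining ρA ρB f) :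
    Coh1 ρA →ₗ[O] Coh1 ρB :=
  (coboundaries (gammaRep ρA) {negOne N}).mapQ (coboundaries (gammaRep ρB) {negOne N})
    (cocycleMap f hf) fun c hc => by
      obtain ⟨a, ha⟩ := hc
      refine ⟨f a, funext fun γ => ?_⟩
      show ρB (dUnit N γ) (f a) - f a = f (c.1 γ)
      rw [← hf, ← map_sub]
      exact congrArg f (congrFun ha γ)

lemma cohMapO_toCoh (f : A →ₗ[O] B) (hf : IsIntertwining ρA ρB f) (c : Cocycle ρA) :
    cohMapO f hf (toCoh ρA c) = toCoh ρB (cocycleMap f hf c) := rfl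

section Hecke

variable {ℓ : ℕ} [Fact ℓ.Prime] [NeZero ℓ]

lemma cocycleMap_hecke (f : A →ₗ[O] B) (hf : IsIntertwining ρA ρB f) (c : Cocycle ρA) :
    cocycleMap f hf ((heckeData ρA ℓ).onCocycles toGL_injective c)
      = (heckeData ρB ℓ).onCocycles toGL_injective (cocycleMap f hf c) := by
  refine Subtype.ext (funext fun γ => ?_)
  show f ((heckeData ρA ℓ).raw c.1 γ) = (heckeData ρB ℓ).raw (fun δ => f (c.1 δ)) γ
  rw [Data.raw_apply, Data.raw_apply, map_sum]
  refine Finset.sum_congr rfl fun x _ => ?_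
  show f (ρA (aUnit x) (c.1 ((heckeData ρA ℓ).tr x γ))) = _
  rw [hf]
  have : (heckeData ρA ℓ).tr x γ = (heckeData ρB ℓ).tr x γ :=
    ((heckeData ρB ℓ).spec_unique toGL_injective ((heckeData ρA ℓ).mul_spec x γ)).2.symm
  rw [this]
  rfl

lemma cohMapO_heckeOp (f : A →ₗ[O] B) (hf : IsIntertwining ρA ρB f) (u : Coh1 ρA) :
    cohMapO f hf (heckeOp ρA ℓ u) = heckeOp ρB ℓ (cohMapO f hf u) := by
  obtain ⟨c, rfl⟩ := toCoh_surjective ρA u
  rw [heckeOp_toCoh, cohMapO_toCoh, cohMapO_toCoh, heckeOp_toCoh, cocycleMap_hecke]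

end Hecke

lemma cohMapO_smul (f : A →ₗ[O] B) (hf : IsIntertwining ρA ρB f) (P : HeckePoly O)
    (u : Coh1 ρA) : cohMapO f hf (P • u) = P • cohMapO f hf u := by
  induction P using MvPolynomial.induction_on generalizing u with
  | C r =>
    rw [← MvPolynomial.algebraMap_eq, algebraMap_smul, algebraMap_smul, map_smul]
  | add P Q hP hQ => rw [add_smul, add_smul, map_add, hP, hQ]
  | mul_X P l hP =>
    have : Fact (l : ℕ).Prime := ⟨l.2⟩
    have : NeZero (l : ℕ) := ⟨l.2.ne_zero⟩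
    rw [mul_smul, mul_smul, hP]
    congr 1
    exact (congrArg (cohMapO f hf) (X_smul ρA (l : ℕ) u)).trans
      ((cohMapO_heckeOp f hf u).trans (X_smul ρB (l : ℕ) _).symm)

/-- The map on `H¹`, linear over the Hecke polynomial ring. -/
noncomputable def cohMap (f : A →ₗ[O] B) (hf : IsIntertwining ρA ρB f) :
    Coh1 ρA →ₗ[HeckePoly O] Coh1 ρB where
  toFun := cohMapO f hf
  map_add' := map_add _
  map_smul' P u := cohMapO_smul f hf P u

lemma cohMap_toCoh (f : A →ₗ[O] B) (hf : IsIntertwining ρA ρB f) (c : Cocycle ρA) :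
    cohMap f hf (toCoh ρA c) = toCoh ρB (cocycleMap f hf c) := rfl

lemma toCoh_eq_zero_iff {ρ : Representation O (ZMod N)ˣ A} (c : Cocycle ρ) :
    toCoh ρ c = 0 ↔ ∃ a : A, ∀ γ, c.1 γ = ρ (dUnit N γ) a - a :=
  cls_eq_zero_iff c

lemma cohMap_comp (f : A →ₗ[O] B) (hf : IsIntertwining ρA ρB f) (g : B →ₗ[O] C)
    (hg : IsIntertwining ρB ρC g) (u : Coh1 ρA) :
    cohMap g hg (cohMap f hf u) = cohMap (g ∘ₗ f) (hg.comp hf) u := by
  obtain ⟨c, rfl⟩ := toCoh_surjective ρA u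
  rfl

lemma dUnit_negOne : dUnit N (negOne N) = -1 := Units.ext (by rw [coe_dUnit]; simp [negOne])

/-- `H¹` is exact in the middle. -/
theorem cohMap_exact (f : A →ₗ[O] B) (hf : IsIntertwining ρA ρB f) (g : B →ₗ[O] C)
    (hg : IsIntertwining ρB ρC g) (hfi : Function.Injective f) (hgs : Function.Surjective g)
    (hfg : Function.Exact f g) (hB : ρB (-1) = 1) {u : Coh1 ρB} (hu : cohMap g hg u = 0) :
    ∃ v : Coh1 ρA, cohMap f hf v = u := by
  obtain ⟨c, rfl⟩ := toCoh_surjective ρB u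
  rw [cohMap_toCoh, toCoh_eq_zero_iff] at hu
  obtain ⟨x, hx⟩ := hu
  obtain ⟨b, rfl⟩ := hgs x
  choose a ha using fun γ => (hfg (c.1 γ - (ρB (dUnit N γ) b - b))).mp (by
    rw [map_sub, map_sub, hg]
    exact sub_eq_zero.mpr (hx γ))
  have hd : a ∈ cocycles (gammaRep ρA) {negOne N} := by
    refine ⟨fun γ δ => hfi ?_, fun k hk => hfi ?_⟩
    · rw [map_add, gammaRep_apply, hf, ha, ha, ha, c.2.1, gammaRep_apply, map_mul (dUnit N),
        map_mul, Module.End.mul_apply]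
      simp only [map_sub]
      abel
    · rw [Set.mem_singleton_iff] at hk
      subst hk
      rw [ha, map_zero, c.2.2 (negOne N) rfl, dUnit_negOne, hB, Module.End.one_apply, sub_self,
        sub_zero]
  exact ⟨toCoh ρA ⟨a, hd⟩, by
    rw [cohMap_toCoh]
    refine (cls_eq_cls_iff _ _).mpr ⟨-b, fun γ => ?_⟩
    rw [cocycleMap_apply, ha, gammaRep_apply, map_neg]
    abel⟩

section Kernel

variable {ℓ : ℕ} [Fact ℓ.Prime]

lemma not_dvd_of_natCast_eq_one (hℓ : (ℓ : ZMod N) = 1) : ¬ ℓ ∣ N := by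
  intro h
  have h' := congrArg (ZMod.castHom h (ZMod ℓ)) hℓ
  rw [map_natCast, map_one, ZMod.natCast_self] at h'
  exact zero_ne_one h'

lemma card_idx [NeZero ℓ] (h : ¬ ℓ ∣ N) : Fintype.card (Idx N ℓ) = ℓ + 1 := by
  have e : Idx N ℓ ≃ Option (ZMod ℓ) := Equiv.subtypeUnivEquiv fun x hN => absurd hN h
  rw [Fintype.card_congr e, Fintype.card_option, ZMod.card]

lemma aUnit_eq_one (hℓ : (ℓ : ZMod N) = 1) (x : Idx N ℓ) : aUnit x = 1 := by
  unfold aUnit
  split
  · exact Units.ext (by rw [ZMod.coe_unitOfCoprime, hℓ, Units.val_one])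
  · rfl

/-- The Eisenstein element at `ℓ`. -/
noncomputable def eisen (O : Type uO) [CommRing O] (ℓ : ℕ) [hℓ : Fact ℓ.Prime] : HeckePoly O :=
  MvPolynomial.X (⟨ℓ, hℓ.out⟩ : Nat.Primes) - MvPolynomial.C ((ℓ : O) + 1)

lemma eisen_smul (u : Coh1 ρA) :
    eisen O ℓ • u = heckeOp ρA ℓ u - ((ℓ : O) + 1) • u := by
  exact (sub_smul (R := HeckePoly O) _ _ u).trans
    (congrArg₂ (· - ·) (X_smul ρA ℓ u) (algebraMap_smul (HeckePoly O) ((ℓ : O) + 1) u))

/-- The kernel of the map attached to an injection is killed by the Eisenstein elements at primes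
`ℓ ≡ 1 (mod N)`. -/
theorem eisen_smul_ker (f : A →ₗ[O] B) (hf : IsIntertwining ρA ρB f)
    (hfi : Function.Injective f) (hℓ : (ℓ : ZMod N) = 1) {u : Coh1 ρA}
    (hu : cohMap f hf u = 0) : eisen O ℓ • u = 0 := by
  have : NeZero ℓ := ⟨(Fact.out : ℓ.Prime).ne_zero⟩
  obtain ⟨c, rfl⟩ := toCoh_surjective ρA u
  rw [cohMap_toCoh, toCoh_eq_zero_iff] at hu
  obtain ⟨b, hb⟩ := hu
  have hsum : ∑ x, (heckeData ρB ℓ).ε x b = ((ℓ : O) + 1) • b := by
    show ∑ x : Idx N ℓ, ρB (aUnit x) b = _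
    simp only [aUnit_eq_one hℓ, map_one, Module.End.one_apply, Finset.sum_const, Finset.card_univ,
      card_idx (not_dvd_of_natCast_eq_one hℓ)]
    rw [← Nat.cast_smul_eq_nsmul O, Nat.cast_add, Nat.cast_one]
  rw [eisen_smul, heckeOp_toCoh, ← map_smul, ← map_sub, toCoh_eq_zero_iff]
  refine ⟨0, fun γ => hfi ?_⟩
  have e1 : f (((heckeData ρA ℓ).onCocycles toGL_injective c).1 γ)
      = ((heckeData ρB ℓ).onCocycles toGL_injective (cocycleMap f hf c)).1 γ := by
    rw [← cocycleMap_hecke]; rfl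
  have e2 : ((heckeData ρB ℓ).onCocycles toGL_injective (cocycleMap f hf c)).1 γ
      = cobound (gammaRep ρB) (((ℓ : O) + 1) • b) γ := by
    show (heckeData ρB ℓ).raw (cocycleMap f hf c).1 γ = _
    rw [← hsum, ← (heckeData ρB ℓ).raw_cobound toGL_injective b]
    exact congrArg (fun c' => (heckeData ρB ℓ).raw c' γ) (funext hb)
  show f (((heckeData ρA ℓ).onCocycles toGL_injective c).1 γ - ((ℓ : O) + 1) • c.1 γ) = _
  rw [map_sub, map_smul, e1, e2, map_zero, sub_zero, map_zero, cobound_apply, gammaRep_apply,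
    map_smul, ← cocycleMap_apply f hf c γ, hb, smul_sub, sub_self]

end Kernel

end Fermat.Agent.HeckeModule
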