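import Mathlib.GroupTheory.CoprodI
import Mathlib.Data.ZMod.Basic
import Mathlib.LinearAlgebra.Matrix.FixedDetMatrices
import Mathlib.NumberTheory.Modular

/-!
Homomorphisms out of `SL(2, ℤ)`: the modular group is the free product of its subgroups of order
two and three (ping-pong on the half planes `re z < 0` and `0 < re z`).
-/

set_option autoImplicit false

open Matrix UpperHalfPlane
open scoped MatrixGroups

namespace Fermat.Agent.HeckeModule

/-- The element `T S` of order three in the modular group. -/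
def elV : SL(2, ℤ) := ModularGroup.T * ModularGroup.S

lemma S_sq_eq : ModularGroup.S * ModularGroup.S = -1 := by
  refine Matrix.SpecialLinearGroup.ext _ _ fun i j => ?_
  rw [Matrix.SpecialLinearGroup.coe_mul]
  fin_cases i <;> fin_cases j <;> simp [ModularGroup.S, Matrix.mul_apply, Fin.sum_univ_two]

lemma elV_cube : elV * elV * elV = -1 := by
  refine Matrix.SpecialLinearGroup.ext _ _ fun i j => ?_
  simp only [elV, Matrix.SpecialLinearGroup.coe_mul]
  fin_cases i <;> fin_cases j <;>
    simp [ModularGroup.S, ModularGroup.T, Matrix.mul_apply, Fin.sum_univ_two]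

lemma closure_S_elV : Subgroup.closure ({ModularGroup.S, elV} : Set SL(2, ℤ)) = ⊤ := by
  rw [eq_top_iff, ← _root_.SpecialLinearGroup.SL2Z_generators, Subgroup.closure_le]
  have hS : ModularGroup.S ∈ Subgroup.closure ({ModularGroup.S, elV} : Set SL(2, ℤ)) :=
    Subgroup.subset_closure (Or.inl rfl)
  rintro g (rfl | rfl)
  · exact hS
  · have hV : elV ∈ Subgroup.closure ({ModularGroup.S, elV} : Set SL(2, ℤ)) :=
      Subgroup.subset_closure (Or.inr rfl)
    have := Subgroup.mul_mem _ hV (Subgroup.inv_mem _ hS)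
    rwa [elV, mul_inv_cancel_right] at this

/-- The homomorphism out of a cyclic group given by an element. -/
noncomputable def cycHom {G : Type*} [Group G] (n : ℕ) (g : G) (h : g ^ n = 1) :
    Multiplicative (ZMod n) →* G :=
  AddMonoidHom.toMultiplicativeLeft (ZMod.lift n ⟨zmultiplesHom (Additive G) (Additive.ofMul g), by
    rw [zmultiplesHom_apply, natCast_zsmul, ← ofMul_pow, h, ofMul_one]⟩)

lemma cycHom_one {G : Type*} [Group G] (n : ℕ) (g : G) (h : g ^ n = 1) :
    cycHom n g h (Multiplicative.ofAdd 1) = g := by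
  simp only [cycHom, AddMonoidHom.toMultiplicativeLeft, Equiv.coe_fn_mk, MonoidHom.coe_mk,
    OneHom.coe_mk, toAdd_ofAdd]
  rw [← Int.cast_one (R := ZMod n), ZMod.lift_coe]
  simp

/-- The two cyclic factors. -/
abbrev Factor (b : Bool) : Type := Multiplicative (ZMod (bif b then 3 else 2))

lemma neg_one_smul_upperHalfPlane (z : ℍ) : (-1 : SL(2, ℤ)) • z = z := by
  rw [ModularGroup.SL_neg_smul, one_smul]

/-- The action of the modular group on the upper half plane. -/
noncomputable def halfPlaneHom : SL(2, ℤ) →* Equiv.Perm ℍ := MulAction.toPermHom SL(2, ℤ) ℍ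

lemma halfPlaneHom_neg_one : halfPlaneHom (-1) = 1 :=
  Equiv.ext fun z => neg_one_smul_upperHalfPlane z

lemma halfPlaneHom_S_sq : halfPlaneHom ModularGroup.S ^ 2 = 1 := by
  rw [pow_two, ← map_mul, S_sq_eq, halfPlaneHom_neg_one]

lemma halfPlaneHom_elV_cube : halfPlaneHom elV ^ 3 = 1 := by
  rw [pow_three, ← map_mul, ← map_mul, ← mul_assoc, elV_cube, halfPlaneHom_neg_one]

/-- The two factors, acting on the upper half plane. -/
noncomputable def factorHom : ∀ b : Bool, Factor b →* Equiv.Perm ℍ
  | false => cycHom 2 (halfPlaneHom ModularGroup.S) halfPlaneHom_S_sq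
  | true => cycHom 3 (halfPlaneHom elV) halfPlaneHom_elV_cube

lemma re_S_smul (z : ℍ) : (ModularGroup.S • z).re = -z.re / Complex.normSq (z : ℂ) := by
  rw [UpperHalfPlane.modular_S_smul]
  simp only [UpperHalfPlane.re]
  rw [inv_neg, Complex.neg_re, Complex.inv_re, neg_div]

lemma re_S_smul_neg (z : ℍ) (h : 0 < z.re) : (ModularGroup.S • z).re < 0 := by
  rw [re_S_smul]
  exact div_neg_of_neg_of_pos (neg_neg_of_pos h) z.normSq_pos

lemma re_S_smul_pos (z : ℍ) (h : z.re < 0) : 0 < (ModularGroup.S • z).re := by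
  rw [re_S_smul]
  exact div_pos (neg_pos.mpr h) z.normSq_pos

lemma re_elV_smul (z : ℍ) (h : z.re < 0) : 1 < (elV • z).re := by
  rw [elV, mul_smul, ModularGroup.re_T_smul]
  have := re_S_smul_pos z h
  linarith

lemma re_elV_sq_smul (z : ℍ) (h : z.re < 0) : 0 < (elV • elV • z).re := by
  have hV : elV * elV = ModularGroup.S * ModularGroup.T⁻¹ := by
    refine Matrix.SpecialLinearGroup.ext _ _ fun i j => ?_
    simp only [elV, Matrix.SpecialLinearGroup.coe_mul, Matrix.SpecialLinearGroup.coe_inv]
    fin_cases i <;> fin_cases j <;>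
      simp [ModularGroup.S, ModularGroup.T, Matrix.mul_apply, Fin.sum_univ_two,
        Matrix.adjugate_fin_two]
  rw [smul_smul, hV, mul_smul]
  refine re_S_smul_pos _ ?_
  rw [ModularGroup.re_T_inv_smul]
  linarith

/-- The ping-pong sets. -/
def pingSet : Bool → Set ℍ
  | false => {z | z.re < 0}
  | true => {z | 0 < z.re}

theorem lift_factorHom_injective : Function.Injective (Monoid.CoprodI.lift factorHom) := by
  refine Monoid.CoprodI.lift_injective_of_ping_pong factorHom ?_ pingSet ?_ ?_ ?_
  · refine Or.inr ⟨true, ?_⟩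
    simp [Cardinal.mk_fintype]
  · rintro (_ | _)
    · exact ⟨⟨⟨-1, 1⟩, one_pos⟩, by show (-1 : ℝ) < 0; norm_num⟩
    · exact ⟨⟨⟨1, 1⟩, one_pos⟩, by show (0 : ℝ) < 1; norm_num⟩
  · rintro (_ | _) (_ | _) h <;> first
      | exact absurd rfl h
      | exact Set.disjoint_left.mpr fun z h1 h2 => lt_asymm (a := z.re) (b := 0) h1 h2
      | exact Set.disjoint_left.mpr fun z h1 h2 => lt_asymm (a := z.re) (b := 0) h2 h1
  · intro i j hij
    cases i <;> cases j <;> first | exact absurd rfl hij | skip
    all_goals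
      intro h hh
      rintro _ ⟨z, hz, rfl⟩
    · have hh' : h = Multiplicative.ofAdd (1 : ZMod 2) := by
        have key : ∀ x : ZMod 2, x ≠ 0 → x = 1 := by decide
        exact congrArg Multiplicative.ofAdd (key h.toAdd fun h0 => hh (congrArg Multiplicative.ofAdd h0))
      subst hh'
      show ((cycHom 2 (halfPlaneHom ModularGroup.S) halfPlaneHom_S_sq)
        (Multiplicative.ofAdd 1) z).re < 0
      rw [cycHom_one]
      exact re_S_smul_neg z hz
    · have hh' : h = Multiplicative.ofAdd (1 : ZMod 3) ∨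
          h = Multiplicative.ofAdd (1 : ZMod 3) * Multiplicative.ofAdd (1 : ZMod 3) := by
        have key : ∀ x : ZMod 3, x ≠ 0 → x = 1 ∨ x = 1 + 1 := by decide
        rcases key h.toAdd fun h0 => hh (congrArg Multiplicative.ofAdd h0) with h1 | h1
        · exact Or.inl (congrArg Multiplicative.ofAdd h1)
        · exact Or.inr (congrArg Multiplicative.ofAdd h1)
      show 0 < ((cycHom 3 (halfPlaneHom elV) halfPlaneHom_elV_cube) h z).re
      rcases hh' with rfl | rfl
      · rw [cycHom_one]
        exact zero_lt_one.trans (re_elV_smul z hz)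
      · rw [map_mul, cycHom_one]
        exact re_elV_sq_smul z hz

lemma halfPlaneHom_mem_range (g : SL(2, ℤ)) :
    halfPlaneHom g ∈ (Monoid.CoprodI.lift factorHom).range := by
  have hle : (⊤ : Subgroup SL(2, ℤ))
      ≤ (Monoid.CoprodI.lift factorHom).range.comap halfPlaneHom := by
    rw [← closure_S_elV, Subgroup.closure_le]
    rintro g (rfl | rfl)
    · exact ⟨Monoid.CoprodI.of (i := false) (Multiplicative.ofAdd 1),
        (Monoid.CoprodI.lift_of factorHom _).trans (cycHom_one 2 _ halfPlaneHom_S_sq)⟩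
    · exact ⟨Monoid.CoprodI.of (i := true) (Multiplicative.ofAdd 1),
        (Monoid.CoprodI.lift_of factorHom _).trans (cycHom_one 3 _ halfPlaneHom_elV_cube)⟩
  exact hle (Subgroup.mem_top g)

/-- Elements `s`, `v` with `s² = v³ = 1` define a homomorphism on `SL(2, ℤ)`. -/
theorem exists_hom_of_relations {H : Type*} [Group H] (s v : H) (hs : s ^ 2 = 1)
    (hv : v ^ 3 = 1) :
    ∃ ψ : SL(2, ℤ) →* H, ψ ModularGroup.S = s ∧ ψ elV = v := by
  let tgt : ∀ b : Bool, Factor b →* H := fun b => match b with
    | false => cycHom 2 s hs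
    | true => cycHom 3 v hv
  let e := MonoidHom.ofInjective lift_factorHom_injective
  let π : SL(2, ℤ) →* (Monoid.CoprodI.lift factorHom).range :=
    halfPlaneHom.codRestrict _ halfPlaneHom_mem_range
  refine ⟨((Monoid.CoprodI.lift tgt).comp e.symm.toMonoidHom).comp π, ?_, ?_⟩
  · have : π ModularGroup.S = e (Monoid.CoprodI.of (i := false) (Multiplicative.ofAdd 1)) :=
      Subtype.ext ((Monoid.CoprodI.lift_of factorHom _).trans
        (cycHom_one 2 _ halfPlaneHom_S_sq)).symm
    show Monoid.CoprodI.lift tgt (e.symm (π ModularGroup.S)) = s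
    rw [this, MulEquiv.symm_apply_apply, Monoid.CoprodI.lift_of]
    exact cycHom_one 2 s hs
  · have : π elV = e (Monoid.CoprodI.of (i := true) (Multiplicative.ofAdd 1)) :=
      Subtype.ext ((Monoid.CoprodI.lift_of factorHom _).trans
        (cycHom_one 3 _ halfPlaneHom_elV_cube)).symm
    show Monoid.CoprodI.lift tgt (e.symm (π elV)) = v
    rw [this, MulEquiv.symm_apply_apply, Monoid.CoprodI.lift_of]
    exact cycHom_one 3 v hv

end Fermat.Agent.HeckeModule
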