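import Fermat.Agent.EichlerShimura.Shapiro
import Fermat.Agent.HeckeModule.Presentation
import Fermat.Agent.HeckeModule.Natural

/-!
`H¹(Γ₀(N), A) → H¹(Γ₀(N), B)` is surjective for a surjection `A → B` when `Γ₀(N)` has no elliptic
points of order `2` (resp. `3`) or `2` (resp. `3`) is invertible.
-/

set_option autoImplicit false

open CongruenceSubgroup
open scoped MatrixGroups

universe uO uA uB

namespace Fermat.Agent.HeckeModule

open Gamma0Count EichlerShimura

variable {O : Type uO} [CommRing O] {A : Type uA} [AddCommGroup A] [Module O A]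
  {B : Type uB} [AddCommGroup B] [Module O B]

section Orbit

variable {X : Type*} (e : X → X) (σ : X → Module.End O A) (τ : X → Module.End O B)
  (f : A →ₗ[O] B)

/-- Lifting a family of relations along an involution. -/
theorem exists_lift_two (hf : Function.Surjective f) (hστ : ∀ x a, f (σ x a) = τ x (f a))
    (he : ∀ x, e (e x) = x) (hσ : ∀ x a, σ (e x) (σ x a) = a) (Φ : X → B)
    (hΦ : ∀ x, Φ (e x) + τ (e x) (Φ x) = 0) (h : IsUnit (2 : O) ∨ ∀ x, e x ≠ x) :
    ∃ φ : X → A, (∀ x, f (φ x) = Φ x) ∧ ∀ x, φ (e x) + σ (e x) (φ x) = 0 := by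
  classical
  let : LinearOrder X := IsWellOrder.linearOrder WellOrderingRel
  choose L hL using hf
  have hfix : ∀ x, e x = x → ∃ a, f a = Φ x ∧ a + σ x a = 0 := by
    intro x hx
    rcases h with ⟨u, hu⟩ | h
    · refine ⟨(↑u⁻¹ : O) • (L (Φ x) - σ x (L (Φ x))), ?_, ?_⟩
      · have h1 := hΦ x
        rw [hx, add_comm, ← eq_neg_iff_add_eq_zero] at h1
        rw [map_smul, map_sub, hστ, hL, h1, sub_neg_eq_add, ← two_smul O (Φ x), smul_smul, ← hu,
          Units.inv_mul, one_smul]
      · have h2 := hσ x (L (Φ x))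
        rw [hx] at h2
        rw [map_smul, map_sub, h2, ← smul_add]
        abel_nf
        simp
    · exact absurd hx (h x)
  choose F hF1 hF2 using hfix
  let φ : X → A := fun x =>
    if hx : e x = x then F x hx else if x < e x then L (Φ x) else -σ x (L (Φ (e x)))
  refine ⟨φ, fun x => ?_, fun x => ?_⟩
  · by_cases hx : e x = x
    · simp only [φ, dif_pos hx, hF1 x hx]
    · by_cases hlt : x < e x
      · simp only [φ, dif_neg hx, if_pos hlt, hL]
      · have h1 := hΦ (e x)
        rw [he] at h1
        simp only [φ, dif_neg hx, if_neg hlt, map_neg, hστ, hL]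
        exact (eq_neg_of_add_eq_zero_left h1).symm
  · by_cases hx : e x = x
    · rw [hx]
      simp only [φ, dif_pos hx, hF2 x hx]
    · have hx' : e (e x) ≠ e x := fun h' => hx ((he x).symm.trans h').symm
      rcases lt_or_gt_of_ne (Ne.symm hx) with hlt | hlt
      · simp only [φ, dif_neg hx, if_pos hlt, dif_neg hx', he, if_neg hlt.not_gt, neg_add_cancel]
      · simp only [φ, dif_neg hx, if_neg hlt.not_gt, dif_neg hx', he, if_pos hlt, map_neg, hσ,
          add_neg_cancel]

/-- Lifting a family of relations along a map of order three. -/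
theorem exists_lift_three (hf : Function.Surjective f) (hστ : ∀ x a, f (σ x a) = τ x (f a))
    (he : ∀ x, e (e (e x)) = x) (hσ : ∀ x a, σ (e (e x)) (σ (e x) (σ x a)) = a) (Φ : X → B)
    (hΦ : ∀ x, Φ (e (e x)) + τ (e (e x)) (Φ (e x)) + τ (e (e x)) (τ (e x) (Φ x)) = 0)
    (h : IsUnit (3 : O) ∨ ∀ x, e x ≠ x) :
    ∃ φ : X → A, (∀ x, f (φ x) = Φ x) ∧
      ∀ x, φ (e (e x)) + σ (e (e x)) (φ (e x)) + σ (e (e x)) (σ (e x) (φ x)) = 0 := by
  classical
  let : LinearOrder X := IsWellOrder.linearOrder WellOrderingRel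
  choose L hL using hf
  have hfix : ∀ x, e x = x → ∃ a, f a = Φ x ∧ a + σ x a + σ x (σ x a) = 0 := by
    intro x hx
    rcases h with ⟨u, hu⟩ | h
    · refine ⟨(↑u⁻¹ : O) • ((2 : O) • L (Φ x) - σ x (L (Φ x)) - σ x (σ x (L (Φ x)))), ?_, ?_⟩
      · have h1 := hΦ x
        rw [hx, hx, add_assoc, ← eq_neg_iff_add_eq_zero] at h1
        have : f ((2 : O) • L (Φ x) - σ x (L (Φ x)) - σ x (σ x (L (Φ x)))) = (3 : O) • Φ x := by
          rw [map_sub, map_sub, map_smul, hστ, hστ, hστ, hL, sub_sub,
            show (3 : O) = 2 + 1 by norm_num, add_smul (2 : O) 1, one_smul]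
          conv_rhs => arg 2; rw [h1]
          abel
        rw [map_smul, this, smul_smul, ← hu, Units.inv_mul, one_smul]
      · have h2 := hσ x (L (Φ x))
        rw [hx, hx] at h2
        simp only [map_smul, map_sub, h2, ← smul_add]
        simp only [two_smul]
        abel_nf
        simp
    · exact absurd hx (h x)
  choose F hF1 hF2 using hfix
  let φ : X → A := fun x =>
    if hx : e x = x then F x hx
    else if e x < x ∧ e x < e (e x) then
      -(σ x (L (Φ (e (e x)))) + σ x (σ (e (e x)) (L (Φ (e x)))))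
    else L (Φ x)
  have hR : ∀ x, φ (e (e x)) + σ (e (e x)) (φ (e x)) + σ (e (e x)) (σ (e x) (φ x)) = 0 →
      φ (e (e (e x))) + σ (e (e (e x))) (φ (e (e x))) +
        σ (e (e (e x))) (σ (e (e x)) (φ (e x))) = 0 := by
    intro x hx
    have h1 := congrArg (σ x) hx
    have h2 := hσ (e x) (φ x)
    rw [he] at h2
    rw [map_add, map_add, map_zero, h2] at h1
    rw [he, ← h1]
    abel
  refine ⟨φ, fun x => ?_, fun x => ?_⟩
  · by_cases hx : e x = x
    · simp only [φ, dif_pos hx, hF1 x hx]
    · by_cases hlt : e x < x ∧ e x < e (e x)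
      · have h1 := hΦ (e x)
        rw [he] at h1
        simp only [φ, dif_neg hx, if_pos hlt, map_neg, map_add, hστ, hL]
        rw [add_assoc] at h1
        exact (eq_neg_of_add_eq_zero_left h1).symm
      · simp only [φ, dif_neg hx, if_neg hlt, hL]
  · by_cases hx : e x = x
    · simp only [hx]
      simp only [φ, dif_pos hx, hF2 x hx]
    · have hmin : ∀ m, m < e m → m < e (e m) →
          φ (e (e m)) + σ (e (e m)) (φ (e m)) + σ (e (e m)) (σ (e m) (φ m)) = 0 := by
        intro m h1 h2
        have n0 : ¬ (e m < m ∧ e m < e (e m)) := fun h' => h1.not_gt h'.1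
        have n1 : ¬ (e (e m) < e m ∧ e (e m) < e (e (e m))) := by
          rw [he]; exact fun h' => h2.not_gt h'.2
        have p2 : e (e (e m)) < e (e m) ∧ e (e (e m)) < e (e (e (e m))) := by
          rw [he]; exact ⟨h2, h1⟩
        have d0 : ¬ e m = m := h1.ne'
        have d1 : ¬ e (e m) = e m := fun h' => d0 (by
          have h'' := congrArg e h'
          rw [he] at h''
          exact (h''.trans h').symm)
        have d2 : ¬ e (e (e m)) = e (e m) := fun h' => h2.ne' ((he m).symm.trans h').symm
        simp only [φ, dif_neg d0, dif_neg d1, dif_neg d2, if_neg n0, if_neg n1, if_pos p2]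
        simp only [he]
        abel
      have hxx : e (e x) ≠ x := fun h' => hx ((congrArg e h').symm.trans (he x))
      have hxx' : e x ≠ e (e x) := fun h' => hxx ((congrArg e h').trans (he x))
      rcases lt_or_gt_of_ne (Ne.symm hx) with a | a <;>
        rcases lt_or_gt_of_ne (Ne.symm hxx) with b | b <;>
        rcases lt_or_gt_of_ne hxx' with c | c
      all_goals first
        | (refine hmin x ?_ ?_ <;> order)
        | (have h1 : e x < e (e x) := by order
           have h2 : e x < e (e (e x)) := by rw [he]; order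
           simpa only [he] using hR _ (hR _ (hmin (e x) h1 h2)))
        | (have h1 : e (e x) < e (e (e x)) := by rw [he]; order
           have h2 : e (e x) < e (e (e (e x))) := by rw [he]; order
           simpa only [he] using hR _ (hmin (e (e x)) h1 h2))

end Orbit

variable {N : ℕ}

/-- The element of `Γ₀(N)` attached to the transfer. -/
noncomputable def weight (g : SL(2, ℤ)) (x : CosetSpace N) : Gamma0 N := transfer g x

lemma transfer_neg_one (x : CosetSpace N) : transfer (-1) x = negOne N := by
  apply Subtype.ext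
  simp [transfer, neg_one_smul_coset, negOne]

/-- The affine map of `CosetSpace N × A` attached to `g` and a function. -/
noncomputable def affStep (ρ : Representation O (Gamma0 N) A) (g : SL(2, ℤ))
    (φ : CosetSpace N → A) : CosetSpace N × A → CosetSpace N × A :=
  fun p => (g • p.1, ρ (weight g p.1) p.2 + φ p.1)

lemma affStep_comp (ρ : Representation O (Gamma0 N) A) (g h : SL(2, ℤ))
    (φ ψ : CosetSpace N → A) :
    affStep ρ g φ ∘ affStep ρ h ψ
      = affStep ρ (g * h) (fun x => φ (h • x) + ρ (weight g (h • x)) (ψ x)) := by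
  funext p
  simp only [Function.comp_apply, affStep, mul_smul, weight, transfer_mul, map_mul,
    Module.End.mul_apply, map_add]
  rw [Prod.mk.injEq]
  exact ⟨rfl, by abel⟩

lemma affStep_neg_one (ρ : Representation O (Gamma0 N) A) (hρ : ρ (negOne N) = 1) :
    affStep ρ (-1) 0 = id := by
  funext p
  simp [affStep, neg_one_smul_coset, weight, transfer_neg_one, hρ]

/-- No obstruction to lifting: no elliptic points, or the order is invertible. -/
def Liftable (O : Type uO) [CommRing O] (N : ℕ) : Prop :=
  (IsUnit (2 : O) ∨ ∀ x : CosetSpace N, ModularGroup.S • x ≠ x) ∧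
    (IsUnit (3 : O) ∨ ∀ x : CosetSpace N, elV • x ≠ x)

/-- A cocycle for an arbitrary action of `Γ₀(N)` trivial at `-1` lifts along a surjection. -/
theorem exists_cocycle_lift_rep {ρA : Representation O (Gamma0 N) A}
    {ρB : Representation O (Gamma0 N) B} (f : A →ₗ[O] B) (hf : ∀ u a, f (ρA u a) = ρB u (f a))
    (hfs : Function.Surjective f) (hA : ρA (negOne N) = 1) (hN : Liftable O N)
    (c : cocycles ρB {negOne N}) :
    ∃ a : cocycles ρA {negOne N}, ∀ γ, f (a.1 γ) = c.1 γ := by
  classical
  let Φ : SL(2, ℤ) → CosetSpace N → B := fun g x => c.1 (transfer g x)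
  have hΦmul : ∀ g h x, Φ (g * h) x = Φ g (h • x) + ρB (weight g (h • x)) (Φ h x) := by
    intro g h x
    show c.1 (transfer (g * h) x) = _
    rw [transfer_mul, c.2.1]
    rfl
  have hΦneg : ∀ x, Φ (-1) x = 0 := fun x => by
    show c.1 (transfer (-1) x) = 0
    rw [transfer_neg_one]
    exact c.2.2 _ rfl
  have hwS : ∀ x, weight ModularGroup.S (ModularGroup.S • x) * weight ModularGroup.S x
      = negOne N := fun x => by
    rw [weight, weight, ← transfer_mul, S_sq_eq, transfer_neg_one]
  have hwV : ∀ x, weight elV (elV • elV • x) * (weight elV (elV • x) * weight elV x)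
      = negOne N := fun x => by
    rw [weight, weight, weight, ← transfer_mul, smul_smul, ← transfer_mul,
      ← mul_assoc, elV_cube, transfer_neg_one]
  obtain ⟨φS, hφS, hRS⟩ := exists_lift_two (fun x => ModularGroup.S • x)
    (fun x => ρA (weight ModularGroup.S x)) (fun x => ρB (weight ModularGroup.S x)) f hfs
    (fun x a => hf _ a) S_smul_S_smul
    (fun x a => by rw [← Module.End.mul_apply, ← map_mul, hwS, hA, Module.End.one_apply])
    (Φ ModularGroup.S) (fun x => by rw [← hΦmul, S_sq_eq, hΦneg]) hN.1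
  have he3 : ∀ x : CosetSpace N, elV • elV • elV • x = x := fun x => by
    rw [smul_smul, smul_smul, elV_cube, neg_one_smul_coset]
  obtain ⟨φV, hφV, hRV⟩ := exists_lift_three (fun x => elV • x)
    (fun x => ρA (weight elV x)) (fun x => ρB (weight elV x)) f hfs
    (fun x a => hf _ a) he3
    (fun x a => by
      rw [← Module.End.mul_apply, ← map_mul, ← Module.End.mul_apply, ← map_mul, mul_assoc, hwV,
        hA, Module.End.one_apply])
    (Φ elV) (fun x => by
      have h1 := hΦmul elV elV x
      have h2 := hΦmul elV (elV * elV) x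
      rw [← mul_assoc, elV_cube, hΦneg, h1, map_add, mul_smul] at h2
      rw [add_assoc]
      exact h2.symm) hN.2
  have hstepS : affStep ρA ModularGroup.S φS ∘ affStep ρA ModularGroup.S φS = id := by
    rw [affStep_comp, S_sq_eq, ← affStep_neg_one ρA hA]
    exact congrArg _ (funext fun x => hRS x)
  have hstepV : affStep ρA elV φV ∘ affStep ρA elV φV ∘ affStep ρA elV φV = id := by
    rw [affStep_comp, affStep_comp, ← mul_assoc, elV_cube, ← affStep_neg_one ρA hA]
    refine congrArg _ (funext fun x => ?_)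
    rw [mul_smul, map_add, ← add_assoc]
    exact hRV x
  let s : Equiv.Perm (CosetSpace N × A) :=
    ⟨affStep ρA ModularGroup.S φS, affStep ρA ModularGroup.S φS, congrFun hstepS,
      congrFun hstepS⟩
  let v : Equiv.Perm (CosetSpace N × A) :=
    ⟨affStep ρA elV φV, affStep ρA elV φV ∘ affStep ρA elV φV, congrFun hstepV,
      congrFun hstepV⟩
  obtain ⟨ψ, hψS, hψV⟩ := exists_hom_of_relations s v (Equiv.ext (congrFun hstepS))
    (Equiv.ext (congrFun hstepV))
  let φ : SL(2, ℤ) → CosetSpace N → A := fun g x => (ψ g (x, 0)).2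
  have key : ∀ g : SL(2, ℤ), (∀ p, ψ g p = affStep ρA g (φ g) p) ∧ ∀ x, f (φ g x) = Φ g x := by
    intro g
    have hg : g ∈ Subgroup.closure ({ModularGroup.S, elV} : Set SL(2, ℤ)) := by
      rw [closure_S_elV]; exact Subgroup.mem_top g
    induction hg using Subgroup.closure_induction with
    | mem g hg =>
      rcases hg with rfl | rfl
      · have h1 : φ ModularGroup.S = φS := funext fun x => by
          simp [φ, hψS, s, affStep]
        exact ⟨fun p => by rw [hψS, h1]; rfl, fun x => by rw [h1, hφS]⟩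
      · have h1 : φ elV = φV := funext fun x => by
          simp [φ, hψV, v, affStep]
        exact ⟨fun p => by rw [hψV, h1]; rfl, fun x => by rw [h1, hφV]⟩
    | one =>
      have h1 : ∀ x : CosetSpace N, transfer (1 : SL(2, ℤ)) x = 1 := fun x =>
        Subtype.ext (by simp [transfer])
      refine ⟨fun p => ?_, fun x => ?_⟩
      · simp [φ, affStep, weight, h1]
      · have h2 := c.2.1 1 1
        rw [mul_one, map_one, Module.End.one_apply, left_eq_add] at h2
        simp [φ, Φ, h1, h2]
    | mul g h _ _ hg hh =>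
      have h1 : φ (g * h) = fun x => φ g (h • x) + ρA (weight g (h • x)) (φ h x) := funext fun x => by
        show (ψ (g * h) (x, 0)).2 = _
        rw [map_mul, Equiv.Perm.mul_apply, hh.1, hg.1]
        simp only [affStep, map_zero, zero_add]
        rw [add_comm]
      refine ⟨fun p => ?_, fun x => ?_⟩
      · rw [map_mul, Equiv.Perm.mul_apply, hh.1, hg.1, h1]
        exact congrFun (affStep_comp ρA g h (φ g) (φ h)) p
      · rw [h1, map_add, hf, hg.2, hh.2, hΦmul]
    | inv g _ hg =>
      have hw : ∀ x : CosetSpace N, weight g (g⁻¹ • x) * weight g⁻¹ x = 1 := fun x => by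
        have h1 : transfer (g * g⁻¹) x = 1 := Subtype.ext (by simp [transfer])
        rw [weight, weight, ← transfer_mul, h1]
      have h1 : ∀ x a, ψ g⁻¹ (x, a)
          = (g⁻¹ • x, ρA (weight g⁻¹ x) a - ρA (weight g⁻¹ x) (φ g (g⁻¹ • x))) := by
        intro x a
        rw [map_inv, Equiv.Perm.inv_eq_iff_eq, hg.1]
        simp only [affStep, smul_inv_smul, map_sub, ← Module.End.mul_apply, ← map_mul, hw, map_one,
          Module.End.one_apply, sub_add_cancel]
      have h2 : φ g⁻¹ = fun x => -ρA (weight g⁻¹ x) (φ g (g⁻¹ • x)) := funext fun x => by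
        show (ψ g⁻¹ (x, 0)).2 = _
        rw [h1, map_zero, zero_sub]
      refine ⟨fun p => ?_, fun x => ?_⟩
      · rw [h2, show p = (p.1, p.2) from rfl, h1]
        simp only [affStep, sub_eq_add_neg]
      · rw [h2, map_neg, hf, hg.2]
        have h3 : Φ (g⁻¹ * g) (g⁻¹ • x) = 0 := by
          have h4 : transfer (g⁻¹ * g) (g⁻¹ • x) = 1 := Subtype.ext (by simp [transfer])
          show c.1 (transfer (g⁻¹ * g) (g⁻¹ • x)) = 0
          rw [h4]
          have h2 := c.2.1 1 1
          rwa [mul_one, map_one, Module.End.one_apply, left_eq_add] at h2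
        rw [hΦmul, smul_inv_smul] at h3
        exact neg_eq_of_add_eq_zero_left h3
  have hφmul : ∀ g h x, φ (g * h) x = φ g (h • x) + ρA (weight g (h • x)) (φ h x) := fun g h x => by
    show (ψ (g * h) (x, 0)).2 = _
    rw [map_mul, Equiv.Perm.mul_apply, (key h).1, (key g).1]
    simp only [affStep, map_zero, zero_add]
    rw [add_comm]
  set x0 : CosetSpace N := ((1 : SL(2, ℤ)) : CosetSpace N) with hx0
  set r : SL(2, ℤ) := rep x0 with hr_def
  have hr : r ∈ Gamma0 N := by
    have := (QuotientGroup.eq).mp (mk_rep x0)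
    rwa [mul_one, Subgroup.inv_mem_iff] at this
  have hfix : ∀ γ : Gamma0 N, (r * γ * r⁻¹) • x0 = x0 := fun γ => by
    rw [hx0, MulAction.Quotient.smul_coe, smul_eq_mul, mul_one, QuotientGroup.eq, mul_one]
    exact inv_mem (mul_mem (mul_mem hr γ.2) (inv_mem hr))
  have htr : ∀ γ : Gamma0 N, transfer (r * γ * r⁻¹) x0 = γ := fun γ => by
    apply Subtype.ext
    simp only [transfer, hfix γ, ← hr_def]
    group
  refine ⟨⟨fun γ => φ (r * γ * r⁻¹) x0, ⟨fun γ δ => ?_, fun k hk => ?_⟩⟩, fun γ => ?_⟩
  · show φ (r * (γ * δ : Gamma0 N) * r⁻¹) x0 = _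
    rw [show r * ((γ * δ : Gamma0 N) : SL(2, ℤ)) * r⁻¹ = (r * γ * r⁻¹) * (r * δ * r⁻¹) by
      simp only [Subgroup.coe_mul]; group, hφmul, hfix, weight, htr]
  · rw [Set.mem_singleton_iff] at hk
    subst hk
    show φ (r * ((negOne N : Gamma0 N) : SL(2, ℤ)) * r⁻¹) x0 = 0
    have h1 : r * ((negOne N : Gamma0 N) : SL(2, ℤ)) * r⁻¹ = ModularGroup.S * ModularGroup.S := by
      rw [S_sq_eq]; simp [negOne]
    rw [h1]
    show (ψ (ModularGroup.S * ModularGroup.S) (x0, 0)).2 = 0
    rw [map_mul, Equiv.Perm.mul_apply, hψS]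
    exact congrArg Prod.snd (congrFun hstepS (x0, 0))
  · show f (φ (r * γ * r⁻¹) x0) = c.1 γ
    rw [(key _).2]
    show c.1 (transfer _ x0) = _
    rw [htr]

variable {ρA : Representation O (ZMod N)ˣ A} {ρB : Representation O (ZMod N)ˣ B}

/-- A cocycle lifts along a surjection. -/
theorem exists_cocycle_lift (f : A →ₗ[O] B) (hf : IsIntertwining ρA ρB f)
    (hfs : Function.Surjective f) (hA : ρA (-1) = 1) (hN : Liftable O N) (c : Cocycle ρB) :
    ∃ a : Cocycle ρA, ∀ γ, f (a.1 γ) = c.1 γ :=
  exists_cocycle_lift_rep f (fun _ => hf _) hfs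
    (by rw [gammaRep_apply, dUnit_negOne, hA]) hN c

/-- Surjectivity of `H¹`. -/
theorem cohMap_surjective (f : A →ₗ[O] B) (hf : IsIntertwining ρA ρB f)
    (hfs : Function.Surjective f) (hA : ρA (-1) = 1) (hN : Liftable O N) :
    Function.Surjective (cohMap f hf) := by
  intro u
  obtain ⟨c, rfl⟩ := toCoh_surjective ρB u
  obtain ⟨a, ha⟩ := exists_cocycle_lift f hf hfs hA hN c
  exact ⟨toCoh ρA a, by
    rw [cohMap_toCoh]
    exact congrArg _ (Subtype.ext (funext ha))⟩

end Fermat.Agent.HeckeModule
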