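import Mathlib.Algebra.Module.LocalizedModule.Exact
import Mathlib.RingTheory.Localization.Module
import Mathlib.RingTheory.Ideal.Maps
import Fermat.Agent.HeckeModule.Lift

/-!
`H¹(Γ₀(N), ·)` localised at a non-Eisenstein prime of the Hecke algebra is an exact functor.
-/

set_option autoImplicit false

universe uO uA uB uC

namespace Fermat.Agent.HeckeModule

variable {N : ℕ} {O : Type uO} [CommRing O]

/-- Some Eisenstein element at a prime `ℓ ≡ 1 (mod N)` lies in the multiplicative set `m`. -/
def NonEisenstein (N : ℕ) (m : Submonoid (HeckePoly O)) : Prop :=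
  ∃ (ℓ : ℕ) (hℓ : ℓ.Prime), (ℓ : ZMod N) = 1 ∧
    (haveI : Fact ℓ.Prime := ⟨hℓ⟩; eisen O ℓ) ∈ m

variable (m : Submonoid (HeckePoly O))
  {A : Type uA} [AddCommGroup A] [Module O A] {B : Type uB} [AddCommGroup B] [Module O B]
  {C : Type uC} [AddCommGroup C] [Module O C]
  {ρA : Representation O (ZMod N)ˣ A} {ρB : Representation O (ZMod N)ˣ B}
  {ρC : Representation O (ZMod N)ˣ C}

/-- The localisation of `H¹` at `m`. -/
abbrev CohLoc (ρ : Representation O (ZMod N)ˣ A) : Type _ :=
  LocalizedModule m (Coh1 ρ)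

/-- The class in the localisation. -/
noncomputable def toLoc (ρ : Representation O (ZMod N)ˣ A) :
    Coh1 ρ →ₗ[HeckePoly O] CohLoc m ρ :=
  LocalizedModule.mkLinearMap m (Coh1 ρ)

/-- Functoriality of the localised `H¹`. -/
noncomputable def locMap (f : A →ₗ[O] B) (hf : IsIntertwining ρA ρB f) :
    CohLoc m ρA →ₗ[HeckePoly O] CohLoc m ρB :=
  IsLocalizedModule.map m (LocalizedModule.mkLinearMap m (Coh1 ρA))
    (LocalizedModule.mkLinearMap m (Coh1 ρB)) (cohMap f hf)

lemma locMap_mk (f : A →ₗ[O] B) (hf : IsIntertwining ρA ρB f) (u : Coh1 ρA) (s : m) :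
    locMap m f hf (LocalizedModule.mk u s) = LocalizedModule.mk (cohMap f hf u) s := by
  rw [locMap, IsLocalizedModule.mk_eq_mk', IsLocalizedModule.map_mk', IsLocalizedModule.mk_eq_mk']

lemma locMap_comp (f : A →ₗ[O] B) (hf : IsIntertwining ρA ρB f) (g : B →ₗ[O] C)
    (hg : IsIntertwining ρB ρC g) (u : CohLoc m ρA) :
    locMap m g hg (locMap m f hf u) = locMap m (g ∘ₗ f) (hg.comp hf) u := by
  induction u using LocalizedModule.induction_on with
  | _ u s => rw [locMap_mk, locMap_mk, locMap_mk, cohMap_comp]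

/-- The localised `H¹` is left exact. -/
theorem locMap_injective (hm : NonEisenstein N m) (f : A →ₗ[O] B)
    (hf : IsIntertwining ρA ρB f) (hfi : Function.Injective f) :
    Function.Injective (locMap m f hf) := by
  obtain ⟨ℓ, hℓ, hℓN, hℓm⟩ := hm
  have : Fact ℓ.Prime := ⟨hℓ⟩
  refine (injective_iff_map_eq_zero _).mpr fun u hu => ?_
  induction u using LocalizedModule.induction_on with
  | _ u s =>
    rw [locMap_mk, IsLocalizedModule.mk_eq_mk', IsLocalizedModule.mk'_eq_zero'] at hu
    obtain ⟨t, ht⟩ := hu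
    rw [Submonoid.smul_def, ← map_smul] at ht
    have hk := eisen_smul_ker f hf hfi hℓN ht
    rw [smul_smul] at hk
    rw [IsLocalizedModule.mk_eq_mk', IsLocalizedModule.mk'_eq_zero']
    exact ⟨⟨eisen O ℓ * t, m.mul_mem hℓm t.2⟩, hk⟩

/-- The localised `H¹` is exact in the middle. -/
theorem locMap_exact (f : A →ₗ[O] B) (hf : IsIntertwining ρA ρB f) (g : B →ₗ[O] C)
    (hg : IsIntertwining ρB ρC g) (hfi : Function.Injective f) (hgs : Function.Surjective g)
    (hfg : Function.Exact f g) (hB : ρB (-1) = 1) :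
    Function.Exact (locMap m f hf) (locMap m g hg) := by
  refine IsLocalizedModule.map_exact m _ _ _ _ _ fun u => ⟨fun hu => ?_, ?_⟩
  · exact cohMap_exact f hf g hg hfi hgs hfg hB hu
  · rintro ⟨v, rfl⟩
    obtain ⟨c, rfl⟩ := toCoh_surjective ρA v
    rw [cohMap_toCoh, cohMap_toCoh, ← map_zero (toCoh ρC)]
    exact congrArg _ (Subtype.ext (funext fun γ => hfg.apply_apply_eq_zero (c.1 γ)))

/-- The localised `H¹` is right exact. -/
theorem locMap_surjective (f : A →ₗ[O] B) (hf : IsIntertwining ρA ρB f)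
    (hfs : Function.Surjective f) (hA : ρA (-1) = 1) (hN : Liftable O N) :
    Function.Surjective (locMap m f hf) :=
  IsLocalizedModule.map_surjective m _ _ _ (cohMap_surjective f hf hfs hA hN)

section Scalar

/-- The representation by multiplication with the values of a character. -/
noncomputable def scalarRep (χ : (ZMod N)ˣ →* O) (M : Type uA) [AddCommGroup M] [Module O M] :
    Representation O (ZMod N)ˣ M :=
  ((algebraMap O (Module.End O M) : O →+* Module.End O M) : O →* Module.End O M).comp χ

@[simp] lemma scalarRep_apply (χ : (ZMod N)ˣ →* O) (u : (ZMod N)ˣ) (a : A) :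
    scalarRep χ A u a = χ u • a := rfl

lemma isIntertwining_scalar (χ : (ZMod N)ˣ →* O) (f : A →ₗ[O] B) :
    IsIntertwining (scalarRep χ A) (scalarRep χ B) f := fun u a => by
  rw [scalarRep_apply, scalarRep_apply, map_smul]

lemma scalarRep_neg_one {χ : (ZMod N)ˣ →* O} (h : χ (-1) = 1) (M : Type uA) [AddCommGroup M]
    [Module O M] : scalarRep χ M (-1) = 1 :=
  LinearMap.ext fun a => by rw [scalarRep_apply, h, one_smul]; rfl

variable (χ : (ZMod N)ˣ →* O)

/-- The functor `M ↦ H¹(Γ₀(N), M(χ))_m` on modules. -/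
abbrev CohChar (M : Type uA) [AddCommGroup M] [Module O M] : Type _ :=
  CohLoc m (scalarRep χ M)

/-- Functoriality of `CohChar`. -/
noncomputable def charMap (f : A →ₗ[O] B) : CohChar m χ A →ₗ[HeckePoly O] CohChar m χ B :=
  locMap m f (isIntertwining_scalar χ f)

lemma charMap_comp (f : A →ₗ[O] B) (g : B →ₗ[O] C) (u : CohChar m χ A) :
    charMap m χ g (charMap m χ f u) = charMap m χ (g ∘ₗ f) u :=
  locMap_comp m f _ g _ u

lemma charMap_add (f g : A →ₗ[O] B) (u : CohChar m χ A) :
    charMap m χ (f + g) u = charMap m χ f u + charMap m χ g u := by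
  induction u using LocalizedModule.induction_on with
  | _ u s =>
    obtain ⟨c, rfl⟩ := toCoh_surjective (scalarRep χ A) u
    simp only [charMap, locMap_mk, cohMap_toCoh]
    rw [LocalizedModule.mk_add_mk, ← smul_add, ← LinearMap.map_add, Submonoid.smul_def,
      ← LocalizedModule.mk_cancel_common_left s s]
    rw [Submonoid.smul_def]
    rfl

lemma charMap_id (u : CohChar m χ A) : charMap m χ (LinearMap.id) u = u := by
  induction u using LocalizedModule.induction_on with
  | _ u s =>
    obtain ⟨c, rfl⟩ := toCoh_surjective (scalarRep χ A) u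
    rw [charMap, locMap_mk, cohMap_toCoh]
    rfl

lemma charMap_smul_id (r : O) (u : CohChar m χ A) :
    charMap m χ (r • LinearMap.id) u = (MvPolynomial.C r : HeckePoly O) • u := by
  induction u using LocalizedModule.induction_on with
  | _ u s =>
    obtain ⟨c, rfl⟩ := toCoh_surjective (scalarRep χ A) u
    rw [charMap, locMap_mk, cohMap_toCoh, LocalizedModule.smul'_mk, ← MvPolynomial.algebraMap_eq,
      algebraMap_smul, ← map_smul]
    rfl

/-- `charMap` as an additive map in the morphism. -/
noncomputable def charMapHom : (A →ₗ[O] B) →+ (CohChar m χ A →ₗ[HeckePoly O] CohChar m χ B) :=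
  AddMonoidHom.mk' (charMap m χ) fun f g => LinearMap.ext (charMap_add m χ f g)

end Scalar

end Fermat.Agent.HeckeModule
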