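import Mathlib.NumberTheory.LegendreSymbol.Basic
import Fermat.Agent.HeckeModule.Lift

/-!
Criteria for the absence of elliptic points on `Γ₀(N)`.
-/

set_option autoImplicit false

open CongruenceSubgroup
open scoped MatrixGroups

universe uO

namespace Fermat.Agent.HeckeModule

open Gamma0Count EichlerShimura

variable {N : ℕ}

/-- If `-1` is not a square modulo `N`, then `S` fixes no coset. -/
theorem S_smul_ne_self (h : ∀ t : ZMod N, t ^ 2 + 1 ≠ 0) (x : CosetSpace N) :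
    ModularGroup.S • x ≠ x := by
  obtain ⟨g, rfl⟩ := Quotient.exists_rep x
  intro hx
  have hq := (S_smul_eq_self_iff (N := N) g).mp hx
  have hd := det_cast (N := N) g
  set a : ZMod N := ((g 0 0 : ℤ) : ZMod N)
  set b : ZMod N := ((g 0 1 : ℤ) : ZMod N)
  set c : ZMod N := ((g 1 0 : ℤ) : ZMod N)
  set d : ZMod N := ((g 1 1 : ℤ) : ZMod N)
  set c' : ZMod N := -(c * d ^ 2 + b * (2 + b * c))
  have hc : c * c' = 1 := by
    linear_combination (-d ^ 2) * hq + (a * d + b * c + 1) * hd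
  exact h (a * c') (by linear_combination c' ^ 2 * hq - (c * c' + 1) * hc)

/-- If `t² + t + 1` has no root modulo `N`, then `T S` fixes no coset. -/
theorem elV_smul_ne_self (h : ∀ t : ZMod N, t ^ 2 + t + 1 ≠ 0) (x : CosetSpace N) :
    elV • x ≠ x := by
  intro hx0
  have hx' : (ModularGroup.S * ModularGroup.T) • ModularGroup.S • x = ModularGroup.S • x := by
    rw [smul_smul, mul_assoc, mul_smul]
    exact congrArg (ModularGroup.S • ·) hx0
  obtain ⟨g, hg⟩ := Quotient.exists_rep (ModularGroup.S • x)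
  rw [← hg] at hx'
  have hq := (ST_smul_eq_self_iff (N := N) g).mp hx'
  have hd := det_cast (N := N) g
  set a : ZMod N := ((g 0 0 : ℤ) : ZMod N)
  set b : ZMod N := ((g 0 1 : ℤ) : ZMod N)
  set c : ZMod N := ((g 1 0 : ℤ) : ZMod N)
  set d : ZMod N := ((g 1 1 : ℤ) : ZMod N)
  set c' : ZMod N := -(c * d ^ 2 + d * (1 + b * c) + b * (2 + b * c))
  have hc : c * c' = 1 := by
    linear_combination (-d ^ 2) * hq + (a * d + b * c + 1 + c * d) * hd
  exact h (a * c') (by linear_combination c' ^ 2 * hq - (c * c' + 1 + a * c') * hc)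

lemma sq_add_one_ne_of_prime_dvd {q : ℕ} [Fact q.Prime] (hqN : q ∣ N) (hq : q % 4 = 3)
    (t : ZMod N) : t ^ 2 + 1 ≠ 0 := by
  intro ht
  have h := congrArg (ZMod.castHom hqN (ZMod q)) ht
  rw [map_add, map_pow, map_one, map_zero, add_eq_zero_iff_eq_neg] at h
  exact ZMod.exists_sq_eq_neg_one_iff.mp ⟨ZMod.castHom hqN (ZMod q) t, by rw [← h, sq]⟩ hq

lemma sq_add_add_one_ne_of_prime_dvd {q : ℕ} [hq' : Fact q.Prime] (hqN : q ∣ N) (hq : q % 3 = 2)
    (t : ZMod N) : t ^ 2 + t + 1 ≠ 0 := by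
  intro ht
  have h := congrArg (ZMod.castHom hqN (ZMod q)) ht
  rw [map_add, map_add, map_pow, map_one, map_zero] at h
  set u := ZMod.castHom hqN (ZMod q) t
  have h3 : u ^ 3 = 1 := by linear_combination (u - 1) * h
  have hu0 : u ≠ 0 := fun h0 => by simp [h0] at h
  have hfl := ZMod.pow_card_sub_one_eq_one hu0
  obtain ⟨k, hk⟩ : ∃ k, q - 1 = 3 * k + 1 := ⟨q / 3, by omega⟩
  rw [hk, pow_succ, pow_mul, h3, one_pow, one_mul] at hfl
  rw [hfl] at h
  have h3' : ((3 : ℕ) : ZMod q) = 0 := by push_cast; linear_combination h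
  rw [ZMod.natCast_eq_zero_iff] at h3'
  have := (Nat.prime_dvd_prime_iff_eq hq'.out Nat.prime_three).mp h3'
  omega

/-- A criterion for `Liftable`. -/
theorem liftable_of (O : Type uO) [CommRing O] (N : ℕ)
    (h2 : IsUnit (2 : O) ∨ ∃ q : ℕ, q.Prime ∧ q ∣ N ∧ q % 4 = 3)
    (h3 : IsUnit (3 : O) ∨ ∃ q : ℕ, q.Prime ∧ q ∣ N ∧ q % 3 = 2) : Liftable O N := by
  refine ⟨h2.imp_right ?_, h3.imp_right ?_⟩
  · rintro ⟨q, hq, hqN, hq4⟩
    have : Fact q.Prime := ⟨hq⟩
    exact S_smul_ne_self (sq_add_one_ne_of_prime_dvd hqN hq4)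
  · rintro ⟨q, hq, hqN, hq3⟩
    have : Fact q.Prime := ⟨hq⟩
    exact elV_smul_ne_self (sq_add_add_one_ne_of_prime_dvd hqN hq3)

end Fermat.Agent.HeckeModule
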