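import Mathlib.RingTheory.Flat.EquationalCriterion
import Mathlib.RingTheory.LocalRing.Module
import Mathlib.RingTheory.Noetherian.Basic
import Fermat.Agent.HeckeModule.Localize

/-!
`H¹(Γ₀(N), Λ(χ))_m` is flat over `Λ`, and commutes with base change `Λ → Λ/J`.
-/

set_option autoImplicit false

universe uO uA uB

namespace Fermat.Agent.HeckeModule

variable {N : ℕ} {O : Type uO} [CommRing O] (m : Submonoid (HeckePoly O))
  (χ : (ZMod N)ˣ →* O)
  {A : Type uA} [AddCommGroup A] [Module O A] {B : Type uB} [AddCommGroup B] [Module O B]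

lemma charMap_congr {f g : A →ₗ[O] B} (h : f = g) (u : CohChar m χ A) :
    charMap m χ f u = charMap m χ g u := by rw [h]

lemma charMap_zero (u : CohChar m χ A) : charMap m χ (0 : A →ₗ[O] B) u = 0 := by
  have h := LinearMap.congr_fun (map_zero (charMapHom m χ (A := A) (B := B))) u
  exact h

lemma charMap_sum {ι : Type*} (s : Finset ι) (f : ι → A →ₗ[O] B) (u : CohChar m χ A) :
    charMap m χ (∑ i ∈ s, f i) u = ∑ i ∈ s, charMap m χ (f i) u := by
  have h := LinearMap.congr_fun (map_sum (charMapHom m χ (A := A) (B := B)) f s) u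
  rw [LinearMap.sum_apply] at h
  exact h

lemma charMap_smul (r : O) (f : A →ₗ[O] B) (u : CohChar m χ A) :
    charMap m χ (r • f) u = r • charMap m χ f u := by
  rw [show r • f = (r • LinearMap.id) ∘ₗ f from rfl, ← charMap_comp, charMap_smul_id,
    ← MvPolynomial.algebraMap_eq, algebraMap_smul]

lemma charMap_apply_smul (r : O) (f : A →ₗ[O] B) (u : CohChar m χ A) :
    charMap m χ f (r • u) = r • charMap m χ f u :=
  LinearMap.map_smul_of_tower _ r u

variable {m χ}

/-- The hypotheses under which the localised `H¹` is exact. -/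
structure ExactHyp (m : Submonoid (HeckePoly O)) (χ : (ZMod N)ˣ →* O) : Prop where
  nonEisenstein : NonEisenstein N m
  liftable : Liftable O N
  even : χ (-1) = 1

variable (h : ExactHyp m χ)
include h

theorem charMap_injective (f : A →ₗ[O] B) (hf : Function.Injective f) :
    Function.Injective (charMap m χ f) :=
  locMap_injective m h.nonEisenstein f _ hf

theorem charMap_surjective (f : A →ₗ[O] B) (hf : Function.Surjective f) :
    Function.Surjective (charMap m χ f) :=
  locMap_surjective m f _ hf (scalarRep_neg_one h.even A) h.liftable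

theorem charMap_exact {C : Type uA} [AddCommGroup C] [Module O C] (f : A →ₗ[O] B) (g : B →ₗ[O] C)
    (hf : Function.Injective f) (hg : Function.Surjective g) (hfg : Function.Exact f g) :
    Function.Exact (charMap m χ f) (charMap m χ g) :=
  locMap_exact m f _ g _ hf hg hfg (scalarRep_neg_one h.even B)

/-- `H¹(Γ₀(N), Λ(χ))_m` is flat over `Λ`. -/
theorem flat_cohChar [IsNoetherianRing O] : Module.Flat O (CohChar m χ O) := by
  rw [Module.Flat.iff_forall_isTrivialRelation]
  intro l f x hfx
  let g : (Fin l → O) →ₗ[O] O := ∑ i, f i • LinearMap.proj i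
  let inj : Fin l → O →ₗ[O] (Fin l → O) := fun i => LinearMap.single O (fun _ => O) i
  let ξ : CohChar m χ (Fin l → O) := ∑ i, charMap m χ (inj i) (x i)
  have hg : ∀ v : Fin l → O, g v = ∑ i, f i * v i := fun v => by simp [g]
  have hgi : ∀ i, g ∘ₗ inj i = f i • LinearMap.id := fun i => LinearMap.ext_ring (by
    simp [g, inj, Pi.single_apply])
  have hξ : charMap m χ g ξ = 0 := by
    simp only [ξ, map_sum, charMap_comp]
    refine (Finset.sum_congr rfl fun i _ => ?_).trans hfx
    rw [charMap_congr m χ (hgi i), charMap_smul, charMap_id]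
  -- restrict to the range, then to the kernel
  let g' : (Fin l → O) →ₗ[O] LinearMap.range g := g.rangeRestrict
  let ι : LinearMap.range g →ₗ[O] O := (LinearMap.range g).subtype
  have hξ' : charMap m χ g' ξ = 0 := charMap_injective h ι Subtype.val_injective (by
    rw [charMap_comp, map_zero]; exact hξ)
  let κ : LinearMap.ker g →ₗ[O] (Fin l → O) := (LinearMap.ker g).subtype
  have hex : Function.Exact κ g' := fun v => by
    refine ⟨fun hv => ⟨⟨v, congrArg Subtype.val hv⟩, rfl⟩, ?_⟩
    rintro ⟨w, rfl⟩
    exact Subtype.ext w.2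
  obtain ⟨η, hη⟩ := (charMap_exact h κ g' Subtype.val_injective g.surjective_rangeRestrict hex
    ξ).mp hξ'
  obtain ⟨k, π, hπ⟩ := (Submodule.fg_iff_exists_fin_linearMap O (Fin l → O)).mp
    (IsNoetherian.noetherian (LinearMap.ker g))
  let π' : (Fin k → O) →ₗ[O] LinearMap.ker g :=
    π.codRestrict _ fun v => hπ ▸ LinearMap.mem_range_self π v
  have hπ' : Function.Surjective π' := fun w => by
    obtain ⟨v, hv⟩ : (w : Fin l → O) ∈ LinearMap.range π := hπ.symm ▸ w.2
    exact ⟨v, Subtype.ext hv⟩
  obtain ⟨ζ, hζ⟩ := charMap_surjective h π' hπ' η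
  have hξζ : ξ = charMap m χ π ζ := by
    rw [← hη, ← hζ, charMap_comp]
    rfl
  let pr : Fin k → (Fin k → O) →ₗ[O] O := fun j => LinearMap.proj j
  refine ⟨k, fun i j => π (Pi.single j 1) i, fun j => charMap m χ (pr j) ζ, fun i => ?_,
    fun j => ?_⟩
  · have h1 : x i = charMap m χ (LinearMap.proj i) ξ := by
      simp only [ξ, map_sum, charMap_comp]
      rw [Finset.sum_eq_single i]
      · rw [charMap_congr m χ (show (LinearMap.proj i : (Fin l → O) →ₗ[O] O) ∘ₗ inj i
          = LinearMap.id from LinearMap.ext_ring (by simp [inj])), charMap_id]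
      · intro b _ hb
        rw [charMap_congr m χ (show (LinearMap.proj i : (Fin l → O) →ₗ[O] O) ∘ₗ inj b = 0 from
          LinearMap.ext_ring (by simp [inj, Ne.symm hb])), charMap_zero]
      · simp
    rw [h1, hξζ, charMap_comp]
    have h2 : (LinearMap.proj i : (Fin l → O) →ₗ[O] O) ∘ₗ π
        = ∑ j, π (Pi.single j 1) i • pr j := by
      refine LinearMap.pi_ext' fun j => LinearMap.ext_ring ?_
      simp [pr, Pi.single_apply]
    rw [charMap_congr m χ h2, charMap_sum]
    exact Finset.sum_congr rfl fun j _ => charMap_smul m χ _ _ _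
  · have hmem : π (Pi.single j 1) ∈ LinearMap.ker g := hπ ▸ LinearMap.mem_range_self π _
    rw [LinearMap.mem_ker, hg] at hmem
    exact hmem

/-- If `Λ` is local and the module is finite, it is free. -/
theorem free_cohChar [IsNoetherianRing O] [IsLocalRing O] [Module.Finite O (CohChar m χ O)] :
    Module.Free O (CohChar m χ O) :=
  haveI := flat_cohChar h
  Module.free_of_flat_of_isLocalRing

/-- Base change: the kernel of reduction modulo an ideal. -/
theorem ker_charMap_mkQ [IsNoetherianRing O] (J : Ideal O) (u : CohChar m χ O) :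
    charMap m χ (Submodule.mkQ J) u = 0 ↔ u ∈ J • (⊤ : Submodule O (CohChar m χ O)) := by
  refine ⟨fun hu => ?_, fun hu => ?_⟩
  · obtain ⟨v, rfl⟩ := (charMap_exact h J.subtype J.mkQ Subtype.val_injective
      J.mkQ_surjective (LinearMap.exact_subtype_mkQ J) u).mp hu
    obtain ⟨k, π, hπ⟩ := (Submodule.fg_iff_exists_fin_linearMap O O).mp (IsNoetherian.noetherian J)
    let π' : (Fin k → O) →ₗ[O] J := π.codRestrict _ fun w => hπ ▸ LinearMap.mem_range_self π w
    have hπ' : Function.Surjective π' := fun w => by
      obtain ⟨z, hz⟩ : (w : O) ∈ LinearMap.range π := hπ.symm ▸ w.2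
      exact ⟨z, Subtype.ext hz⟩
    obtain ⟨ζ, rfl⟩ := charMap_surjective h π' hπ' v
    rw [charMap_comp]
    have h2 : J.subtype ∘ₗ π' = ∑ j, π (Pi.single j 1) • LinearMap.proj j := by
      refine LinearMap.pi_ext' fun j => LinearMap.ext_ring ?_
      simp [π', Pi.single_apply]
    rw [charMap_congr m χ h2, charMap_sum]
    refine Submodule.sum_mem _ fun j _ => ?_
    rw [charMap_smul]
    exact Submodule.smul_mem_smul (hπ ▸ LinearMap.mem_range_self π _) Submodule.mem_top
  · refine Submodule.smul_induction_on hu (fun r hr v _ => ?_) fun a b ha hb => by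
      rw [map_add, ha, hb, add_zero]
    rw [charMap_apply_smul, ← charMap_smul, charMap_congr m χ (show r • J.mkQ = 0 from
      LinearMap.ext_ring ((Submodule.Quotient.mk_eq_zero J).mpr (by simpa using hr))),
      charMap_zero]

end Fermat.Agent.HeckeModule
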