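import Fermat.Agent.HeckeModule.LevelModP
import Mathlib.RingTheory.Nakayama
import Mathlib.RingTheory.OrzechProperty
import Mathlib.LinearAlgebra.Basis.VectorSpace
import Mathlib.RingTheory.LocalRing.ResidueField.Basic

/-!
Over a complete local ring of coefficients congruent to `1` the sum of the two degeneracy maps is a
split injection and the pair of transfers is surjective.
-/

set_option autoImplicit false

open CongruenceSubgroup IsLocalRing

universe uO uA uB

namespace Fermat.Agent.HeckeModule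

section Algebra

variable {R : Type uO} [CommRing R] [IsLocalRing R] {M : Type uA} [AddCommGroup M] [Module R M]
  {M' : Type uB} [AddCommGroup M'] [Module R M'] [Module.Finite R M]

/-- A map of finite free modules that is injective modulo the maximal ideal is split. -/
theorem exists_leftInverse_of_mod [Module.Free R M] [Module.Free R M'] (L : M →ₗ[R] M')
    (hL : ∀ x, L x ∈ maximalIdeal R • (⊤ : Submodule R M') →
      x ∈ maximalIdeal R • (⊤ : Submodule R M)) :
    ∃ left : M' →ₗ[R] M, left ∘ₗ L = LinearMap.id := by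
  let : Field (R ⧸ maximalIdeal R) := Ideal.Quotient.field _
  let PM := maximalIdeal R • (⊤ : Submodule R M)
  let PM' := maximalIdeal R • (⊤ : Submodule R M')
  have hle : PM ≤ PM'.comap L := by
    rw [← Submodule.map_le_iff_le_comap, Submodule.map_smul'']
    exact Submodule.smul_mono le_rfl le_top
  let Lb : (M ⧸ PM) →ₗ[R ⧸ maximalIdeal R] (M' ⧸ PM') :=
    LinearMap.extendScalarsOfSurjective Ideal.Quotient.mk_surjective (PM.mapQ PM' L hle)
  have hLb : LinearMap.ker Lb = ⊥ := by
    rw [LinearMap.ker_eq_bot']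
    intro u hu
    obtain ⟨x, rfl⟩ := PM.mkQ_surjective u
    exact (Submodule.Quotient.mk_eq_zero _).mpr (hL x ((Submodule.Quotient.mk_eq_zero _).mp hu))
  obtain ⟨gb, hgb⟩ := LinearMap.exists_leftInverse_of_injective Lb hLb
  obtain ⟨g, hg⟩ := Module.projective_lifting_property PM.mkQ
    ((gb.restrictScalars R) ∘ₗ PM'.mkQ) PM.mkQ_surjective
  have hmod : ∀ x, g (L x) - x ∈ PM := fun x => by
    refine (Submodule.Quotient.eq _).mp ?_
    exact (LinearMap.congr_fun hg (L x)).trans (LinearMap.congr_fun hgb (Submodule.Quotient.mk x))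
  have htop : LinearMap.range (g ∘ₗ L) = ⊤ := by
    refine eq_top_iff.mpr (Submodule.le_of_le_smul_of_le_jacobson_bot Module.Finite.fg_top
      (IsLocalRing.maximalIdeal_le_jacobson _) fun x _ => ?_)
    refine Submodule.mem_sup.mpr ⟨g (L x), ⟨x, rfl⟩, -(g (L x) - x), PM.neg_mem (hmod x), ?_⟩
    abel
  have hsur : Function.Surjective (g ∘ₗ L) := LinearMap.range_eq_top.mp htop
  let e := LinearEquiv.ofBijective (g ∘ₗ L)
    ⟨OrzechProperty.injective_of_surjective_endomorphism _ hsur, hsur⟩
  exact ⟨e.symm.toLinearMap ∘ₗ g, LinearMap.ext fun x => e.symm_apply_apply x⟩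

/-- A map onto a finite module that is surjective modulo the maximal ideal is surjective. -/
theorem surjective_of_mod (L : M' →ₗ[R] M)
    (hL : ∀ x, ∃ y, L y - x ∈ maximalIdeal R • (⊤ : Submodule R M)) : Function.Surjective L := by
  refine LinearMap.range_eq_top.mp (eq_top_iff.mpr
    (Submodule.le_of_le_smul_of_le_jacobson_bot Module.Finite.fg_top
      (IsLocalRing.maximalIdeal_le_jacobson _) fun x _ => ?_))
  obtain ⟨y, hy⟩ := hL x
  refine Submodule.mem_sup.mpr ⟨L y, ⟨y, rfl⟩, -(L y - x), Submodule.neg_mem _ hy, ?_⟩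
  abel

end Algebra

section Natural

variable {O : Type uO} [CommRing O] {N N' : ℕ}
  {A : Type uA} [AddCommGroup A] [Module O A] {B : Type uB} [AddCommGroup B] [Module O B]
  {ρA : Representation O (ZMod N)ˣ A} {ρB : Representation O (ZMod N)ˣ B}
  {σA : Representation O (ZMod N')ˣ A} {σB : Representation O (ZMod N')ˣ B}

/-- Operators of the same data commute with maps of coefficients. -/
theorem cohMapO_onH1 {ι : Type*} [Fintype ι] (f : A →ₗ[O] B) (hf : IsIntertwining ρA ρB f)
    (hf' : IsIntertwining σA σB f)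
    (DA : Data (toGL N) (toGL N') (gammaRep ρA) (gammaRep σA) {negOne N} {negOne N'} ι)
    (DB : Data (toGL N) (toGL N') (gammaRep ρB) (gammaRep σB) {negOne N} {negOne N'} ι)
    (hα : ∀ x, DA.α x = DB.α x) (hε : ∀ x a, f (DA.ε x a) = DB.ε x (f a)) (u : Coh1 ρA) :
    cohMapO f hf' (DA.onH1 toGL_injective u) = DB.onH1 toGL_injective (cohMapO f hf u) := by
  obtain ⟨c, rfl⟩ := toCoh_surjective ρA u
  refine congrArg (toCoh σB) (Subtype.ext (funext fun γ => ?_))
  show f (DA.raw c.1 γ) = DB.raw (fun δ => f (c.1 δ)) γ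
  rw [Data.raw_apply, Data.raw_apply, map_sum]
  refine Finset.sum_congr rfl fun x _ => ?_
  have h1 := DA.mul_spec x γ
  rw [hα, hα] at h1
  rw [hε, (DB.spec_unique toGL_injective h1).2]

/-- Localised maps commute with maps of coefficients. -/
theorem locMap_locLift {P : Submonoid (HeckePoly O)} (f : A →ₗ[O] B)
    (hf : IsIntertwining ρA ρB f) (hf' : IsIntertwining σA σB f)
    (gA : Coh1 ρA →ₗ[O] Coh1 σA) (hgA : ∀ s ∈ P, ∀ u, gA (s • u) = s • gA u)
    (gB : Coh1 ρB →ₗ[O] Coh1 σB) (hgB : ∀ s ∈ P, ∀ u, gB (s • u) = s • gB u)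
    (h : ∀ u, cohMapO f hf' (gA u) = gB (cohMapO f hf u)) (x : CohLoc P ρA) :
    locMap P f hf' (locLift P gA hgA x) = locLift P gB hgB (locMap P f hf x) := by
  induction x using LocalizedModule.induction_on with
  | _ u s =>
    rw [locLift_mk, locMap_mk, locMap_mk, locLift_mk]
    exact congrArg (LocalizedModule.mk · s) (h u)

end Natural

section NaturalLoc

variable {O : Type uO} [CommRing O] {A : Type uA} [AddCommGroup A] [Module O A]
  {B : Type uB} [AddCommGroup B] [Module O B] {N q : ℕ} [hq : Fact q.Prime] {S : Set ℕ}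
  {P : Submonoid (HeckePoly O)} (hP : IsAway S P)
  (hS : ∀ ℓ : ℕ, ℓ.Prime → ℓ ∣ q * N → ℓ ∈ S)
  {ρA : Representation O (ZMod N)ˣ A} {ρB : Representation O (ZMod N)ˣ B} (f : A →ₗ[O] B)
  (hf : IsIntertwining ρA ρB f)
  (hf' : IsIntertwining (pullRep ρA (dvd_mul_left N q)) (pullRep ρB (dvd_mul_left N q)) f)

omit hq in
lemma locMap_locRes (x : CohLoc P ρA) :
    locMap P f hf' (locRes hP hS ρA x) = locRes hP hS ρB (locMap P f hf x) :=
  locMap_locLift f hf hf' _ _ _ _ (fun u => cohMapO_onH1 f hf hf'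
    (degenData ρA one_ne_zero _) (degenData ρB one_ne_zero _) (fun _ => rfl) (fun _ _ => rfl) u) x

lemma locMap_locDegen (x : CohLoc P ρA) :
    locMap P f hf' (locDegen hP hS ρA x) = locDegen hP hS ρB (locMap P f hf x) :=
  locMap_locLift f hf hf' _ _ _ _ (fun u => cohMapO_onH1 f hf hf'
    (degenData ρA hq.out.ne_zero _) (degenData ρB hq.out.ne_zero _) (fun _ => rfl)
    (fun _ _ => rfl) u) x

variable (hqN : ¬ q ∣ N)

lemma locMap_locTrace (z : CohLoc P (pullRep ρA (dvd_mul_left N q))) :
    locMap P f hf (locTrace hP hS ρA hqN z) = locTrace hP hS ρB hqN (locMap P f hf' z) :=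
  locMap_locLift f hf' hf _ _ _ _ (fun u => cohMapO_onH1 f hf' hf
    (traceData ρA hqN) (traceData ρB hqN) (fun _ => rfl) (fun _ _ => rfl) u) z

lemma locMap_locTraceTwist (z : CohLoc P (pullRep ρA (dvd_mul_left N q))) :
    locMap P f hf (locTraceTwist hP hS ρA hqN z) = locTraceTwist hP hS ρB hqN (locMap P f hf' z) :=
  locMap_locLift f hf' hf _ _ _ _ (fun u => cohMapO_onH1 f hf' hf
    (traceTwistData ρA hqN) (traceTwistData ρB hqN) (fun _ => rfl) (fun _ _ => rfl) u) z

end NaturalLoc

section Complete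

variable {O : Type} [CommRing O] [IsNoetherianRing O] [IsLocalRing O]
  [IsAdicComplete (maximalIdeal O) O] {p : ℕ} [CharP (ResidueField O) p] [Fact p.Prime]
  {N q : ℕ} [NeZero N] [hq : Fact q.Prime] {S : Set ℕ} {m : Ideal (AwayPoly O S)} [m.IsPrime]
  (hm : (maximalIdeal O).map (algebraMap O (AwayPoly O S)) ≤ m)
  (hS : ∀ ℓ : ℕ, ℓ.Prime → ℓ ∣ q * N → ℓ ∈ S) {χ : (ZMod N)ˣ →* O}

/-- The character at level `qN`. -/
noncomputable abbrev upChar (q : ℕ) (χ : (ZMod N)ˣ →* O) : (ZMod (q * N))ˣ →* O :=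
  χ.comp (ZMod.unitsMap (dvd_mul_left N q))

variable (hE : ExactHyp (awayMonoid m) χ) (hE' : ExactHyp (awayMonoid m) (upChar q χ))
  (H : IharaPrimes (awayMonoid m) N q p) (hqN : ¬ q ∣ N)
  (hχ : ∀ u, χ u - 1 ∈ maximalIdeal O)

omit [IsNoetherianRing O] [IsAdicComplete (maximalIdeal O) O] [NeZero N] in
include hχ in
lemma residue_char_eq_one (u : (ZMod N)ˣ) : algebraMap O (ResidueField O) (χ u) = 1 := by
  rw [← sub_eq_zero, ← map_one (algebraMap O (ResidueField O)), ← map_sub]
  exact Ideal.Quotient.eq_zero_iff_mem.mpr (hχ u)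

include hm hE hE' H hqN hχ in
/-- `(x, y) ↦ res x + degen y` is a split injection. -/
theorem exists_leftInverse_locRes_add_locDegen :
    ∃ left : CohLoc (awayMonoid m) (pullRep (scalarRep χ O) (dvd_mul_left N q)) →ₗ[O]
        CohChar (awayMonoid m) χ O × CohChar (awayMonoid m) χ O,
      left ∘ₗ ((locRes (isAway_awayMonoid m) hS (scalarRep χ O)).coprod
        (locDegen (isAway_awayMonoid m) hS (scalarRep χ O))) = LinearMap.id := by
  have : NeZero (q * N) := ⟨mul_ne_zero hq.out.ne_zero (NeZero.ne N)⟩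
  obtain ⟨hfin, hfree⟩ := free_cohChar_of_complete m χ hm hE
  obtain ⟨hfin', hfree'⟩ := free_cohChar_of_complete m (upChar q χ) hm hE'
  have : Module.Free O
      (CohLoc (awayMonoid m) (pullRep (scalarRep χ O) (dvd_mul_left N q))) := hfree'
  refine exists_leftInverse_of_mod _ fun z hz => ?_
  obtain ⟨x, y⟩ := z
  let f : O →ₗ[O] ResidueField O := (maximalIdeal O).mkQ
  have hf1 := isIntertwining_scalar χ f
  have hf2 : IsIntertwining (pullRep (scalarRep χ O) (dvd_mul_left N q))
      (pullRep (scalarRep χ (ResidueField O)) (dvd_mul_left N q)) f := fun _ _ => hf1 _ _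
  have h0 : locMap (awayMonoid m) f hf2
      (locRes (isAway_awayMonoid m) hS (scalarRep χ O) x
        + locDegen (isAway_awayMonoid m) hS (scalarRep χ O) y) = 0 :=
    (ker_charMap_mkQ hE' (maximalIdeal O) _).mpr hz
  rw [map_add, locMap_locRes _ _ f hf1 hf2, locMap_locDegen _ _ f hf1 hf2] at h0
  obtain ⟨hx, hy⟩ := eq_zero_of_locRes_add_locDegen (isAway_awayMonoid m) hS H hqN
    (residue_char_eq_one hχ) h0
  have hx' := (ker_charMap_mkQ hE (maximalIdeal O) x).mp hx
  have hy' := (ker_charMap_mkQ hE (maximalIdeal O) y).mp hy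
  set U := (⊤ : Submodule O (CohChar (awayMonoid m) χ O × CohChar (awayMonoid m) χ O))
  have hxy : (x, y) = LinearMap.inl O _ _ x + LinearMap.inr O _ _ y := by simp
  rw [hxy]
  have key : ∀ (F : CohChar (awayMonoid m) χ O →ₗ[O]
      CohChar (awayMonoid m) χ O × CohChar (awayMonoid m) χ O),
      ∀ w ∈ maximalIdeal O • (⊤ : Submodule O (CohChar (awayMonoid m) χ O)),
        F w ∈ maximalIdeal O • U := fun F w hw => by
    have := Submodule.mem_map_of_mem (f := F) hw
    rw [Submodule.map_smul''] at this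
    exact Submodule.smul_mono le_rfl le_top this
  exact Submodule.add_mem _ (key _ x hx') (key _ y hy')

include hm hE H hχ in
/-- The pair of transfers is surjective. -/
theorem surjective_locTrace_prod (hN : Liftable (ResidueField O) N)
    (hE' : ExactHyp (awayMonoid m) (upChar q χ)) :
    Function.Surjective ((locTrace (isAway_awayMonoid m) hS (scalarRep χ O) hqN).prod
      (locTraceTwist (isAway_awayMonoid m) hS (scalarRep χ O) hqN)) := by
  obtain ⟨hfin, -⟩ := free_cohChar_of_complete m χ hm hE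
  refine surjective_of_mod _ fun w => ?_
  obtain ⟨x, y⟩ := w
  let f : O →ₗ[O] ResidueField O := (maximalIdeal O).mkQ
  have hf1 := isIntertwining_scalar χ f
  have hf2 : IsIntertwining (pullRep (scalarRep χ O) (dvd_mul_left N q))
      (pullRep (scalarRep χ (ResidueField O)) (dvd_mul_left N q)) f := fun _ _ => hf1 _ _
  obtain ⟨z, hz1, hz2⟩ := exists_locTrace_eq (isAway_awayMonoid m) hS H hqN
    (residue_char_eq_one hχ) hN (locMap (awayMonoid m) f hf1 x) (locMap (awayMonoid m) f hf1 y)
  obtain ⟨z', rfl⟩ : ∃ z', locMap (awayMonoid m) f hf2 z' = z :=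
    charMap_surjective hE' f (maximalIdeal O).mkQ_surjective z
  refine ⟨z', ?_⟩
  rw [← locMap_locTrace _ _ f hf1 hf2] at hz1
  rw [← locMap_locTraceTwist _ _ f hf1 hf2] at hz2
  have h1 : locTrace (isAway_awayMonoid m) hS (scalarRep χ O) hqN z' - x ∈
      maximalIdeal O • (⊤ : Submodule O (CohChar (awayMonoid m) χ O)) :=
    (ker_charMap_mkQ hE (maximalIdeal O) _).mp
      ((map_sub (locMap (awayMonoid m) f hf1) _ _).trans (sub_eq_zero.mpr hz1))
  have h2 : locTraceTwist (isAway_awayMonoid m) hS (scalarRep χ O) hqN z' - y ∈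
      maximalIdeal O • (⊤ : Submodule O (CohChar (awayMonoid m) χ O)) :=
    (ker_charMap_mkQ hE (maximalIdeal O) _).mp
      ((map_sub (locMap (awayMonoid m) f hf1) _ _).trans (sub_eq_zero.mpr hz2))
  set U := (⊤ : Submodule O (CohChar (awayMonoid m) χ O × CohChar (awayMonoid m) χ O))
  have key : ∀ (F : CohChar (awayMonoid m) χ O →ₗ[O]
      CohChar (awayMonoid m) χ O × CohChar (awayMonoid m) χ O),
      ∀ w ∈ maximalIdeal O • (⊤ : Submodule O (CohChar (awayMonoid m) χ O)),
        F w ∈ maximalIdeal O • U := fun F w hw => by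
    have := Submodule.mem_map_of_mem (f := F) hw
    rw [Submodule.map_smul''] at this
    exact Submodule.smul_mono le_rfl le_top this
  have := Submodule.add_mem _ (key (LinearMap.inl O _ _) _ h1) (key (LinearMap.inr O _ _) _ h2)
  simpa using this

end Complete

end Fermat.Agent.HeckeModule
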