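import Fermat.Agent.HeckeModule.Natural

/-!
Hecke polynomials away from a set of primes.
-/

set_option autoImplicit false

universe uO

namespace Fermat.Agent.HeckeModule

/-- The prime indices outside `S`. -/
abbrev AwayIndex (S : Set ℕ) : Type := {l : Nat.Primes // (l : ℕ) ∉ S}

/-- The polynomial ring in the Hecke operators at primes outside `S`. -/
abbrev AwayPoly (O : Type uO) [CommRing O] (S : Set ℕ) : Type uO := MvPolynomial (AwayIndex S) O

variable {O : Type uO} [CommRing O] {S : Set ℕ}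

/-- The inclusion in all Hecke polynomials. -/
noncomputable def awayIncl (O : Type uO) [CommRing O] (S : Set ℕ) :
    AwayPoly O S →ₐ[O] HeckePoly O :=
  MvPolynomial.rename Subtype.val

lemma awayIncl_X (l : AwayIndex S) :
    awayIncl O S (MvPolynomial.X l) = MvPolynomial.X (l : Nat.Primes) :=
  MvPolynomial.rename_X _ _

/-- The multiplicative set attached to a prime of the Hecke polynomials away from `S`. -/
noncomputable def awayMonoid (m : Ideal (AwayPoly O S)) [m.IsPrime] : Submonoid (HeckePoly O) :=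
  m.primeCompl.map (awayIncl O S : AwayPoly O S →+* HeckePoly O)

lemma mem_awayMonoid {m : Ideal (AwayPoly O S)} [m.IsPrime] {a : AwayPoly O S} (ha : a ∉ m) :
    awayIncl O S a ∈ awayMonoid m :=
  ⟨a, ha, rfl⟩

/-- The element `X_ℓ` away from `S`. -/
noncomputable def awayX (O : Type uO) [CommRing O] {S : Set ℕ} {ℓ : ℕ} (hℓ : ℓ.Prime)
    (hS : ℓ ∉ S) : AwayPoly O S :=
  MvPolynomial.X ⟨⟨ℓ, hℓ⟩, hS⟩

lemma eisen_mem_awayMonoid {m : Ideal (AwayPoly O S)} [m.IsPrime] {ℓ : ℕ} [hℓ : Fact ℓ.Prime]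
    (hS : ℓ ∉ S) (h : awayX O hℓ.out hS - MvPolynomial.C ((ℓ : O) + 1) ∉ m) :
    eisen O ℓ ∈ awayMonoid m := by
  refine ⟨_, h, ?_⟩
  show awayIncl O S _ = _
  rw [map_sub, awayX, awayIncl_X, ← MvPolynomial.algebraMap_eq, AlgHom.commutes,
    MvPolynomial.algebraMap_eq]
  rfl

end Fermat.Agent.HeckeModule
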