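import Mathlib.GroupTheory.Schreier
import Mathlib.RingTheory.IntegralClosure.Algebra.Basic
import Mathlib.RingTheory.Ideal.GoingUp
import Mathlib.RingTheory.Ideal.Quotient.Operations
import Fermat.Prelude.Thm_Algebra_finite_maximalSpectrum_and_bijective_localization_of_module_finite
import Fermat.Agent.HeckeModule.Away
import Fermat.Agent.HeckeModule.Flat

/-!
Finiteness of `H¹(Γ₀(N), A)` and, over a complete local coefficient ring, of its localisations.
-/

set_option autoImplicit false

open CongruenceSubgroup
open scoped MatrixGroups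

universe uO uA

namespace Fermat.Agent.HeckeModule

variable {N : ℕ}

instance : Group.FG SL(2, ℤ) :=
  Group.fg_iff.mpr ⟨_, closure_S_elV, Set.toFinite _⟩

theorem fg_Gamma0 [NeZero N] : Group.FG (Gamma0 N) :=
  haveI : (Gamma0 N).FiniteIndex := inferInstance
  inferInstance

section General

variable {O : Type uO} [CommRing O] [IsNoetherianRing O] [NeZero N]
  {A : Type uA} [AddCommGroup A] [Module O A] [Module.Finite O A]
  (ρ : Representation O (ZMod N)ˣ A)

theorem finite_cocycle : Module.Finite O (Cocycle ρ) := by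
  obtain ⟨s, hs, hfin⟩ := Group.fg_iff.mp (fg_Gamma0 (N := N))
  have : Finite s := hfin.to_subtype
  let L : Cocycle ρ →ₗ[O] (s → A) :=
    (LinearMap.pi fun g : s => LinearMap.proj (g : Gamma0 N)) ∘ₗ (Submodule.subtype _)
  refine Module.Finite.of_injective L ((injective_iff_map_eq_zero L).mpr fun c hc => ?_)
  have h1 : c.1 1 = 0 := by
    have h := c.2.1 1 1
    rwa [mul_one, map_one, Module.End.one_apply, left_eq_add] at h
  let K : Subgroup (Gamma0 N) :=
    { carrier := {g | c.1 g = 0}
      one_mem' := h1
      mul_mem' := fun {g h} (hg : c.1 g = 0) (hh : c.1 h = 0) => by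
        show c.1 (g * h) = 0
        rw [c.2.1, hg, hh, map_zero, add_zero]
      inv_mem' := fun {g} (hg : c.1 g = 0) => by
        show c.1 g⁻¹ = 0
        have h := c.2.1 g⁻¹ g
        rw [inv_mul_cancel, h1, hg, map_zero, add_zero] at h
        exact h.symm }
  have hK : K = ⊤ := by
    rw [eq_top_iff, ← hs, Subgroup.closure_le]
    exact fun g hg => congrFun hc ⟨g, hg⟩
  exact Subtype.ext (funext fun g => (hK.symm ▸ Subgroup.mem_top g : g ∈ K))

theorem finite_coh1 : Module.Finite O (Coh1 ρ) :=
  haveI := finite_cocycle ρ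
  Module.Finite.of_surjective (toCoh ρ) (toCoh_surjective ρ)

end General

section Complete

variable {O : Type} [CommRing O] [IsNoetherianRing O] [IsLocalRing O]
  [IsAdicComplete (IsLocalRing.maximalIdeal O) O] [NeZero N]
  {A : Type} [AddCommGroup A] [Module O A] [Module.Finite O A]
  (ρ : Representation O (ZMod N)ˣ A) {S : Set ℕ} (m : Ideal (AwayPoly O S)) [m.IsPrime]

omit [IsNoetherianRing O] [IsLocalRing O] [IsAdicComplete (IsLocalRing.maximalIdeal O) O]
  [NeZero N] [Module.Finite O A] in
lemma finite_range_heckeHom [IsNoetherianRing O] [Module.Finite O (Coh1 ρ)] :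
    Module.Finite O ((heckeHom ρ).comp (awayIncl O S)).range := by
  obtain ⟨k, v, hv⟩ := Module.Finite.exists_fin (R := O) (M := Coh1 ρ)
  let L : ((heckeHom ρ).comp (awayIncl O S)).range →ₗ[O] (Fin k → Coh1 ρ) :=
    LinearMap.pi fun i => (LinearMap.applyₗ (v i)) ∘ₗ ((heckeHom ρ).comp (awayIncl O S)).range.val.toLinearMap
  refine Module.Finite.of_injective L ((injective_iff_map_eq_zero L).mpr fun T hT => ?_)
  refine Subtype.ext (LinearMap.ext_on hv ?_)
  rintro _ ⟨i, rfl⟩
  exact congrFun hT i

/-- Over a complete local ring, `H¹ → H¹_m` is surjective for `m` over the maximal ideal. -/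
theorem toLoc_surjective
    (hm : (IsLocalRing.maximalIdeal O).map (algebraMap O (AwayPoly O S)) ≤ m) :
    Function.Surjective (toLoc (awayMonoid m) ρ) := by
  have := finite_coh1 ρ
  have := finite_range_heckeHom (S := S) ρ
  by_cases hker : RingHom.ker ((heckeHom ρ).comp (awayIncl O S)).rangeRestrict ≤ m
  swap
  · obtain ⟨t, ht, htm⟩ := SetLike.not_le_iff_exists.mp hker
    intro u
    refine ⟨0, ?_⟩
    induction u using LocalizedModule.induction_on with
    | _ u s =>
      rw [map_zero, eq_comm, IsLocalizedModule.mk_eq_mk', IsLocalizedModule.mk'_eq_zero']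
      refine ⟨⟨awayIncl O S t, mem_awayMonoid htm⟩, ?_⟩
      rw [Submonoid.smul_def, heckePoly_smul_def,
        show heckeHom ρ (awayIncl O S t) = 0 from congrArg Subtype.val (RingHom.mem_ker.mp ht),
        LinearMap.zero_apply]
  let T : Type := ((heckeHom ρ).comp (awayIncl O S)).range
  let π : AwayPoly O S →ₐ[O] T := ((heckeHom ρ).comp (awayIncl O S)).rangeRestrict
  have hπ : Function.Surjective π := ((heckeHom ρ).comp (awayIncl O S)).rangeRestrict_surjective
  let : CommRing T :=
    { (inferInstance : Ring T) with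
      mul_comm := fun a b => by
        obtain ⟨a, rfl⟩ := hπ a
        obtain ⟨b, rfl⟩ := hπ b
        rw [← map_mul, mul_comm, map_mul] }
  let : Algebra O T := Algebra.ofModule' (fun r x => by simp) (fun r x => by simp)
  have : Module.Finite O T := finite_range_heckeHom (S := S) ρ
  let P : Ideal T := m.map (π : AwayPoly O S →+* T)
  have hcomap : P.comap (π : AwayPoly O S →+* T) = m := by
    refine (Ideal.comap_map_of_surjective (π : AwayPoly O S →+* T) hπ _).trans (sup_eq_left.mpr ?_)
    exact hker
  have hP : P.IsPrime := Ideal.map_isPrime_of_surjective hπ hker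
  have hPmax : P.IsMaximal := by
    have : Algebra.IsIntegral O T := Algebra.IsIntegral.of_finite O T
    refine Ideal.isMaximal_of_isIntegral_of_isMaximal_comap (R := O) P ?_
    have heq : P.comap (algebraMap O T) = IsLocalRing.maximalIdeal O := by
      refine ((IsLocalRing.maximalIdeal.isMaximal O).eq_of_le (Ideal.comap_ne_top _ hP.ne_top)
        fun r hr => ?_).symm
      have h1 : algebraMap O (AwayPoly O S) r ∈ P.comap (π : AwayPoly O S →+* T) := by
        rw [hcomap]; exact hm (Ideal.mem_map_of_mem _ hr)
      rw [Ideal.mem_comap] at h1 ⊢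
      convert h1 using 1
      exact (π.commutes r).symm
    rw [heq]
    infer_instance
  obtain ⟨-, hbij, -, -⟩ :=
    Algebra.finite_maximalSpectrum_and_bijective_localization_of_module_finite (𝒪 := O) T
  refine fun u => LocalizedModule.induction_on (fun u s => ?_) u
  · classical
    obtain ⟨s', hs', hseq⟩ := s.2
    let I₀ : MaximalSpectrum T := ⟨P, hPmax⟩
    have hs : π s' ∉ P := fun h' => hs' (hcomap.le h')
    have hu : IsUnit (algebraMap T (Localization.AtPrime I₀.asIdeal) (π s')) :=
      IsLocalization.map_units _ (⟨π s', hs⟩ : I₀.asIdeal.primeCompl)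
    obtain ⟨w, hw⟩ := hbij.2 (Pi.single I₀ (↑hu.unit⁻¹))
    obtain ⟨w', hw'⟩ := hπ w
    have hwI : ∀ I : MaximalSpectrum T, algebraMap T (Localization.AtPrime I.asIdeal) w
        = Pi.single (M := fun J : MaximalSpectrum T => Localization.AtPrime J.asIdeal) I₀
          (↑hu.unit⁻¹ : Localization.AtPrime I₀.asIdeal) I := fun I => congrFun hw I
    have he : π (s' * w') * π (s' * w') = π (s' * w') := by
      refine hbij.1 (funext fun I => ?_)
      simp only [RingHom.pi_apply, map_mul, hw', hwI]
      rcases eq_or_ne I I₀ with rfl | hne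
      · simp only [Pi.single_eq_same]
        rw [IsUnit.mul_val_inv, one_mul]
      · simp [Pi.single_eq_of_ne hne]
    have hnot : (s' * w' : AwayPoly O S) ∉ m := by
      intro hin'
      have hin : π (s' * w') ∈ P := Ideal.mem_map_of_mem (π : AwayPoly O S →+* T) hin'
      have h1 : ¬ IsUnit (algebraMap T (Localization.AtPrime I₀.asIdeal) (π (s' * w'))) :=
        fun hunit => (IsLocalization.AtPrime.isUnit_to_map_iff _ I₀.asIdeal _).mp hunit hin
      apply h1
      rw [map_mul, map_mul, hw', hwI, Pi.single_eq_same, IsUnit.mul_val_inv]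
      exact isUnit_one
    refine ⟨awayIncl O S w' • u, ?_⟩
    rw [toLoc, LocalizedModule.mkLinearMap_apply, LocalizedModule.mk_eq]
    refine ⟨⟨awayIncl O S (s' * w'), mem_awayMonoid hnot⟩, ?_⟩
    simp only [Submonoid.smul_def, one_smul, heckePoly_smul_def,
      ← Module.End.mul_apply, ← map_mul]
    have hss : (s : HeckePoly O) = awayIncl O S s' := hseq.symm
    rw [hss]
    have he' : heckeHom ρ (awayIncl O S (s' * w')) * heckeHom ρ (awayIncl O S (s' * w'))
        = heckeHom ρ (awayIncl O S (s' * w')) := congrArg Subtype.val he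
    rw [← map_mul (awayIncl O S) s' w', map_mul (heckeHom ρ), he']

/-- Finiteness of the localisation. -/
theorem finite_cohLoc
    (hm : (IsLocalRing.maximalIdeal O).map (algebraMap O (AwayPoly O S)) ≤ m) :
    Module.Finite O (CohLoc (awayMonoid m) ρ) :=
  haveI := finite_coh1 ρ
  Module.Finite.of_surjective ((toLoc (awayMonoid m) ρ).restrictScalars O) (toLoc_surjective ρ m hm)

/-- `H¹(Γ₀(N), Λ(χ))_m` is free of finite rank over a complete local `Λ`. -/
theorem free_cohChar_of_complete (χ : (ZMod N)ˣ →* O)
    (hm : (IsLocalRing.maximalIdeal O).map (algebraMap O (AwayPoly O S)) ≤ m)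
    (h : ExactHyp (awayMonoid m) χ) :
    Module.Finite O (CohChar (awayMonoid m) χ O) ∧ Module.Free O (CohChar (awayMonoid m) χ O) :=
  haveI := finite_cohLoc (scalarRep χ O) m hm
  ⟨inferInstance, free_cohChar h⟩

end Complete

end Fermat.Agent.HeckeModule
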