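import Fermat.Agent.HeckeModule.Natural

/-!
Degeneracy maps between the cohomology groups of different levels.
-/

set_option autoImplicit false

open CongruenceSubgroup Matrix.SpecialLinearGroup
open scoped MatrixGroups OnePoint

universe uO uA

namespace Fermat.Agent.HeckeModule

open HeckeJ0

variable {N N' : ℕ} {O : Type uO} [CommRing O] {A : Type uA} [AddCommGroup A] [Module O A]

/-- Pull back of a representation along `N ∣ N'`. -/
noncomputable def pullRep (ρ : Representation O (ZMod N)ˣ A) (h : N ∣ N') :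
    Representation O (ZMod N')ˣ A :=
  ρ.comp (ZMod.unitsMap h)

lemma pullRep_apply (ρ : Representation O (ZMod N)ˣ A) (h : N ∣ N') (u : (ZMod N')ˣ) :
    pullRep ρ h u = ρ (ZMod.unitsMap h u) := rfl

/-- The matrix `diag(d, 1)`. -/
noncomputable def degenMat (d : ℕ) : GL (Fin 2) ℝ := ModularForm.heckeDiagMatrix d

lemma val_degenMat {d : ℕ} (hd : d ≠ 0) :
    ((degenMat d : GL (Fin 2) ℝ) : Matrix (Fin 2) (Fin 2) ℝ)
      = (!![(d : ℤ), 0; 0, 1]).map (Int.cast : ℤ → ℝ) := by
  rw [degenMat, ModularForm.val_heckeDiagMatrix hd]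
  ext i j
  fin_cases i <;> fin_cases j <;> simp

/-- Conjugation by `diag(d, 1)`. -/
lemma exists_conjDegen {d : ℕ} (hd : d ≠ 0) (h : d * N ∣ N') (γ : Gamma0 N') :
    ∃ g : Gamma0 N, degenMat d * toGL N' γ = toGL N g * degenMat d ∧
      (g : SL(2, ℤ)) 1 1 = (γ : SL(2, ℤ)) 1 1 ∧
      (g : SL(2, ℤ)) 0 0 = (γ : SL(2, ℤ)) 0 0 ∧
      (g : SL(2, ℤ)) 0 1 = d * (γ : SL(2, ℤ)) 0 1 ∧
      (d : ℤ) * (g : SL(2, ℤ)) 1 0 = (γ : SL(2, ℤ)) 1 0 := by
  obtain ⟨k, hk⟩ : ((d * N : ℕ) : ℤ) ∣ (γ : SL(2, ℤ)) 1 0 :=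
    (Int.natCast_dvd_natCast.mpr h).trans ((mem_Gamma0_iff_dvd _).mp γ.2)
  push_cast at hk
  have hdet := (γ : SL(2, ℤ)).det_coe
  rw [Matrix.det_fin_two] at hdet
  let g : SL(2, ℤ) := ⟨!![(γ : SL(2, ℤ)) 0 0, d * (γ : SL(2, ℤ)) 0 1; N * k,
    (γ : SL(2, ℤ)) 1 1], by
      rw [Matrix.det_fin_two_of]
      linear_combination hdet + ((γ : SL(2, ℤ)) 0 1) * hk⟩
  refine ⟨⟨g, (mem_Gamma0_iff_dvd _).mpr ⟨k, rfl⟩⟩, ?_, rfl, rfl, rfl, ?_⟩
  · refine Units.ext ?_
    rw [Units.val_mul, Units.val_mul, val_degenMat hd]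
    ext i j
    rw [Matrix.mul_apply, Matrix.mul_apply, Fin.sum_univ_two, Fin.sum_univ_two, toGL_apply,
      toGL_apply, val_mapGL_apply, val_mapGL_apply, val_mapGL_apply, val_mapGL_apply]
    fin_cases i <;> fin_cases j <;> simp [g, hk] <;> ring
  · show (d : ℤ) * (N * k) = _
    rw [hk]; ring

/-- The double coset data of a degeneracy map. -/
noncomputable def degenData (ρ : Representation O (ZMod N)ˣ A) {d : ℕ} (hd : d ≠ 0)
    (h : d * N ∣ N') :
    Data (toGL N) (toGL N') (gammaRep ρ) (gammaRep (pullRep ρ (dvd_of_mul_left_dvd h)))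
      {negOne N} {negOne N'} Unit where
  α _ := degenMat d
  ε _ := LinearMap.id
  exists_mul _ γ := ⟨(), _, (exists_conjDegen hd h γ).choose_spec.1⟩
  unique x y _ _ := rfl
  compat x y γ g hg := by
    obtain ⟨g', hg', h11, -⟩ := exists_conjDegen hd h γ
    obtain rfl : g = g' := toGL_injective (mul_right_cancel (hg.symm.trans hg'))
    rw [LinearMap.id_comp, LinearMap.comp_id, gammaRep_apply, gammaRep_apply, pullRep_apply]
    refine congrArg ρ (Units.ext ?_)
    rw [ZMod.unitsMap_def, Units.coe_map, MonoidHom.coe_coe, coe_dUnit, coe_dUnit, map_intCast, h11]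
  triv x y k g hk hg := by
    rw [Set.mem_singleton_iff] at hk ⊢
    subst hk
    obtain ⟨g', hg', h11, h00, h01, h10⟩ := exists_conjDegen hd h (negOne N')
    obtain rfl : g = g' := toGL_injective (mul_right_cancel (hg.symm.trans hg'))
    refine Subtype.ext (Matrix.SpecialLinearGroup.ext _ _ fun i j => ?_)
    fin_cases i <;> fin_cases j
    · simpa [negOne] using h00
    · simpa [negOne] using h01
    · simpa [negOne, hd] using h10
    · simpa [negOne] using h11

/-- The degeneracy map attached to `z ↦ d z`. -/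
noncomputable def degen (ρ : Representation O (ZMod N)ˣ A) {d : ℕ} (hd : d ≠ 0)
    (h : d * N ∣ N') : Coh1 ρ →ₗ[O] Coh1 (pullRep ρ (dvd_of_mul_left_dvd h)) :=
  (degenData ρ hd h).onH1 toGL_injective

lemma degen_toCoh (ρ : Representation O (ZMod N)ˣ A) {d : ℕ} (hd : d ≠ 0) (h : d * N ∣ N')
    (c : Cocycle ρ) :
    degen ρ hd h (toCoh ρ c) = toCoh _ ((degenData ρ hd h).onCocycles toGL_injective c) := rfl

lemma degenData_raw_apply (ρ : Representation O (ZMod N)ˣ A) {d : ℕ} (hd : d ≠ 0)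
    (h : d * N ∣ N') (c : Gamma0 N → A) (γ : Gamma0 N') {g : Gamma0 N}
    (hg : degenMat d * toGL N' γ = toGL N g * degenMat d) :
    (degenData ρ hd h).raw c γ = c g := by
  rw [Data.raw_apply, Fintype.sum_unique]
  exact congrArg c ((degenData ρ hd h).spec_unique toGL_injective
    (x := default) (y := default) hg).2

section Hecke

variable {ℓ : ℕ} [hℓ : Fact ℓ.Prime]

/-- Degeneracy maps commute with the Hecke operators. -/
theorem degen_heckeOp (ρ : Representation O (ZMod N)ˣ A) {d : ℕ} (hd : d ≠ 0) (h : d * N ∣ N')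
    (hℓd : ¬ ℓ ∣ d) (hℓN : ℓ ∣ N' → ℓ ∣ N) (u : Coh1 ρ) :
    degen ρ hd h (heckeOp ρ ℓ u) = heckeOp _ ℓ (degen ρ hd h u) := by
  have : NeZero ℓ := ⟨hℓ.out.ne_zero⟩
  obtain ⟨c, rfl⟩ := toCoh_surjective ρ u
  rw [heckeOp_toCoh, degen_toCoh, degen_toCoh, heckeOp_toCoh]
  obtain ⟨F, hF⟩ := exists_isEquivariant (toGL N) toGL_injective c
  set ρ' := pullRep ρ (dvd_of_mul_left_dvd h)
  set D := degenData ρ hd h
  set Tl := heckeData ρ ℓ
  set Tl' := heckeData ρ' ℓ
  have h1 : IsEquivariant (toGL N') (gammaRep ρ')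
      (D.onCocycles toGL_injective (Tl.onCocycles toGL_injective c)).1 (D.act (Tl.act F)) :=
    D.isEquivariant_act toGL_injective (Tl.isEquivariant_act toGL_injective hF)
  have h2 : IsEquivariant (toGL N') (gammaRep ρ')
      (Tl'.onCocycles toGL_injective (D.onCocycles toGL_injective c)).1 (Tl'.act (D.act F)) :=
    Tl'.isEquivariant_act toGL_injective (D.isEquivariant_act toGL_injective hF)
  have hNN : N ∣ N' := dvd_of_mul_left_dvd h
  have hdu : IsUnit ((d : ℕ) : ZMod ℓ) := by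
    rw [ZMod.isUnit_iff_coprime]
    exact ((Nat.Prime.coprime_iff_not_dvd hℓ.out).mpr hℓd).symm
  -- the bijection of representatives
  let e : Idx N' ℓ → Idx N ℓ := fun x => ⟨Option.map (fun j => (d : ZMod ℓ) * j) x.1, fun hN => by
    obtain ⟨j, hj⟩ := OnePoint.ne_infty_iff_exists.mp (x.2 (hN.trans hNN))
    rw [← hj]
    exact OnePoint.coe_ne_infty _⟩
  have he : Function.Bijective e := by
    refine ⟨fun x y hxy => Subtype.ext (Option.map_injective hdu.mul_right_injective
      (congrArg Subtype.val hxy)), fun y => ?_⟩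
    obtain ⟨v, hv⟩ := hdu.exists_right_inv
    refine ⟨⟨Option.map (fun j => v * j) y.1, fun hN => ?_⟩, Subtype.ext ?_⟩
    · obtain ⟨j, hj⟩ := OnePoint.ne_infty_iff_exists.mp (y.2 (hℓN hN))
      rw [← hj]
      exact OnePoint.coe_ne_infty _
    · show Option.map _ (Option.map _ y.1) = y.1
      rw [Option.map_map]
      convert Option.map_id' using 2
      funext j
      simp [← mul_assoc, hv]
  have key : ∀ x : Idx N' ℓ, ∃ g : Gamma0 N,
      degenMat d * rep x = toGL N g * (rep (e x) * degenMat d) ∧ dUnit N g = 1 ∧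
        ρ' (aUnit x) = ρ (aUnit (e x)) := by
    intro x
    rcases rep_cases x with ⟨j, hj, hx⟩ | ⟨hj, -, hx⟩
    · have hej : (e x).1 = ((d : ZMod ℓ) * j : ZMod ℓ) := by
        show Option.map _ x.1 = _; rw [hj]; rfl
      rcases rep_cases (e x) with ⟨i, hi, hy⟩ | ⟨hi, -, -⟩
      swap
      · exact absurd (hej.symm.trans hi) (OnePoint.coe_ne_infty _)
      obtain rfl : i = (d : ZMod ℓ) * j := OnePoint.coe_injective (hi.symm.trans hej)
      obtain ⟨k, hk⟩ : (ℓ : ℤ) ∣ ((d * j.val : ℕ) : ℤ) - (((d : ZMod ℓ) * j).val : ℤ) := by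
        rw [← ZMod.intCast_zmod_eq_zero_iff_dvd]
        push_cast
        simp
      push_cast at hk
      let g : Gamma0 N := ⟨⟨!![1, k; 0, 1], by simp [Matrix.det_fin_two_of]⟩,
        (mem_Gamma0_iff_dvd _).mpr (dvd_zero _)⟩
      refine ⟨g, ?_, Units.ext (by rw [coe_dUnit]; simp [g]), ?_⟩
      · unfold IsTri at hx hy
        refine Units.ext ?_
        rw [Units.val_mul, Units.val_mul, Units.val_mul, hx, hy, val_degenMat hd]
        have hk' : (d : ℝ) * (j.val : ℝ) = (((d : ZMod ℓ) * j).val : ℝ) + (k : ℝ) * (ℓ : ℝ) := by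
          have := congrArg (Int.cast : ℤ → ℝ) hk
          push_cast at this
          linear_combination this
        ext a b
        simp only [Matrix.mul_apply, Fin.sum_univ_two, toGL_apply, val_mapGL_apply]
        fin_cases a <;> fin_cases b <;> simp [g, -ZMod.natCast_val, hk']
      · rw [pullRep_apply]
        refine congrArg ρ (Units.ext ?_)
        rw [ZMod.unitsMap_def, Units.coe_map, MonoidHom.coe_coe, coe_aUnit x hx,
          coe_aUnit _ hy, map_natCast]
    · have hej : (e x).1 = ∞ := by show Option.map _ x.1 = _; rw [hj]; rfl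
      rcases rep_cases (e x) with ⟨i, hi, -⟩ | ⟨-, -, hy⟩
      · exact absurd (hi.symm.trans hej) (OnePoint.coe_ne_infty _)
      refine ⟨1, ?_, map_one _, ?_⟩
      · rw [map_one, one_mul]
        unfold IsTri at hx hy
        refine Units.ext ?_
        rw [Units.val_mul, Units.val_mul, hx, hy, val_degenMat hd]
        ext a b
        simp only [Matrix.mul_apply, Fin.sum_univ_two]
        fin_cases a <;> fin_cases b <;> simp [mul_comm]
      · rw [pullRep_apply]
        refine congrArg ρ (Units.ext ?_)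
        rw [ZMod.unitsMap_def, Units.coe_map, MonoidHom.coe_coe, coe_aUnit x hx,
          coe_aUnit _ hy, map_natCast]
  choose g hg hgd hga using key
  refine (cls_eq_of_equivariant h2 h1 (∑ x, ρ' (aUnit x) (c.1 (g x))) fun M => ?_).symm
  show (∑ x : Idx N' ℓ, ρ' (aUnit x) (D.act F (rep x * M))) = D.act (Tl.act F) M + _
  simp only [Data.act, Fintype.sum_unique]
  show (∑ x : Idx N' ℓ, ρ' (aUnit x) (F (degenMat d * (rep x * M)))) =
    (∑ y : Idx N ℓ, ρ (aUnit y) (F (rep y * (degenMat d * M)))) + _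
  rw [← Fintype.sum_bijective e he (fun x => ρ' (aUnit x) (F (rep (e x) * (degenMat d * M))))
    (fun y => ρ (aUnit y) (F (rep y * (degenMat d * M)))) (fun x => by rw [hga]),
    ← Finset.sum_add_distrib]
  refine Finset.sum_congr rfl fun x _ => ?_
  rw [← mul_assoc, hg, mul_assoc, mul_assoc, hF, gammaRep_apply, hgd, map_one,
    Module.End.one_apply, map_add]
  rw [add_comm]

end Hecke

end Fermat.Agent.HeckeModule
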