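import Mathlib.FieldTheory.IsAlgClosed.AlgebraicClosure
import Mathlib.LinearAlgebra.Eigenspace.Minpoly
import Fermat.Agent.LevelRaising.Ihara
import Fermat.Agent.HeckeModule.Level
import Fermat.Agent.HeckeModule.Finite

/-!
Ihara's lemma: the kernel of the two degeneracy maps `H¹(Γ₀(N))² → H¹(Γ₀(qN))` is killed by a
power of `X_ℓ² - (ℓ+1)²`.
-/

set_option autoImplicit false

open CongruenceSubgroup Matrix.SpecialLinearGroup
open scoped MatrixGroups OnePoint

universe uO uA uB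

namespace Fermat.Agent.HeckeModule

open HeckeJ0 LevelRaising

variable {N : ℕ}

/-- The trivial coefficients. -/
noncomputable abbrev trivRep (N : ℕ) (O : Type uO) [CommRing O] (A : Type uA) [AddCommGroup A]
    [Module O A] : Representation O (ZMod N)ˣ A :=
  Representation.trivial O (ZMod N)ˣ A

section Triv

variable {O : Type uO} [CommRing O] {A : Type uA} [AddCommGroup A] [Module O A]

lemma toCoh_trivial_eq_zero (ρ : Representation O (ZMod N)ˣ A) (hρ : ∀ u, ρ u = 1)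
    {c : Cocycle ρ} (hc : toCoh ρ c = 0) (γ : Gamma0 N) : c.1 γ = 0 := by
  obtain ⟨a, ha⟩ := (toCoh_eq_zero_iff c).mp hc
  rw [ha, hρ, Module.End.one_apply, sub_self]

lemma cocycle_trivial_mul (ρ : Representation O (ZMod N)ˣ A) (hρ : ∀ u, ρ u = 1)
    (c : Cocycle ρ) (γ δ : Gamma0 N) : c.1 (γ * δ) = c.1 γ + c.1 δ := by
  rw [c.2.1, gammaRep_apply, hρ, Module.End.one_apply]

lemma toCoh_trivial_injective : Function.Injective (toCoh (trivRep N O A)) :=
  (injective_iff_map_eq_zero _).mpr fun _ hc =>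
    Subtype.ext (funext fun γ => toCoh_trivial_eq_zero _ (fun _ => rfl) hc γ)

open Classical in
/-- A cocycle as a function on integral matrices. -/
noncomputable def matFun (c : Gamma0 N → A) (M : Mat) : A :=
  if h : M ∈ Lvl N then c ⟨⟨M, h.1⟩, (mem_Gamma0_iff_dvd _).mpr h.2⟩ else 0

lemma matFun_eq (c : Gamma0 N → A) {M : Mat} (g : Gamma0 N)
    (hg : ((g : SL(2, ℤ)) : Mat) = M) : matFun c M = c g := by
  subst hg
  rw [matFun, dif_pos ⟨(g : SL(2, ℤ)).det_coe, (mem_Gamma0_iff_dvd _).mp g.2⟩]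
  rfl

lemma isHomOn_matFun (c : Cocycle (trivRep N O A)) : IsHomOn N (matFun c.1) := by
  intro γ hγ δ hδ
  let g : Gamma0 N := ⟨⟨γ, hγ.1⟩, (mem_Gamma0_iff_dvd _).mpr hγ.2⟩
  let d : Gamma0 N := ⟨⟨δ, hδ.1⟩, (mem_Gamma0_iff_dvd _).mpr hδ.2⟩
  rw [matFun_eq c.1 g (M := γ) rfl, matFun_eq c.1 d (M := δ) rfl,
    matFun_eq c.1 (g * d) (M := γ * δ) rfl]
  exact cocycle_trivial_mul _ (fun _ => rfl) c g d

lemma toGL_eq_of {M : Mat} {g : Gamma0 N} (hg : ((g : SL(2, ℤ)) : Mat) = M) (i j : Fin 2) :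
    (toGL N g : Matrix (Fin 2) (Fin 2) ℝ) i j = (M i j : ℝ) := by
  rw [toGL_apply, val_mapGL_apply, ← hg]

lemma matFun_hecke {ℓ : ℕ} [Fact ℓ.Prime] [NeZero ℓ] (hℓN : ¬ ℓ ∣ N)
    (c : Cocycle (trivRep N O A)) (a b C d t : ℤ)
    (hmem : mm a (ℓ * b) (ℓ * C) d ∈ Lvl N) (hadt : a - d = ℓ * t) :
    matFun ((heckeData (trivRep N O A) ℓ).raw c.1) (mm a (ℓ * b) (ℓ * C) d) =
      matFun c.1 (mm a (ℓ ^ 2 * b) C d) + ∑ i : Fin ℓ,
        matFun c.1 (mm (a + (i : ℕ) * ℓ * C) (b - (i : ℕ) * t - (i : ℕ) ^ 2 * C) (ℓ ^ 2 * C)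
          (d - (i : ℕ) * ℓ * C)) := by
  obtain ⟨hdet, hN⟩ := mm_mem_detLevel.mp hmem
  let γ : Gamma0 N := ⟨⟨mm a (ℓ * b) (ℓ * C) d, hmem.1⟩, (mem_Gamma0_iff_dvd _).mpr hmem.2⟩
  have hC : (N : ℤ) ∣ C := by
    refine (Int.isCoprime_iff_nat_coprime.mpr ?_).dvd_of_dvd_mul_left hN
    simpa using ((Nat.Prime.coprime_iff_not_dvd Fact.out).mpr hℓN).symm
  rw [matFun_eq _ γ (M := mm a (ℓ * b) (ℓ * C) d) rfl, Data.raw_apply]
  let E : Option (ZMod ℓ) ≃ Idx N ℓ :=
    (Equiv.subtypeUnivEquiv fun x hN' => absurd hN' hℓN).symm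
  rw [← E.sum_comp, Fintype.sum_option]
  congr 1
  · -- the representative `diag(ℓ, 1)`
    obtain ⟨j, hj, -⟩ | ⟨-, -, hx⟩ := rep_cases (E none)
    · exact absurd hj.symm (OnePoint.coe_ne_infty j)
    have hM : mm a (ℓ ^ 2 * b) C d ∈ Lvl N :=
      mm_mem_detLevel.mpr ⟨by linear_combination hdet, hC⟩
    let g : Gamma0 N := ⟨⟨mm a (ℓ ^ 2 * b) C d, hM.1⟩, (mem_Gamma0_iff_dvd _).mpr hM.2⟩
    have h : rep (E none) * toGL N γ = toGL N g * rep (E none) := by
      refine Units.ext (Matrix.ext fun u v => ?_)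
      unfold IsTri at hx
      rw [Units.val_mul, Units.val_mul, hx, Matrix.mul_apply, Matrix.mul_apply, Fin.sum_univ_two,
        Fin.sum_univ_two, toGL_eq_of (g := γ) rfl, toGL_eq_of (g := γ) rfl, toGL_eq_of (g := g) rfl,
        toGL_eq_of (g := g) rfl]
      fin_cases u <;> fin_cases v <;> simp [γ, g] <;> ring
    rw [((heckeData (trivRep N O A) ℓ).spec_unique toGL_injective h).2,
      matFun_eq _ g (M := mm a (ℓ ^ 2 * b) C d) rfl]
    rfl
  · let efin : Fin ℓ ≃ ZMod ℓ :=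
      ⟨fun i => ((i : ℕ) : ZMod ℓ), fun z => ⟨z.val, ZMod.val_lt z⟩,
        fun i => Fin.ext (ZMod.val_cast_of_lt i.2), fun z => ZMod.natCast_zmod_val z⟩
    rw [← efin.sum_comp]
    refine Finset.sum_congr rfl fun i _ => ?_
    obtain ⟨j, hj, hx⟩ | ⟨hj, -, -⟩ := rep_cases (E (some (efin i)))
    swap
    · exact absurd hj (OnePoint.coe_ne_infty _)
    obtain rfl : efin i = j := OnePoint.coe_injective hj
    have hval : (efin i).val = (i : ℕ) := ZMod.val_cast_of_lt i.2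
    have hM : mm (a + (i : ℕ) * ℓ * C) (b - (i : ℕ) * t - (i : ℕ) ^ 2 * C) (ℓ ^ 2 * C)
        (d - (i : ℕ) * ℓ * C) ∈ Lvl N := mm_mem_detLevel.mpr
      ⟨by linear_combination hdet - ((i : ℕ) : ℤ) * (ℓ : ℤ) * C * hadt, hC.mul_left _⟩
    let g : Gamma0 N := ⟨⟨_, hM.1⟩, (mem_Gamma0_iff_dvd _).mpr hM.2⟩
    have h : rep (E (some (efin i))) * toGL N γ = toGL N g * rep (E (some (efin i))) := by
      refine Units.ext (Matrix.ext fun u v => ?_)
      unfold IsTri at hx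
      rw [Units.val_mul, Units.val_mul, hx, hval, Matrix.mul_apply, Matrix.mul_apply,
        Fin.sum_univ_two, Fin.sum_univ_two, toGL_eq_of (g := γ) rfl, toGL_eq_of (g := γ) rfl,
        toGL_eq_of (g := g) rfl, toGL_eq_of (g := g) rfl]
      have ht : (a : ℝ) - d = ℓ * t := by exact_mod_cast hadt
      fin_cases u <;> fin_cases v <;>
        simp [γ, g] <;> first
          | ring1
          | linear_combination ((i : ℕ) : ℝ) * ht
          | linear_combination (-((i : ℕ) : ℝ)) * ht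
    rw [((heckeData (trivRep N O A) ℓ).spec_unique toGL_injective h).2,
      matFun_eq _ g (M := mm (a + (i : ℕ) * ℓ * C) (b - (i : ℕ) * t - (i : ℕ) ^ 2 * C)
        (ℓ ^ 2 * C) (d - (i : ℕ) * ℓ * C)) rfl]
    rfl

/-- Extension of scalars on classes with trivial coefficients. -/
noncomputable def extendScalars {B : Type uB} [CommRing B] (f : A →+ B)
    (c : Cocycle (trivRep N O A)) : Cocycle (trivRep N B B) :=
  ⟨fun γ => f (c.1 γ), fun g h => by
    show f (c.1 (g * h)) = f (c.1 g) + f (c.1 h)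
    rw [cocycle_trivial_mul _ (fun _ => rfl), map_add],
    fun k hk => by show f (c.1 k) = 0; rw [c.2.2 k hk, map_zero]⟩

lemma extendScalars_hecke {B : Type uB} [CommRing B] (f : A →+ B) {ℓ : ℕ} [Fact ℓ.Prime]
    [NeZero ℓ] (c : Cocycle (trivRep N O A)) :
    extendScalars f ((heckeData (trivRep N O A) ℓ).onCocycles toGL_injective c) =
      (heckeData (trivRep N B B) ℓ).onCocycles toGL_injective (extendScalars f c) := by
  refine Subtype.ext (funext fun γ => ?_)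
  show f ((heckeData (trivRep N O A) ℓ).raw c.1 γ)
    = (heckeData (trivRep N B B) ℓ).raw (fun δ => f (c.1 δ)) γ
  rw [Data.raw_apply, Data.raw_apply, map_sum]
  refine Finset.sum_congr rfl fun x _ => ?_
  have : (heckeData (trivRep N O A) ℓ).tr x γ = (heckeData (trivRep N B B) ℓ).tr x γ :=
    ((heckeData (trivRep N B B) ℓ).spec_unique toGL_injective
      ((heckeData (trivRep N O A) ℓ).mul_spec x γ)).2.symm
  rw [← this]
  rfl

end Triv

section Field

variable {k : Type uO} [Field k] {p : ℕ} [CharP k p] [hp : Fact p.Prime] {q ℓ : ℕ}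
  [hq : Fact q.Prime] [hℓ : Fact ℓ.Prime] [NeZero N]

variable (k N q) in
/-- The sum of the two degeneracy maps. -/
noncomputable def degenSum :
    Coh1 (trivRep N k k) × Coh1 (trivRep N k k) →ₗ[k]
      Coh1 (pullRep (trivRep N k k) (dvd_mul_left N q)) :=
  LinearMap.coprod
    (degen (trivRep N k k) one_ne_zero (by rw [one_mul]; exact dvd_mul_left N q))
    (degen (trivRep N k k) hq.out.ne_zero dvd_rfl)

omit [NeZero N] in
lemma degenSum_eq_zero_apply {c c' : Cocycle (trivRep N k k)}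
    (h : degenSum N k q (toCoh _ c, toCoh _ c') = 0) {a b C d : ℤ}
    (hmem : mm a (q * b) C d ∈ Lvl N) :
    matFun c.1 (mm a b (q * C) d) = -matFun c'.1 (mm a (q * b) C d) := by
  rw [degenSum, LinearMap.coprod_apply, degen_toCoh, degen_toCoh, ← map_add] at h
  obtain ⟨hdet, hC⟩ := mm_mem_detLevel.mp hmem
  have hmem' : mm a b (q * C) d ∈ Lvl N :=
    mm_mem_detLevel.mpr ⟨by linear_combination hdet, hC.mul_left _⟩
  let γ : Gamma0 (q * N) := ⟨⟨mm a b (q * C) d, hmem'.1⟩, (mem_Gamma0_iff_dvd _).mpr (by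
    show ((q * N : ℕ) : ℤ) ∣ (q : ℤ) * C
    push_cast; exact mul_dvd_mul_left _ hC)⟩
  have h0 := toCoh_trivial_eq_zero _ (fun _ => rfl) h γ
  let g1 : Gamma0 N := ⟨⟨mm a b (q * C) d, hmem'.1⟩, (mem_Gamma0_iff_dvd _).mpr hmem'.2⟩
  let g2 : Gamma0 N := ⟨⟨mm a (q * b) C d, hmem.1⟩, (mem_Gamma0_iff_dvd _).mpr hmem.2⟩
  have e1 : degenMat 1 * toGL (q * N) γ = toGL N g1 * degenMat 1 := by
    refine Units.ext (Matrix.ext fun u v => ?_)
    rw [Units.val_mul, Units.val_mul, val_degenMat one_ne_zero, Matrix.mul_apply,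
      Matrix.mul_apply, Fin.sum_univ_two, Fin.sum_univ_two, toGL_eq_of (g := γ) rfl,
      toGL_eq_of (g := γ) rfl, toGL_eq_of (g := g1) rfl, toGL_eq_of (g := g1) rfl]
    fin_cases u <;> fin_cases v <;> simp [γ, g1]
  have e2 : degenMat q * toGL (q * N) γ = toGL N g2 * degenMat q := by
    refine Units.ext (Matrix.ext fun u v => ?_)
    rw [Units.val_mul, Units.val_mul, val_degenMat hq.out.ne_zero, Matrix.mul_apply,
      Matrix.mul_apply, Fin.sum_univ_two, Fin.sum_univ_two, toGL_eq_of (g := γ) rfl,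
      toGL_eq_of (g := γ) rfl, toGL_eq_of (g := g2) rfl, toGL_eq_of (g := g2) rfl]
    fin_cases u <;> fin_cases v <;> simp [γ, g2] <;> ring
  rw [matFun_eq _ g1 (M := mm a b (q * C) d) rfl, matFun_eq _ g2 (M := mm a (q * b) C d) rfl,
    eq_neg_iff_add_eq_zero]
  refine Eq.trans ?_ h0
  refine congrArg₂ (· + ·) ?_ ?_
  · exact (degenData_raw_apply _ _ _ _ _ e1).symm
  · exact (degenData_raw_apply _ _ _ _ _ e2).symm

variable (hqN : ¬ q ∣ N) (hℓN : N < ℓ) (hℓp : ℓ ≠ p) (hℓq : ℓ ≠ q) (hℓ2 : ℓ ≠ 2)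
include p hp hqN hℓN hℓp hℓq hℓ2

/-- Eigenvectors in the kernel. -/
theorem eq_zero_of_degenSum_eq_zero_of_eigen {x y : Coh1 (trivRep N k k)}
    (h : degenSum N k q (x, y) = 0) {A : k} (hA : A ^ 2 ≠ ((ℓ : k) + 1) ^ 2)
    (hx : heckeOp _ ℓ x = A • x) (hy : heckeOp _ ℓ y = A • y) : x = 0 ∧ y = 0 := by
  have hℓ0 : ℓ ≠ 0 := hℓ.out.ne_zero
  have : NeZero ℓ := ⟨hℓ0⟩
  have hℓN' : ¬ ℓ ∣ N := fun hd => absurd (Nat.le_of_dvd (NeZero.pos N) hd) (by omega)
  obtain ⟨c, rfl⟩ := toCoh_surjective _ x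
  obtain ⟨c', rfl⟩ := toCoh_surjective _ y
  have heig : ∀ {e : Cocycle (trivRep N k k)}, heckeOp _ ℓ (toCoh _ e) = A • toCoh _ e →
      ∀ a b C d t : ℤ, mm a (ℓ * b) (ℓ * C) d ∈ Lvl N → a - d = ℓ * t →
        A * matFun e.1 (mm a (ℓ * b) (ℓ * C) d) = matFun e.1 (mm a (ℓ ^ 2 * b) C d) +
          ∑ i : Fin ℓ, matFun e.1 (mm (a + (i : ℕ) * ℓ * C) (b - (i : ℕ) * t - (i : ℕ) ^ 2 * C)
            (ℓ ^ 2 * C) (d - (i : ℕ) * ℓ * C)) := by
    intro e he a b C d t hmem hadt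
    rw [heckeOp_toCoh, ← map_smul] at he
    have he' := congrArg Subtype.val (toCoh_trivial_injective he)
    rw [← matFun_hecke hℓN' e a b C d t hmem hadt]
    have : (heckeData (trivRep N k k) ℓ).raw e.1 = A • e.1 := he'
    rw [this]
    unfold matFun
    split <;> simp
  have hneg : IsHomOn N fun M => -matFun c'.1 M := fun γ hγ δ hδ => by
    simp only [isHomOn_matFun c' γ hγ δ hδ]; abel
  have H : IharaHyp N p q ℓ (matFun c.1) A :=
    { hp := hp.out, hq := hq.out, hqN := hqN, hℓ := hℓ.out, hℓN := hℓN, hℓp := hℓp, hℓq := hℓq,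
      hℓ2 := hℓ2, npos := NeZero.pos N, hom := isHomOn_matFun c,
      translate := translate_of_rel hq.out hqN ⟨_, hneg, fun a b C d hmem => degenSum_eq_zero_apply h hmem⟩,
      eig := heig hx, hA := hA }
  have hc : c = 0 := Subtype.ext (funext fun g => by
    rw [← matFun_eq c.1 g (M := ((g : SL(2, ℤ)) : Mat)) rfl]
    exact H.eq_zero ⟨(g : SL(2, ℤ)).det_coe, (mem_Gamma0_iff_dvd _).mp g.2⟩)
  -- the second component vanishes on `b ≡ 0` mod `q`, and on translations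
  have hq0 : ∀ {a b C d : ℤ}, mm a (q * b) C d ∈ Lvl N → matFun c'.1 (mm a (q * b) C d) = 0 := by
    intro a b C d hmem
    have h1 := degenSum_eq_zero_apply h hmem
    rw [hc] at h1
    rw [← neg_eq_zero, ← h1]
    unfold matFun
    split <;> rfl
  have hℓk : (ℓ : k) ≠ 0 := fun hd => hℓp ((Nat.prime_dvd_prime_iff_eq hp.out hℓ.out).mp
    ((CharP.cast_eq_zero_iff k p ℓ).mp hd)).symm
  have hu1 : matFun c'.1 (uU 1) = 0 := by
    have e1 := heig hy 1 1 0 1 0 (mm_mem_detLevel.mpr ⟨by ring, by simp⟩) (by ring)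
    simp only [mul_one, mul_zero, sub_zero, add_zero, Finset.sum_const,
      Finset.card_univ, Fintype.card_fin] at e1
    have e2 := (isHomOn_matFun c').apply_uU
    change A * matFun c'.1 (uU ℓ) = matFun c'.1 (uU ((ℓ : ℤ) ^ 2)) + ℓ • matFun c'.1 (uU 1) at e1
    rw [e2 (ℓ : ℤ), e2 ((ℓ : ℤ) ^ 2), zsmul_eq_mul, zsmul_eq_mul, nsmul_eq_mul] at e1
    push_cast at e1
    have : ((ℓ : k) * (A - ((ℓ : k) + 1))) * matFun c'.1 (uU 1) = 0 := by
      linear_combination e1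
    rcases mul_eq_zero.mp this with h0 | h0
    · rcases mul_eq_zero.mp h0 with h0 | h0
      · exact absurd h0 hℓk
      · exact absurd (by rw [sub_eq_zero.mp h0]) hA
    · exact h0
  have hU : ∀ s : ℤ, matFun c'.1 (uU s) = 0 := fun s => by
    rw [(isHomOn_matFun c').apply_uU, hu1, smul_zero]
  have hgood : ∀ γ : Mat, γ ∈ Lvl N → ¬ (q : ℤ) ∣ γ 0 0 → matFun c'.1 γ = 0 := by
    intro γ hγ hqa
    obtain ⟨s, hs⟩ := exists_dvd_sub_mul
      ((Nat.prime_iff_prime_int.mp hq.out).coprime_iff_not_dvd.mpr hqa).symm (-γ 0 1)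
    have hmul : γ * uU s = mm (γ 0 0) (γ 0 0 * s + γ 0 1) (γ 1 0) (γ 1 0 * s + γ 1 1) := by
      conv_lhs => rw [mm_eta γ, uU, mm_mul]
      simp only [mm_inj]
      refine ⟨?_, ?_, ?_, ?_⟩ <;> ring
    obtain ⟨b', hb'⟩ : (q : ℤ) ∣ γ 0 0 * s + γ 0 1 := by
      rw [show γ 0 0 * s + γ 0 1 = -(-γ 0 1 - s * γ 0 0) by ring]; exact hs.neg_right
    have hm := lvl_mul hγ (uU_mem N s)
    have hsum := isHomOn_matFun c' γ hγ _ (uU_mem N s)
    rw [hU, add_zero, hmul, hb'] at hsum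
    rw [hmul, hb'] at hm
    rw [← hsum, hq0 hm]
  have hc' : c' = 0 := Subtype.ext (funext fun g => by
    rw [← matFun_eq c'.1 g (M := ((g : SL(2, ℤ)) : Mat)) rfl]
    have hmem : ((g : SL(2, ℤ)) : Mat) ∈ Lvl N :=
      ⟨(g : SL(2, ℤ)).det_coe, (mem_Gamma0_iff_dvd _).mp g.2⟩
    show matFun c'.1 _ = 0
    by_cases hqa : (q : ℤ) ∣ ((g : SL(2, ℤ)) : Mat) 0 0
    · have h1 : uU 1 * ((g : SL(2, ℤ)) : Mat) ∈ Lvl N := lvl_mul (uU_mem N 1) hmem
      have h2 : ¬ (q : ℤ) ∣ (uU 1 * ((g : SL(2, ℤ)) : Mat)) 0 0 := by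
        intro hd
        simp only [uU, Matrix.mul_apply, Fin.sum_univ_two, mm_zero_zero, mm_zero_one, one_mul] at hd
        have hC : (q : ℤ) ∣ ((g : SL(2, ℤ)) : Mat) 1 0 := (Int.dvd_add_right hqa).mp hd
        have hdet := (g : SL(2, ℤ)).det_coe
        rw [Matrix.det_fin_two] at hdet
        exact (Nat.prime_iff_prime_int.mp hq.out).not_isUnit
          (isUnit_of_dvd_one (hdet ▸ dvd_sub (hqa.mul_right _) (hC.mul_left _)))
      have hsum := isHomOn_matFun c' _ (uU_mem N 1) _ hmem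
      rw [hu1, zero_add, hgood _ h1 h2] at hsum
      exact hsum.symm
    · exact hgood _ hmem hqa)
  rw [hc, hc']
  exact ⟨map_zero _, map_zero _⟩

omit [NeZero N] in
omit hqN hℓN hℓp hℓ2 p hp in
lemma degenSum_hecke {x y : Coh1 (trivRep N k k)} (h : degenSum N k q (x, y) = 0) :
    degenSum N k q (heckeOp _ ℓ x, heckeOp _ ℓ y) = 0 := by
  have hℓq' : ¬ ℓ ∣ q := fun hd => hℓq ((Nat.prime_dvd_prime_iff_eq hℓ.out hq.out).mp hd)
  have hN : ℓ ∣ q * N → ℓ ∣ N := fun hd => ((hℓ.out.dvd_mul).mp hd).resolve_left hℓq'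
  rw [degenSum, LinearMap.coprod_apply] at h ⊢
  rw [degen_heckeOp _ _ _ hℓ.out.not_dvd_one hN, degen_heckeOp _ _ _ hℓq' hN, ← map_add, h,
    map_zero]

/-- Ihara's lemma over an algebraically closed field. -/
theorem ihara_algClosed [IsAlgClosed k] {x y : Coh1 (trivRep N k k)}
    (h : degenSum N k q (x, y) = 0) :
    ∃ n : ℕ, ((heckeOp (trivRep N k k) ℓ) ^ 2 - (((ℓ : k) + 1) ^ 2) • 1) ^ n • x = 0 ∧
      ((heckeOp (trivRep N k k) ℓ) ^ 2 - (((ℓ : k) + 1) ^ 2) • 1) ^ n • y = 0 := by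
  have := finite_coh1 (trivRep N k k)
  let P := LinearMap.ker (degenSum N k q)
  let T₀ : Module.End k (Coh1 (trivRep N k k) × Coh1 (trivRep N k k)) :=
    (heckeOp _ ℓ).prodMap (heckeOp _ ℓ)
  have hstab : ∀ v ∈ P, T₀ v ∈ P := fun v hv => degenSum_hecke hℓq hv
  let T : Module.End k P := T₀.restrict hstab
  have : Module.Finite k P := inferInstance
  let Q : Polynomial k := Polynomial.X ^ 2 - Polynomial.C (((ℓ : k) + 1) ^ 2)
  have hroot : ∀ A : k, (minpoly k T).IsRoot A → A ^ 2 = ((ℓ : k) + 1) ^ 2 := by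
    intro A hA
    by_contra hne
    obtain ⟨v, hv⟩ := (Module.End.hasEigenvalue_of_isRoot hA).exists_hasEigenvector
    have hv' : T₀ (v : (Coh1 (trivRep N k k) × Coh1 (trivRep N k k))) = A • (v : (Coh1 (trivRep N k k) × Coh1 (trivRep N k k))) := congrArg Subtype.val hv.apply_eq_smul
    have h0 := eq_zero_of_degenSum_eq_zero_of_eigen hqN hℓN hℓp hℓq hℓ2
      (x := (v : (Coh1 (trivRep N k k) × Coh1 (trivRep N k k))).1) (y := (v : (Coh1 (trivRep N k k) × Coh1 (trivRep N k k))).2) (LinearMap.mem_ker.mp v.2) hne (congrArg Prod.fst hv')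
      (congrArg Prod.snd hv')
    exact hv.2 (Subtype.ext (Prod.ext h0.1 h0.2))
  have hsplit := (IsAlgClosed.splits (minpoly k T)).eq_prod_roots_of_monic
    (minpoly.monic (Algebra.IsIntegral.isIntegral T))
  have hdvd : minpoly k T ∣ Q ^ Multiset.card (minpoly k T).roots := by
    conv_lhs => rw [hsplit]
    rw [← Multiset.prod_replicate, ← Multiset.map_const']
    refine Multiset.prod_dvd_prod_of_dvd _ _ fun A hA => ?_
    rw [Polynomial.dvd_iff_isRoot, Polynomial.IsRoot]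
    simp [Q, hroot A (Polynomial.isRoot_of_mem_roots hA)]
  obtain ⟨F, hF⟩ := hdvd
  refine ⟨Multiset.card (minpoly k T).roots, ?_⟩
  set n := Multiset.card (minpoly k T).roots
  have hzero : (T ^ 2 - (((ℓ : k) + 1) ^ 2) • 1) ^ n = 0 := by
    have := congrArg (Polynomial.aeval T) hF
    rw [map_mul (Polynomial.aeval T)] at this
    erw [minpoly.aeval k T] at this
    rw [zero_mul, map_pow] at this
    rw [← this]
    simp only [Q, map_sub, map_pow, Polynomial.aeval_X, Polynomial.aeval_C,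
      Algebra.algebraMap_eq_smul_one, smul_pow, one_pow]
  let R := (heckeOp (trivRep N k k) ℓ) ^ 2 - (((ℓ : k) + 1) ^ 2) • 1
  have hpow : ∀ (m : ℕ) (v : P),
      ((((T ^ 2 - (((ℓ : k) + 1) ^ 2) • 1) ^ m : Module.End k P) v : P) :
          (Coh1 (trivRep N k k) × Coh1 (trivRep N k k))) =
        ((R ^ m) (v : (Coh1 (trivRep N k k) × Coh1 (trivRep N k k))).1, (R ^ m) (v : (Coh1 (trivRep N k k) × Coh1 (trivRep N k k))).2) := by
    intro m
    induction m with
    | zero => intro v; rfl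
    | succ m ih =>
      intro v
      rw [pow_succ, Module.End.mul_apply, ih, pow_succ R m, Module.End.mul_apply,
        Module.End.mul_apply]
      rfl
  have hxy := hpow n ⟨(x, y), h⟩
  rw [hzero] at hxy
  exact ⟨(congrArg Prod.fst hxy).symm, (congrArg Prod.snd hxy).symm⟩

/-- The element `X_ℓ² - (ℓ+1)²`. -/
noncomputable def iharaElt (k : Type uO) [CommRing k] (ℓ : ℕ) [hℓ : Fact ℓ.Prime] : HeckePoly k :=
  MvPolynomial.X (⟨ℓ, hℓ.out⟩ : Nat.Primes) ^ 2 - MvPolynomial.C (((ℓ : k) + 1) ^ 2)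

omit hqN hℓN hℓp hℓq hℓ2 p hp hq [NeZero N] in
lemma iharaElt_pow_smul (n : ℕ) (x : Coh1 (trivRep N k k)) :
    iharaElt k ℓ ^ n • x =
      ((heckeOp (trivRep N k k) ℓ ^ 2 - (((ℓ : k) + 1) ^ 2) • 1) ^ n :
        Module.End k (Coh1 (trivRep N k k))) x := by
  rw [heckePoly_smul_def, map_pow]
  refine congrArg (fun e : Module.End k (Coh1 (trivRep N k k)) => (e ^ n) x) ?_
  exact (map_sub (heckeHom (trivRep N k k)) _ _).trans (congrArg₂ (· - ·)
    ((map_pow (heckeHom (trivRep N k k)) _ 2).trans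
      (congrArg (· ^ 2) (heckeHom_X (trivRep N k k) ⟨ℓ, hℓ.out⟩)))
    (((heckeHom (trivRep N k k)).commutes _).trans (Algebra.algebraMap_eq_smul_one _)))

/-- **Ihara's lemma**: pairs in the kernel of the sum of the two degeneracy maps are killed by a
power of `X_ℓ² - (ℓ+1)²`, for every prime `ℓ > N` other than `2`, `p`, `q`. -/
theorem ihara {x y : Coh1 (trivRep N k k)} (h : degenSum N k q (x, y) = 0) :
    ∃ n : ℕ, iharaElt k ℓ ^ n • x = 0 ∧ iharaElt k ℓ ^ n • y = 0 := by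
  have : NeZero ℓ := ⟨hℓ.out.ne_zero⟩
  let K := AlgebraicClosure k
  have : CharP K p := charP_of_injective_algebraMap (algebraMap k K).injective p
  let f : k →+ K := (algebraMap k K).toAddMonoidHom
  choose pre hpre using toCoh_surjective (trivRep N k k)
  let Φ : Coh1 (trivRep N k k) → Coh1 (trivRep N K K) := fun u =>
    toCoh _ (extendScalars f (pre u))
  have hΦ : ∀ c, Φ (toCoh _ c) = toCoh _ (extendScalars f c) := fun c => by
    show toCoh _ (extendScalars f (pre (toCoh _ c))) = _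
    rw [toCoh_trivial_injective (hpre (toCoh _ c))]
  have hΦinj : ∀ u, Φ u = 0 → u = 0 := fun u hu => by
    obtain ⟨c, rfl⟩ := toCoh_surjective _ u
    rw [hΦ] at hu
    rw [show c = 0 from Subtype.ext (funext fun g => (algebraMap k K).injective (by
      rw [Submodule.coe_zero, Pi.zero_apply, map_zero]
      exact toCoh_trivial_eq_zero _ (fun _ => rfl) hu g)), map_zero]
  have hΦT : ∀ u, Φ (heckeOp _ ℓ u) = heckeOp _ ℓ (Φ u) := fun u => by
    obtain ⟨c, rfl⟩ := toCoh_surjective _ u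
    rw [heckeOp_toCoh, hΦ, hΦ, heckeOp_toCoh, extendScalars_hecke]
  have hΦlin : ∀ (r : k) u v, Φ (u - r • v) = Φ u - algebraMap k K r • Φ v := fun r u v => by
    obtain ⟨c, rfl⟩ := toCoh_surjective _ u
    obtain ⟨d, rfl⟩ := toCoh_surjective _ v
    rw [← map_smul, ← map_sub, hΦ, hΦ, hΦ, ← map_smul, ← map_sub]
    refine congrArg _ (Subtype.ext (funext fun g => ?_))
    show algebraMap k K (c.1 g - r * d.1 g) = algebraMap k K (c.1 g) - algebraMap k K r * _
    rw [map_sub, map_mul]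
    rfl
  obtain ⟨c, rfl⟩ := toCoh_surjective _ x
  obtain ⟨c', rfl⟩ := toCoh_surjective _ y
  have hK : degenSum N K q (toCoh _ (extendScalars f c), toCoh _ (extendScalars f c')) = 0 := by
    rw [degenSum, LinearMap.coprod_apply, degen_toCoh, degen_toCoh, ← map_add] at h ⊢
    rw [toCoh_eq_zero_iff]
    refine ⟨0, fun γ => ?_⟩
    have h0 := congrArg (algebraMap k K) (toCoh_trivial_eq_zero _ (fun _ => rfl) h γ)
    rw [map_zero] at h0
    obtain ⟨g1, hg1, -⟩ := exists_conjDegen (N := N) one_ne_zero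
      (by rw [one_mul]; exact dvd_mul_left N q) γ
    obtain ⟨g2, hg2, -⟩ := exists_conjDegen (N := N) hq.out.ne_zero (dvd_rfl (a := q * N)) γ
    have e1 := degenData_raw_apply (trivRep N k k) one_ne_zero
      (by rw [one_mul]; exact dvd_mul_left N q) c.1 γ hg1
    have e2 := degenData_raw_apply (trivRep N k k) hq.out.ne_zero dvd_rfl c'.1 γ hg2
    have e3 := degenData_raw_apply (trivRep N K K) one_ne_zero
      (by rw [one_mul]; exact dvd_mul_left N q) (extendScalars f c).1 γ hg1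
    have e4 := degenData_raw_apply (trivRep N K K) hq.out.ne_zero dvd_rfl
      (extendScalars f c').1 γ hg2
    rw [map_zero, sub_zero]
    refine (congrArg₂ (· + ·) e3 e4).trans (Eq.trans ?_ h0)
    show algebraMap k K (c.1 g1) + algebraMap k K (c'.1 g2) = _
    rw [← map_add, ← e1, ← e2]
    rfl
  obtain ⟨n, hn1, hn2⟩ := ihara_algClosed hqN hℓN hℓp hℓq hℓ2 hK
  refine ⟨n, ?_⟩
  have key : ∀ (m : ℕ) u, Φ (iharaElt k ℓ ^ m • u) =
      ((heckeOp (trivRep N K K) ℓ ^ 2 - (((ℓ : K) + 1) ^ 2) • 1) ^ m :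
        Module.End K (Coh1 (trivRep N K K))) (Φ u) := by
    intro m
    induction m with
    | zero => intro u; rw [pow_zero, one_smul]; rfl
    | succ m ih =>
      intro u
      rw [pow_succ, mul_smul, ih, pow_succ _ m, Module.End.mul_apply]
      refine congrArg _ ?_
      rw [← pow_one (iharaElt k ℓ), iharaElt_pow_smul, pow_one]
      simp only [LinearMap.sub_apply, LinearMap.smul_apply, Module.End.one_apply, pow_two,
        Module.End.mul_apply, hΦlin, hΦT]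
      simp
  rw [← hΦ] at hn1 hn2
  exact ⟨hΦinj _ ((key n _).trans hn1), hΦinj _ ((key n _).trans hn2)⟩

end Field

end Fermat.Agent.HeckeModule
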