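import Fermat.Agent.HeckeModule.MatData

/-!
`H¹(Γ₀(N), A)` does not depend on the ring of scalars acting on `A`.
-/

set_option autoImplicit false

open CongruenceSubgroup

universe uO uO' uA

namespace Fermat.Agent.HeckeModule

open HeckeJ0 LevelRaising

variable {O : Type uO} [CommRing O] {O' : Type uO'} [CommRing O'] {A : Type uA} [AddCommGroup A]
  [Module O A] [Module O' A]

section H1

variable {Γ Γ' : Type*} [Group Γ] [Group Γ'] {G : Type*} [Group G]
  {ρ : Representation O Γ A} {ρ' : Representation O' Γ A} {K : Set Γ}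
  (h : ∀ g a, ρ' g a = ρ g a)

/-- A cocycle for other scalars. -/
def sameCocycle (c : cocycles ρ' K) : cocycles ρ K :=
  ⟨c.1, fun g g' => by rw [c.2.1, h], c.2.2⟩

include h in
lemma cls_sameCocycle_eq {c d : cocycles ρ' K} (e : cls ρ' K c = cls ρ' K d) :
    cls ρ K (sameCocycle h c) = cls ρ K (sameCocycle h d) := by
  obtain ⟨a, ha⟩ := (cls_eq_cls_iff c d).mp e
  exact (cls_eq_cls_iff _ _).mpr ⟨a, fun g => (ha g).trans (by rw [h])⟩

/-- The classes for two rings of scalars. -/
noncomputable def sameH1 : H1 ρ' K ≃+ H1 ρ K where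
  toFun u := cls ρ K (sameCocycle h (cls_surjective ρ' K u).choose)
  invFun v := cls ρ' K (sameCocycle (fun g a => (h g a).symm) (cls_surjective ρ K v).choose)
  left_inv u := by
    have h1 := (cls_surjective ρ K
      (cls ρ K (sameCocycle h (cls_surjective ρ' K u).choose))).choose_spec
    exact (cls_sameCocycle_eq (fun g a => (h g a).symm) h1).trans
      (cls_surjective ρ' K u).choose_spec
  right_inv v := by
    have h1 := (cls_surjective ρ' K
      (cls ρ' K (sameCocycle (fun g a => (h g a).symm) (cls_surjective ρ K v).choose))).choose_spec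
    exact (cls_sameCocycle_eq h h1).trans (cls_surjective ρ K v).choose_spec
  map_add' u v := by
    rw [← map_add]
    have hu := (cls_surjective ρ' K u).choose_spec
    have hv := (cls_surjective ρ' K v).choose_spec
    have huv := (cls_surjective ρ' K (u + v)).choose_spec
    exact cls_sameCocycle_eq h (huv.trans ((congrArg₂ (· + ·) hu hv).symm.trans (map_add _ _ _).symm))

lemma sameH1_cls (c : cocycles ρ' K) : sameH1 h (cls ρ' K c) = cls ρ K (sameCocycle h c) :=
  cls_sameCocycle_eq h (cls_surjective ρ' K (cls ρ' K c)).choose_spec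

variable {σ : Representation O Γ' A} {σ' : Representation O' Γ' A} {K' : Set Γ'}
  (h' : ∀ g a, σ' g a = σ g a)
  {i : Γ →* G} {j : Γ' →* G} {ι : Type*} [Fintype ι]

/-- Operators given by the same data agree. -/
theorem sameH1_onH1 (hi : Function.Injective i) (D' : Data i j ρ' σ' K K' ι)
    (D : Data i j ρ σ K K' ι) (hα : ∀ x, D'.α x = D.α x) (hε : ∀ x a, D'.ε x a = D.ε x a)
    (u : H1 ρ' K) : sameH1 h' (D'.onH1 hi u) = D.onH1 hi (sameH1 h u) := by
  obtain ⟨c, rfl⟩ := cls_surjective ρ' K u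
  rw [Data.onH1_cls, sameH1_cls, sameH1_cls, Data.onH1_cls]
  refine congrArg _ (Subtype.ext (funext fun γ => ?_))
  show D'.raw c.1 γ = D.raw c.1 γ
  rw [Data.raw_apply, Data.raw_apply]
  refine Finset.sum_congr rfl fun x _ => ?_
  have h1 := D'.mul_spec x γ
  rw [hα, hα] at h1
  rw [(D.spec_unique hi h1).2, hε]

end H1

section Coh

variable {N : ℕ} {ρ : Representation O (ZMod N)ˣ A} {ρ' : Representation O' (ZMod N)ˣ A}
  (h : ∀ u a, ρ' u a = ρ u a)

/-- `H¹(Γ₀(N), A)` for two rings of scalars. -/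
noncomputable def sameCoh : Coh1 ρ' ≃+ Coh1 ρ :=
  sameH1 (ρ := gammaRep ρ) (ρ' := gammaRep ρ') fun _ a => h _ a

lemma sameCoh_heckeOp (ℓ : ℕ) [Fact ℓ.Prime] (u : Coh1 ρ') :
    sameCoh h (heckeOp ρ' ℓ u) = heckeOp ρ ℓ (sameCoh h u) := by
  have : NeZero ℓ := ⟨(Fact.out : ℓ.Prime).ne_zero⟩
  exact sameH1_onH1 _ _ toGL_injective (heckeData ρ' ℓ) (heckeData ρ ℓ) (fun _ => rfl)
    (fun x a => h _ a) u

variable {f : O' →+* O} (hf : ∀ (r : O') (a : A), r • a = f r • a)

include hf in
lemma sameCoh_smul (r : O') (u : Coh1 ρ') : sameCoh h (r • u) = f r • sameCoh h u := by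
  obtain ⟨c, rfl⟩ := toCoh_surjective ρ' u
  rw [← map_smul]
  refine (sameH1_cls _ _).trans ?_
  rw [show sameCoh h (toCoh ρ' c) = toCoh ρ (sameCocycle (fun _ a => h _ a) c) from sameH1_cls _ _,
    ← map_smul]
  exact congrArg (toCoh ρ) (Subtype.ext (funext fun γ => hf r _))

include hf in
lemma sameCoh_poly_smul (a : HeckePoly O') (u : Coh1 ρ') :
    sameCoh h (a • u) = MvPolynomial.map f a • sameCoh h u := by
  induction a using MvPolynomial.induction_on generalizing u with
  | C r =>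
    rw [MvPolynomial.map_C, ← MvPolynomial.algebraMap_eq, ← MvPolynomial.algebraMap_eq,
      algebraMap_smul, algebraMap_smul, sameCoh_smul h hf]
  | add P Q hP hQ => rw [map_add, add_smul, add_smul, map_add, hP, hQ]
  | mul_X P l hP =>
    have : Fact (l : ℕ).Prime := ⟨l.2⟩
    rw [map_mul, MvPolynomial.map_X, mul_smul, mul_smul, hP]
    congr 1
    exact (congrArg (sameCoh h) (X_smul ρ' (l : ℕ) u)).trans
      ((sameCoh_heckeOp h (l : ℕ) u).trans (X_smul ρ (l : ℕ) _).symm)

variable {q : ℕ}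

lemma sameCoh_degen {N' d : ℕ} (hd : d ≠ 0) (hdN : d * N ∣ N') (u : Coh1 ρ') :
    sameCoh (ρ := pullRep ρ (dvd_of_mul_left_dvd hdN))
        (ρ' := pullRep ρ' (dvd_of_mul_left_dvd hdN)) (fun _ a => h _ a) (degen ρ' hd hdN u)
      = degen ρ hd hdN (sameCoh h u) :=
  sameH1_onH1 _ _ toGL_injective (degenData ρ' hd hdN) (degenData ρ hd hdN) (fun _ => rfl)
    (fun _ _ => rfl) u

variable [Fact q.Prime] (hqN : ¬ q ∣ N)

lemma sameCoh_trace (u : Coh1 (pullRep ρ' (dvd_mul_left N q))) :
    sameCoh h (trace ρ' hqN u) = trace ρ hqN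
      (sameCoh (ρ := pullRep ρ (dvd_mul_left N q)) (ρ' := pullRep ρ' (dvd_mul_left N q))
        (fun _ a => h _ a) u) :=
  sameH1_onH1 _ _ toGL_injective (traceData ρ' hqN) (traceData ρ hqN) (fun _ => rfl)
    (fun _ _ => rfl) u

lemma sameCoh_traceTwist (u : Coh1 (pullRep ρ' (dvd_mul_left N q))) :
    sameCoh h (traceTwist ρ' hqN u) = traceTwist ρ hqN
      (sameCoh (ρ := pullRep ρ (dvd_mul_left N q)) (ρ' := pullRep ρ' (dvd_mul_left N q))
        (fun _ a => h _ a) u) :=
  sameH1_onH1 _ _ toGL_injective (traceTwistData ρ' hqN) (traceTwistData ρ hqN) (fun _ => rfl)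
    (fun _ _ => rfl) u

end Coh

end Fermat.Agent.HeckeModule
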