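import Fermat.Agent.HeckeModule.TraceComp

/-!
The transfers from level `qN` to level `N` commute with the Hecke operators at primes `ℓ ∤ qN`.
-/

set_option autoImplicit false

open CongruenceSubgroup Matrix.SpecialLinearGroup
open scoped MatrixGroups OnePoint

universe uO uA

namespace Fermat.Agent.HeckeModule

open HeckeJ0 LevelRaising

section Fact

variable {X Y : Set Mat} {ι κ : Type*} {β : ι → Mat}

/-- Translate a system of representatives on the left. -/
theorem isFact_mul_left (h : IsFact X Y β) (g : Mat) (hg : g.det ≠ 0) :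
    IsFact ((g * ·) '' X) ((g * ·) '' Y) β where
  det_ne_zero := h.det_ne_zero
  mem := by
    rintro _ ⟨y, hy, rfl⟩ i
    exact ⟨_, h.mem y hy i, (mul_assoc _ _ _).symm⟩
  fact := by
    rintro _ ⟨x, hx, rfl⟩
    obtain ⟨i, y, hy, rfl⟩ := h.fact x hx
    exact ⟨i, g * y, ⟨y, hy, rfl⟩, (mul_assoc _ _ _).symm⟩
  unique := by
    rintro i j _ _ ⟨y, hy, rfl⟩ ⟨y', hy', rfl⟩ e
    rw [mul_assoc, mul_assoc] at e
    exact h.unique hy hy' (mat_cancel_left hg e)

/-- Two systems of representatives of the same set differ by a bijection. -/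
theorem exists_equiv_of_fact {M : ℕ} {β' : κ → Mat} (h : IsFact X (Lvl M) β)
    (h' : IsFact X (Lvl M) β') :
    ∃ (e : ι ≃ κ) (g : ι → Gamma0 M), ∀ i, β i = ((g i : SL(2, ℤ)) : Mat) * β' (e i) := by
  have key : ∀ i, ∃ j, ∃ y, ∃ _ : y ∈ Lvl M, β i = y * β' j := fun i => by
    obtain ⟨j, y, hy, e⟩ := h'.fact _ (by simpa using h.mem 1 (one_mem_lvl M) i)
    exact ⟨j, y, hy, e⟩
  choose e y hy he using key
  have hbij : Function.Bijective e := by
    constructor
    · intro i i' hii'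
      have h1 : (y i).adjugate * β i = β' (e i) := by
        rw [he i, ← mul_assoc, adjugate_mul_lvl (hy i), one_mul]
      have h2 : (y i').adjugate * β i' = β' (e i') := by
        rw [he i', ← mul_assoc, adjugate_mul_lvl (hy i'), one_mul]
      exact h.unique (adjugate_mem_detLevel (hy i)) (adjugate_mem_detLevel (hy i'))
        (by rw [h1, h2, hii'])
    · intro j
      obtain ⟨i, z, hz, hj⟩ := h.fact _ (by simpa using h'.mem 1 (one_mem_lvl M) j)
      refine ⟨i, (h'.unique (one_mem_lvl M) (lvl_mul hz (hy i)) ?_).symm⟩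
      rw [one_mul, hj, mul_assoc, ← he i]
  exact ⟨Equiv.ofBijective e hbij, fun i => lvlElt (hy i), he⟩

end Fact

variable {O : Type uO} [CommRing O] {A : Type uA} [AddCommGroup A] [Module O A]
  {N q ℓ : ℕ} [hq : Fact q.Prime] [hℓ : Fact ℓ.Prime]

lemma coe_aUnit_idxEquiv (hℓN : ¬ ℓ ∣ N) (i : Option (Fin ℓ)) :
    ((aUnit (idxEquiv (N := N) hℓN i) : (ZMod N)ˣ) : ZMod N) = (heckMat ℓ i 0 0 : ZMod N) ∧
      heckMat ℓ i 1 0 = 0 := by
  cases i with
  | none => rw [aUnit_idxEquiv_none, coe_qUnit]; simp [heckMat]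
  | some j => rw [aUnit_idxEquiv_some, Units.val_one]; simp [heckMat]

variable (ρ : Representation O (ZMod N)ˣ A)

omit hq in
/-- A transfer commutes with a Hecke operator if the two composite systems of representatives
describe the same set. -/
theorem transfer_heckeOp {ι : Type*} [Fintype ι] {X X' : Set Mat} {β : ι → Mat}
    (hβ : IsFact X (Lvl (q * N)) β)
    (hu : ∀ i, (β i 0 0 : ZMod N) = 1 ∧ (β i 1 0 : ZMod N) = 0)
    (ha : IsFact X' (Lvl (q * N))
      (fun p : Option (Fin ℓ) × ι => β p.2 * heckMat ℓ p.1))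
    (hb : IsFact X' (Lvl (q * N))
      (fun p : ι × Option (Fin ℓ) => heckMat ℓ p.2 * β p.1))
    (hℓN : ¬ ℓ ∣ q * N)
    (D : Data (toGL (q * N)) (toGL N) (gammaRep (pullRep ρ (dvd_mul_left N q))) (gammaRep ρ)
      {negOne (q * N)} {negOne N} (ι))
    (hDα : ∀ i, D.α i = matGL (β i) (hβ.det_ne_zero i)) (hDε : ∀ i, D.ε i = LinearMap.id)
    (u : Coh1 (pullRep ρ (dvd_mul_left N q))) :
    D.onH1 toGL_injective (heckeOp _ ℓ u) = heckeOp ρ ℓ (D.onH1 toGL_injective u) := by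
  have : NeZero ℓ := ⟨hℓ.out.ne_zero⟩
  have hℓN' : ¬ ℓ ∣ N := fun h => hℓN (h.mul_left q)
  obtain ⟨e0, g0, hg0⟩ := exists_equiv_of_fact hb ha
  let e : Idx (q * N) ℓ × ι ≃ ι × Idx N ℓ :=
    (((idxEquiv hℓN).symm.prodCongr (Equiv.refl _)).trans (Equiv.prodComm _ _)).trans
      (e0.trans ((Equiv.prodComm _ _).trans ((Equiv.refl _).prodCongr (idxEquiv hℓN'))))
  have he : ∀ k i, e (idxEquiv hℓN k, i) = ((e0 (i, k)).2, idxEquiv hℓN' (e0 (i, k)).1) :=
    fun k i => by simp [e]; rfl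
  refine Data.comp_eq_comp toGL_injective toGL_injective toGL_injective
    (heckeData _ ℓ) D D (heckeData ρ ℓ) e
    (fun p => g0 (p.2, (idxEquiv hℓN).symm p.1)) ?_ ?_ u
  · rintro ⟨x, i⟩
    obtain ⟨k, rfl⟩ := (idxEquiv hℓN).surjective x
    rw [he, Equiv.symm_apply_apply]
    refine Units.ext ?_
    show (rep (idxEquiv hℓN k) : GL (Fin 2) ℝ).val * (D.α i).val =
      (toGL (q * N) _).val * ((D.α _).val * (rep (idxEquiv hℓN' _) : GL (Fin 2) ℝ).val)
    rw [hDα, hDα, val_matGL, val_matGL, val_toGL, rep_idxEquiv, rep_idxEquiv,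
      ← Matrix.map_mul_intCast, ← Matrix.map_mul_intCast, ← Matrix.map_mul_intCast]
    exact congrArg (fun S : Mat => S.map (Int.cast : ℤ → ℝ)) (hg0 (i, k))
  · rintro ⟨x, i⟩
    obtain ⟨k, rfl⟩ := (idxEquiv hℓN).surjective x
    rw [he, Equiv.symm_apply_apply]
    simp only [hDε, LinearMap.id_comp, LinearMap.comp_id]
    show pullRep ρ _ (aUnit _) ∘ₗ pullRep ρ _ (dUnit (q * N) (g0 (i, k)))
      = ρ (aUnit (idxEquiv hℓN' (e0 (i, k)).1))
    rw [← Module.End.mul_eq_comp, pullRep_apply, pullRep_apply, ← map_mul]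
    refine congrArg ρ (Units.ext ?_)
    have h := congrArg (Int.cast : ℤ → ZMod N) (congrFun (congrFun (hg0 (i, k)) 0) 0)
    obtain ⟨ha1, ha2⟩ := coe_aUnit_idxEquiv hℓN' (e0 (i, k)).1
    obtain ⟨hk1, hk2⟩ := coe_aUnit_idxEquiv hℓN k
    obtain ⟨hj1, hj2⟩ := hu (e0 (i, k)).2
    obtain ⟨hi1, hi2⟩ := hu i
    simp only [Matrix.mul_apply, Fin.sum_univ_two, ha2] at h
    push_cast at h
    rw [hj1, hj2, hi1, hi2] at h
    simp only [mul_zero, zero_mul, add_zero, one_mul, mul_one, ← ha1] at h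
    have hg := congrArg (ZMod.castHom (dvd_mul_left N q) (ZMod N)) (gamma0_diag (g0 (i, k)))
    rw [map_mul, map_one, map_intCast] at hg
    rw [Units.val_mul, ZMod.unitsMap_def, Units.coe_map, Units.coe_map, MonoidHom.coe_coe, hk1,
      map_intCast]
    linear_combination ((ZMod.castHom (dvd_mul_left N q) (ZMod N))
      ((dUnit (q * N) (g0 (i, k)) : (ZMod (q * N))ˣ) : ZMod (q * N))) * h +
        ((aUnit (idxEquiv hℓN' (e0 (i, k)).1) : (ZMod N)ˣ) : ZMod N) * hg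

variable (hqN : ¬ q ∣ N)

/-- `trace ∘ T_ℓ = T_ℓ ∘ trace`. -/
theorem trace_heckeOp (hℓN : ¬ ℓ ∣ q * N) (u : Coh1 (pullRep ρ (dvd_mul_left N q))) :
    trace ρ hqN (heckeOp _ ℓ u) = heckeOp ρ ℓ (trace ρ hqN u) := by
  have hℓN' : ¬ ℓ ∣ N := fun h => hℓN (h.mul_left q)
  have hr : ¬ (q : ℤ) ∣ (ℓ : ℤ) := by
    exact_mod_cast fun h => hℓN (((Nat.prime_dvd_prime_iff_eq hq.out hℓ.out).mp h) ▸
      dvd_mul_right q N)
  refine transfer_heckeOp (X' := DetLevel N ℓ) ρ (fact_traceMat' hqN)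
    traceMat_apply_zero
    ((fact_heckMat_one hℓ.out hℓN').comp (fact_traceMat' hqN)) ?_ hℓN (traceData ρ hqN)
    (fun _ => rfl) (fun _ => rfl) u
  have h := fact_traceMat hq.out hqN hr
  rw [mul_comm N q] at h
  exact h.comp (fact_heckMat_one hℓ.out hℓN)

/-- The twisted trace commutes with `T_ℓ`. -/
theorem traceTwist_heckeOp (hℓN : ¬ ℓ ∣ q * N) (u : Coh1 (pullRep ρ (dvd_mul_left N q))) :
    traceTwist ρ hqN (heckeOp _ ℓ u) = heckeOp ρ ℓ (traceTwist ρ hqN u) := by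
  have hℓN' : ¬ ℓ ∣ N := fun h => hℓN (h.mul_left q)
  have hr : ¬ (q : ℤ) ∣ (ℓ : ℤ) := by
    exact_mod_cast fun h => hℓN (((Nat.prime_dvd_prime_iff_eq hq.out hℓ.out).mp h) ▸
      dvd_mul_right q N)
  exact transfer_heckeOp ρ (fact_degenReps hqN) (degenReps_apply_zero hqN)
    ((isFact_mul_left (fact_heckMat_one hℓ.out hℓN') (mm 1 0 0 q)
      (by simp [hq.out.ne_zero])).comp (fact_degenReps hqN))
    ((fact_degenReps_det hqN hr).comp (fact_heckMat_one hℓ.out hℓN)) hℓN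
    (traceTwistData ρ hqN) (fun _ => rfl) (fun _ => rfl) u

end Fermat.Agent.HeckeModule
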