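import Fermat.Agent.HeckeModule.LocLift
import Fermat.Agent.HeckeModule.TraceHecke

/-!
Degeneracy maps and transfers between localised cohomology groups, and their composites.
-/

set_option autoImplicit false

open CongruenceSubgroup

universe uO uA

namespace Fermat.Agent.HeckeModule

variable {O : Type uO} [CommRing O] {A : Type uA} [AddCommGroup A] [Module O A]
  {N q : ℕ} [hq : Fact q.Prime] {S : Set ℕ} {P : Submonoid (HeckePoly O)}
  (hP : IsAway S P) (hS : ∀ ℓ : ℕ, ℓ.Prime → ℓ ∣ q * N → ℓ ∈ S)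
  (ρ : Representation O (ZMod N)ˣ A) (hqN : ¬ q ∣ N)

omit hq in
lemma degen_one_hecke (hS : ∀ ℓ : ℕ, ℓ.Prime → ℓ ∣ q * N → ℓ ∈ S) (ℓ : ℕ) [hℓ : Fact ℓ.Prime]
    (hℓS : ℓ ∉ S) (u : Coh1 ρ) :
    degen ρ (N' := q * N) one_ne_zero (by rw [one_mul]; exact dvd_mul_left N q) (heckeOp ρ ℓ u)
      = heckeOp _ ℓ (degen ρ one_ne_zero (by rw [one_mul]; exact dvd_mul_left N q) u) :=
  degen_heckeOp ρ _ _ hℓ.out.not_dvd_one (fun h => absurd (hS ℓ hℓ.out h) hℓS) u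

lemma degen_q_hecke (hS : ∀ ℓ : ℕ, ℓ.Prime → ℓ ∣ q * N → ℓ ∈ S) (ℓ : ℕ) [hℓ : Fact ℓ.Prime]
    (hℓS : ℓ ∉ S) (u : Coh1 ρ) :
    degen ρ (N' := q * N) hq.out.ne_zero dvd_rfl (heckeOp ρ ℓ u)
      = heckeOp _ ℓ (degen ρ hq.out.ne_zero dvd_rfl u) :=
  degen_heckeOp ρ _ _ (fun h => hℓS (hS ℓ hℓ.out (h.mul_right N)))
    (fun h => absurd (hS ℓ hℓ.out h) hℓS) u

/-- `res` on localisations. -/
noncomputable def locRes : CohLoc P ρ →ₗ[O] CohLoc P (pullRep ρ (dvd_mul_left N q)) :=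
  locLift P (degen ρ (N' := q * N) one_ne_zero (by rw [one_mul]; exact dvd_mul_left N q))
    (hP.commute _ fun ℓ _ hℓ => degen_one_hecke ρ hS ℓ hℓ)

/-- `z ↦ q z` on localisations. -/
noncomputable def locDegen : CohLoc P ρ →ₗ[O] CohLoc P (pullRep ρ (dvd_mul_left N q)) :=
  locLift P (degen ρ (N' := q * N) hq.out.ne_zero dvd_rfl)
    (hP.commute _ fun ℓ _ hℓ => degen_q_hecke ρ hS ℓ hℓ)

/-- The trace on localisations. -/
noncomputable def locTrace : CohLoc P (pullRep ρ (dvd_mul_left N q)) →ₗ[O] CohLoc P ρ :=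
  locLift P (trace ρ hqN) (hP.commute _ fun ℓ hℓ hℓS =>
    trace_heckeOp ρ hqN fun h => hℓS (hS ℓ hℓ.out h))

/-- The twisted trace on localisations. -/
noncomputable def locTraceTwist : CohLoc P (pullRep ρ (dvd_mul_left N q)) →ₗ[O] CohLoc P ρ :=
  locLift P (traceTwist ρ hqN) (hP.commute _ fun ℓ hℓ hℓS =>
    traceTwist_heckeOp ρ hqN fun h => hℓS (hS ℓ hℓ.out h))

lemma locTrace_locRes (x : CohLoc P ρ) :
    locTrace hP hS ρ hqN (locRes hP hS ρ x) = ((q : O) + 1) • x :=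
  (locLift_locLift_eq_smul _ _ _ _ (algebraMap O (HeckePoly O) ((q : O) + 1))
    (fun u => (trace_degen_one hqN ρ u).trans (algebraMap_smul (HeckePoly O) _ u).symm) x).trans
    (algebraMap_smul _ _ _)

lemma locTraceTwist_locDegen (x : CohLoc P ρ) :
    locTraceTwist hP hS ρ hqN (locDegen hP hS ρ x) = ((q : O) + 1) • x :=
  (locLift_locLift_eq_smul _ _ _ _ (algebraMap O (HeckePoly O) ((q : O) + 1))
    (fun u => (traceTwist_degen hqN ρ u).trans (algebraMap_smul (HeckePoly O) _ u).symm) x).trans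
    (algebraMap_smul _ _ _)

lemma locTraceTwist_locRes (x : CohLoc P ρ) :
    locTraceTwist hP hS ρ hqN (locRes hP hS ρ x)
      = (MvPolynomial.X (⟨q, hq.out⟩ : Nat.Primes) : HeckePoly O) • x :=
  locLift_locLift_eq_smul _ _ _ _ _
    (fun u => (traceTwist_degen_one hqN ρ u).trans (X_smul ρ q u).symm) x

/-- For scalar coefficients `trace ∘ (z ↦ q z) = χ(q)⁻¹ T_q`. -/
lemma locTrace_locDegen (χ : (ZMod N)ˣ →* O) (x : CohLoc P (scalarRep χ A)) :
    locTrace hP hS (scalarRep χ A) hqN (locDegen hP hS (scalarRep χ A) x)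
      = χ (qUnit hqN)⁻¹ •
          ((MvPolynomial.X (⟨q, hq.out⟩ : Nat.Primes) : HeckePoly O) • x) := by
  refine (locLift_locLift_eq_smul _ _ _ _ (χ (qUnit hqN)⁻¹ •
    (MvPolynomial.X (⟨q, hq.out⟩ : Nat.Primes) : HeckePoly O)) (fun u => ?_) x).trans ?_
  · rw [smul_assoc, X_smul]
    refine (trace_degen hqN (scalarRep χ A) u).trans ?_
    obtain ⟨c, hc⟩ := toCoh_surjective (scalarRep χ A) (heckeOp _ q u)
    rw [← hc, cohMapO_toCoh, ← map_smul]
    rfl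
  · rw [smul_assoc]

end Fermat.Agent.HeckeModule
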