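import Fermat.Agent.HeckeModule.BaseChange
import Fermat.Agent.HeckeModule.LevelLoc

/-!
Ihara's lemma and its dual for coefficients congruent to `1`: over a residue field the localised
degeneracy maps are jointly injective and the transfers jointly surjective.
-/

set_option autoImplicit false

open CongruenceSubgroup

universe uO uk

namespace Fermat.Agent.HeckeModule

/-- The auxiliary primes: `X_ℓ² - (ℓ+1)²` and `X_r - (r+1)` lie in `P`. -/
structure IharaPrimes {O : Type uO} [CommRing O] (P : Submonoid (HeckePoly O)) (N q p : ℕ) where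
  /-- the prime `ℓ` -/
  ℓ : ℕ
  /-- the prime `r ≡ 1 (mod N)` -/
  r : ℕ
  [primeℓ : Fact ℓ.Prime]
  [primer : Fact r.Prime]
  lt : N < ℓ
  ne_p : ℓ ≠ p
  ne_q : ℓ ≠ q
  ne_two : ℓ ≠ 2
  r_eq : (r : ZMod N) = 1
  ihara_mem : iharaElt O ℓ ∈ P
  eisen_mem : eisen O r ∈ P

variable {O : Type uO} [CommRing O] {k : Type uk} [Field k] [Algebra O k]
  {p : ℕ} [CharP k p] [hp : Fact p.Prime] {N q : ℕ} [NeZero N] [hq : Fact q.Prime] {S : Set ℕ}
  {P : Submonoid (HeckePoly O)} (hP : IsAway S P)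
  (hS : ∀ ℓ : ℕ, ℓ.Prime → ℓ ∣ q * N → ℓ ∈ S) {χ : (ZMod N)ˣ →* O}

omit [NeZero N] in
lemma scalarRep_eq_triv (hχ : ∀ u, algebraMap O k (χ u) = 1) (u : (ZMod N)ˣ) (a : k) :
    scalarRep χ k u a = trivRep N k k u a := by
  rw [scalarRep_apply, Algebra.smul_def, hχ, one_mul]
  rfl

lemma map_iharaElt (ℓ : ℕ) [Fact ℓ.Prime] :
    MvPolynomial.map (algebraMap O k) (iharaElt O ℓ) = iharaElt k ℓ := by
  refine (map_sub (MvPolynomial.map (σ := Nat.Primes) (algebraMap O k)) _ _).trans
    (congrArg₂ (· - ·) ((map_pow _ _ _).trans (congrArg (· ^ 2) (MvPolynomial.map_X _ _)))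
      ((MvPolynomial.map_C _ _).trans (congrArg MvPolynomial.C ?_)))
  simp

lemma map_eisen (ℓ : ℕ) [Fact ℓ.Prime] :
    MvPolynomial.map (algebraMap O k) (eisen O ℓ) = eisen k ℓ := by
  refine (map_sub (MvPolynomial.map (σ := Nat.Primes) (algebraMap O k)) _ _).trans
    (congrArg₂ (· - ·) (MvPolynomial.map_X _ _)
      ((MvPolynomial.map_C _ _).trans (congrArg MvPolynomial.C ?_)))
  simp

variable (H : IharaPrimes P N q p) (hqN : ¬ q ∣ N) (hχ : ∀ u, algebraMap O k (χ u) = 1)

include H hqN hχ in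
/-- The two localised degeneracy maps are jointly injective. -/
theorem eq_zero_of_locRes_add_locDegen {x y : CohLoc P (scalarRep χ k)}
    (h : locRes hP hS (scalarRep χ k) x + locDegen hP hS (scalarRep χ k) y = 0) :
    x = 0 ∧ y = 0 := by
  induction x using LocalizedModule.induction_on with
  | _ u s =>
  induction y using LocalizedModule.induction_on with
  | _ v t =>
  have := H.primeℓ
  rw [locRes, locDegen, locLift_mk, locLift_mk, LocalizedModule.mk_add_mk,
    IsLocalizedModule.mk_eq_mk', IsLocalizedModule.mk'_eq_zero'] at h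
  obtain ⟨a, ha⟩ := h
  simp only [Submonoid.smul_def, smul_add] at ha
  set E := MvPolynomial.map (σ := Nat.Primes) (algebraMap O k)
  have hh := scalarRep_eq_triv (N := N) (χ := χ) hχ
  rw [← hP.commute _ (fun ℓ _ hℓ => degen_one_hecke (scalarRep χ k) hS ℓ hℓ) _ t.2,
    ← hP.commute _ (fun ℓ _ hℓ => degen_one_hecke (scalarRep χ k) hS ℓ hℓ) _ a.2,
    ← hP.commute _ (fun ℓ _ hℓ => degen_q_hecke (scalarRep χ k) hS ℓ hℓ) _ s.2,
    ← hP.commute _ (fun ℓ _ hℓ => degen_q_hecke (scalarRep χ k) hS ℓ hℓ) _ a.2] at ha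
  have hk : degenSum N k q (sameCoh hh ((a : HeckePoly O) • ((t : HeckePoly O) • u)),
      sameCoh hh ((a : HeckePoly O) • ((s : HeckePoly O) • v))) = 0 := by
    rw [degenSum, LinearMap.coprod_apply, ← sameCoh_degen hh, ← sameCoh_degen hh, ← map_add]
    exact (congrArg _ ha).trans (map_zero _)
  obtain ⟨n, h1, h2⟩ := ihara (p := p) (ℓ := H.ℓ) hqN H.lt H.ne_p H.ne_q H.ne_two hk
  have back : ∀ z : Coh1 (scalarRep χ k), iharaElt k H.ℓ ^ n • sameCoh hh z = 0 →
      iharaElt O H.ℓ ^ n • z = 0 := fun z hz => (sameCoh hh).injective (by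
    rw [sameCoh_poly_smul hh (f := algebraMap O k) (fun r a => Algebra.smul_def r a), map_pow,
      map_iharaElt, hz, map_zero])
  constructor <;> rw [IsLocalizedModule.mk_eq_mk', IsLocalizedModule.mk'_eq_zero']
  · refine ⟨⟨iharaElt O H.ℓ ^ n * a * t,
      P.mul_mem (P.mul_mem (P.pow_mem H.ihara_mem n) a.2) t.2⟩, ?_⟩
    exact ((mul_smul (iharaElt O H.ℓ ^ n * (a : HeckePoly O)) (t : HeckePoly O) u).trans
      (mul_smul _ _ _)).trans (back _ h1)
  · refine ⟨⟨iharaElt O H.ℓ ^ n * a * s,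
      P.mul_mem (P.mul_mem (P.pow_mem H.ihara_mem n) a.2) s.2⟩, ?_⟩
    exact ((mul_smul (iharaElt O H.ℓ ^ n * (a : HeckePoly O)) (s : HeckePoly O) v).trans
      (mul_smul _ _ _)).trans (back _ h2)

include H hχ in
/-- The two localised transfers are jointly surjective. -/
theorem exists_locTrace_eq (hN : Liftable k N) (x y : CohLoc P (scalarRep χ k)) :
    ∃ z, locTrace hP hS (scalarRep χ k) hqN z = x ∧
      locTraceTwist hP hS (scalarRep χ k) hqN z = y := by
  induction x using LocalizedModule.induction_on with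
  | _ u s =>
  induction y using LocalizedModule.induction_on with
  | _ v t =>
  have := H.primeℓ
  have := H.primer
  have hh := scalarRep_eq_triv (N := N) (χ := χ) hχ
  have hh' : ∀ (w : (ZMod (q * N))ˣ) (a : k), pullRep (scalarRep χ k) (dvd_mul_left N q) w a
      = pullRep (trivRep N k k) (dvd_mul_left N q) w a := fun _ a => hh _ a
  obtain ⟨n, hn⟩ := exists_trace_eq (p := p) (ℓ := H.ℓ) (r := H.r) hqN H.lt H.ne_p H.ne_q
    H.ne_two hN H.r_eq
  set e : HeckePoly O := iharaElt O H.ℓ ^ n * eisen O H.r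
  have he : e ∈ P := P.mul_mem (P.pow_mem H.ihara_mem n) H.eisen_mem
  obtain ⟨z, hz1, hz2⟩ := hn (sameCoh hh ((t : HeckePoly O) • u))
    (sameCoh hh ((s : HeckePoly O) • v))
  have hmap : MvPolynomial.map (algebraMap O k) e = iharaElt k H.ℓ ^ n * eisen k H.r := by
    rw [map_mul, map_pow, map_iharaElt, map_eisen]
  have hsm : ∀ (r : O) (a : k), r • a = algebraMap O k r • a := fun r a => Algebra.smul_def r a
  have h1 : trace (scalarRep χ k) hqN ((sameCoh hh').symm z) = e • ((t : HeckePoly O) • u) := by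
    refine (sameCoh hh).injective ?_
    rw [sameCoh_trace hh, sameCoh_poly_smul hh hsm e, hmap]
    exact (congrArg _ ((sameCoh hh').apply_symm_apply z)).trans hz1
  have h2 : traceTwist (scalarRep χ k) hqN ((sameCoh hh').symm z)
      = e • ((s : HeckePoly O) • v) := by
    refine (sameCoh hh).injective ?_
    rw [sameCoh_traceTwist hh, sameCoh_poly_smul hh hsm e, hmap]
    exact (congrArg _ ((sameCoh hh').apply_symm_apply z)).trans hz2
  refine ⟨LocalizedModule.mk ((sameCoh hh').symm z) (⟨e, he⟩ * (s * t)), ?_, ?_⟩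
  · rw [locTrace, locLift_mk, h1, LocalizedModule.mk_eq]
    refine ⟨1, ?_⟩
    simp only [Submonoid.smul_def, Submonoid.coe_mul, one_smul, smul_smul]
    congr 1
    ring
  · rw [locTraceTwist, locLift_mk, h2, LocalizedModule.mk_eq]
    refine ⟨1, ?_⟩
    simp only [Submonoid.smul_def, Submonoid.coe_mul, one_smul, smul_smul]
    congr 1
    ring

end Fermat.Agent.HeckeModule
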