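import Fermat.Agent.HeckeModule.Core

/-!
Identities between composites of operators given by double coset data: it suffices to match the
products of representatives up to the small group and a central element.
-/

set_option autoImplicit false

universe uO uA uB uC

namespace Fermat.Agent.HeckeModule

variable {O : Type uO} [CommRing O]
  {A : Type uA} [AddCommGroup A] [Module O A]
  {B : Type uB} [AddCommGroup B] [Module O B]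
  {C : Type uC} [AddCommGroup C] [Module O C]
  {Γ₁ Γ₂ Γ₃ Γ₂' : Type*} [Group Γ₁] [Group Γ₂] [Group Γ₃] [Group Γ₂'] {G : Type*} [Group G]
  {i₁ : Γ₁ →* G} {i₂ : Γ₂ →* G} {i₃ : Γ₃ →* G} {i₂' : Γ₂' →* G}
  {ρ₁ : Representation O Γ₁ A} {ρ₂ : Representation O Γ₂ B} {ρ₃ : Representation O Γ₃ C}
  {K₁ : Set Γ₁} {K₂ : Set Γ₂} {K₃ : Set Γ₃}

/-- A central translate of an equivariant function is equivariant for the same cocycle. -/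
lemma IsEquivariant.translate {c : Γ₁ → A} {F : G → A} (hF : IsEquivariant i₁ ρ₁ c F) {z : G}
    (hz : ∀ M, Commute z M) : IsEquivariant i₁ ρ₁ c fun M => F (z * M) := fun g M => by
  show F (z * (i₁ g * M)) = _
  rw [show z * (i₁ g * M) = i₁ g * (z * M) by rw [← mul_assoc, (hz _).eq, mul_assoc], hF]

/-- Cocycles of weighted sums of translates that match term by term have the same class. -/
theorem cls_eq_of_sum {c : Γ₁ → A} {F : G → A} (hF : IsEquivariant i₁ ρ₁ c F)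
    {ι ι' : Type*} [Fintype ι] [Fintype ι'] (f : ι → A →ₗ[O] C) (a : ι → G)
    (f' : ι' → A →ₗ[O] C) (b : ι' → G) (z : G) {d d' : cocycles ρ₃ K₃}
    (hd : IsEquivariant i₃ ρ₃ d.1 fun M => ∑ x, f x (F (a x * M)))
    (hd' : IsEquivariant i₃ ρ₃ d'.1 fun M => ∑ y, f' y (F (z * (b y * M))))
    (e : ι ≃ ι') (g : ι → Γ₁) (hab : ∀ x, a x = i₁ (g x) * (z * b (e x)))
    (hfg : ∀ x, f x ∘ₗ ρ₁ (g x) = f' (e x)) : cls ρ₃ K₃ d = cls ρ₃ K₃ d' := by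
  refine cls_eq_of_equivariant hd hd' (∑ x, f x (c (g x))) fun M => ?_
  show ∑ x, f x (F (a x * M)) = _
  rw [← Equiv.sum_comp e fun y => f' y (F (z * (b y * M))), ← Finset.sum_add_distrib]
  refine Finset.sum_congr rfl fun x _ => ?_
  rw [hab, mul_assoc, mul_assoc, hF, map_add, ← hfg, LinearMap.comp_apply, add_comm]

namespace Data

variable {ι₁ ι₂ ι ι₃ ι₄ : Type*} [Fintype ι₁] [Fintype ι₂] [Fintype ι] [Fintype ι₃] [Fintype ι₄]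

lemma act_act (D₁ : Data i₁ i₂ ρ₁ ρ₂ K₁ K₂ ι₁) (D₂ : Data i₂ i₃ ρ₂ ρ₃ K₂ K₃ ι₂) (F : G → A) :
    D₂.act (D₁.act F)
      = fun M => ∑ p : ι₁ × ι₂, (D₂.ε p.2 ∘ₗ D₁.ε p.1) (F (D₁.α p.1 * D₂.α p.2 * M)) := by
  funext M
  simp only [Data.act, map_sum, Fintype.sum_prod_type, LinearMap.comp_apply, mul_assoc]
  exact Finset.sum_comm

variable (hi₁ : Function.Injective i₁) (hi₂ : Function.Injective i₂)

include hi₁ hi₂

/-- A composite of two operators equal to a third one. -/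
theorem comp_eq (D₁ : Data i₁ i₂ ρ₁ ρ₂ K₁ K₂ ι₁) (D₂ : Data i₂ i₃ ρ₂ ρ₃ K₂ K₃ ι₂)
    (D : Data i₁ i₃ ρ₁ ρ₃ K₁ K₃ ι) {z : G} (hz : ∀ M, Commute z M) (e : ι₁ × ι₂ ≃ ι)
    (g : ι₁ × ι₂ → Γ₁) (hα : ∀ p, D₁.α p.1 * D₂.α p.2 = i₁ (g p) * (z * D.α (e p)))
    (hε : ∀ p, D₂.ε p.2 ∘ₗ D₁.ε p.1 ∘ₗ ρ₁ (g p) = D.ε (e p)) (u : H1 ρ₁ K₁) :
    D₂.onH1 hi₂ (D₁.onH1 hi₁ u) = D.onH1 hi₁ u := by
  obtain ⟨c, rfl⟩ := cls_surjective ρ₁ K₁ u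
  rw [onH1_cls, onH1_cls, onH1_cls]
  obtain ⟨F, hF⟩ := exists_isEquivariant i₁ hi₁ c
  have h1 := D₂.isEquivariant_act hi₂ (D₁.isEquivariant_act hi₁ hF)
  rw [act_act] at h1
  exact cls_eq_of_sum hF (fun p : ι₁ × ι₂ => D₂.ε p.2 ∘ₗ D₁.ε p.1)
    (fun p => D₁.α p.1 * D₂.α p.2) D.ε D.α z (d := D₂.onCocycles hi₂ (D₁.onCocycles hi₁ c)) h1
    (D.isEquivariant_act hi₁ (hF.translate hz)) e g hα fun p => by
      rw [LinearMap.comp_assoc]; exact hε p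

/-- Two composites of two operators that are equal. -/
theorem comp_eq_comp {B' : Type*} [AddCommGroup B'] [Module O B']
    {ρ₂' : Representation O Γ₂' B'} {K₂' : Set Γ₂'} (hi₂' : Function.Injective i₂')
    (D₁ : Data i₁ i₂ ρ₁ ρ₂ K₁ K₂ ι₁) (D₂ : Data i₂ i₃ ρ₂ ρ₃ K₂ K₃ ι₂)
    (D₃ : Data i₁ i₂' ρ₁ ρ₂' K₁ K₂' ι₃) (D₄ : Data i₂' i₃ ρ₂' ρ₃ K₂' K₃ ι₄)
    (e : ι₁ × ι₂ ≃ ι₃ × ι₄) (g : ι₁ × ι₂ → Γ₁)
    (hα : ∀ p, D₁.α p.1 * D₂.α p.2 = i₁ (g p) * (D₃.α (e p).1 * D₄.α (e p).2))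
    (hε : ∀ p, D₂.ε p.2 ∘ₗ D₁.ε p.1 ∘ₗ ρ₁ (g p) = D₄.ε (e p).2 ∘ₗ D₃.ε (e p).1) (u : H1 ρ₁ K₁) :
    D₂.onH1 hi₂ (D₁.onH1 hi₁ u) = D₄.onH1 hi₂' (D₃.onH1 hi₁ u) := by
  obtain ⟨c, rfl⟩ := cls_surjective ρ₁ K₁ u
  simp only [onH1_cls]
  obtain ⟨F, hF⟩ := exists_isEquivariant i₁ hi₁ c
  have h1 := D₂.isEquivariant_act hi₂ (D₁.isEquivariant_act hi₁ hF)
  have h2 := D₄.isEquivariant_act hi₂' (D₃.isEquivariant_act hi₁
    (hF.translate fun M => Commute.one_left M))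
  rw [act_act] at h1 h2
  exact cls_eq_of_sum hF (fun p : ι₁ × ι₂ => D₂.ε p.2 ∘ₗ D₁.ε p.1)
    (fun p => D₁.α p.1 * D₂.α p.2) (fun p : ι₃ × ι₄ => D₄.ε p.2 ∘ₗ D₃.ε p.1)
    (fun p => D₃.α p.1 * D₄.α p.2) 1 (d := D₂.onCocycles hi₂ (D₁.onCocycles hi₁ c))
    (d' := D₄.onCocycles hi₂' (D₃.onCocycles hi₁ c)) h1 h2 e g
    (fun p => by rw [one_mul]; exact hα p) fun p => by rw [LinearMap.comp_assoc]; exact hε p

omit hi₁ hi₂ in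
/-- A composite of two operators equal to the number of its terms. -/
theorem comp_eq_card_smul (hi₁ : Function.Injective i₁) (hi₂ : Function.Injective i₂)
    {ρ₂ : Representation O Γ₂ B} (D₁ : Data i₁ i₂ ρ₁ ρ₂ K₁ K₂ ι₁)
    (D₂ : Data i₂ i₁ ρ₂ ρ₁ K₂ K₁ ι₂) {z : G} (hz : ∀ M, Commute z M)
    (g : ι₁ × ι₂ → Γ₁) (hα : ∀ p, D₁.α p.1 * D₂.α p.2 = i₁ (g p) * z)
    (hε : ∀ p, D₂.ε p.2 ∘ₗ D₁.ε p.1 ∘ₗ ρ₁ (g p) = LinearMap.id) (u : H1 ρ₁ K₁) :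
    D₂.onH1 hi₂ (D₁.onH1 hi₁ u) = (Fintype.card (ι₁ × ι₂) : O) • u := by
  obtain ⟨c, rfl⟩ := cls_surjective ρ₁ K₁ u
  simp only [onH1_cls, ← map_smul]
  obtain ⟨F, hF⟩ := exists_isEquivariant i₁ hi₁ c
  have h1 := D₂.isEquivariant_act hi₂ (D₁.isEquivariant_act hi₁ hF)
  rw [act_act] at h1
  have h2 := (hF.translate hz).smul (Fintype.card (ι₁ × ι₂) : O)
  have e2 : ((Fintype.card (ι₁ × ι₂) : O) • fun M => F (z * M))
      = fun M => ∑ _p : ι₁ × ι₂, (LinearMap.id : A →ₗ[O] A) (F (z * (1 * M))) := by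
    funext M
    simp [Finset.sum_const, Finset.card_univ, ← Nat.cast_smul_eq_nsmul O]
  rw [e2] at h2
  exact cls_eq_of_sum hF (fun p : ι₁ × ι₂ => D₂.ε p.2 ∘ₗ D₁.ε p.1)
    (fun p => D₁.α p.1 * D₂.α p.2) (fun _ => LinearMap.id) (fun _ => 1) z
    (d := D₂.onCocycles hi₂ (D₁.onCocycles hi₁ c)) (d' := (Fintype.card (ι₁ × ι₂) : O) • c)
    h1 h2 (Equiv.refl _) g (fun p => by rw [mul_one]; exact hα p)
    fun p => by rw [LinearMap.comp_assoc]; exact hε p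

end Data

end Fermat.Agent.HeckeModule
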