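import Fermat.Agent.HeckeModule.Trace

/-!
Transfers `H¹(Γ₀(qN), ρ) → H¹(Γ₀(N), ρ)` for a representation `ρ` of `(ℤ/N)ˣ`.
-/

set_option autoImplicit false

open CongruenceSubgroup Matrix.SpecialLinearGroup
open scoped MatrixGroups OnePoint

universe uO uA uB

namespace Fermat.Agent.HeckeModule

open HeckeJ0 LevelRaising

variable {O : Type uO} [CommRing O] {A : Type uA} [AddCommGroup A] [Module O A]
  {B : Type uB} [AddCommGroup B] [Module O B]

section MatData

variable {M M' : ℕ} {X : Set Mat} {ι : Type*} {β : ι → Mat}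

/-- Double coset data of a left factorisation, with arbitrary coefficients. -/
noncomputable def matData (hβ : IsFact X (Lvl M) β) (hX : ∀ x ∈ X, ∀ γ ∈ Lvl M', x * γ ∈ X)
    (ρ : Representation O (ZMod M)ˣ A) (σ : Representation O (ZMod M')ˣ B) (ε : ι → A →ₗ[O] B)
    (hε : ∀ (x y : ι) (γ : Gamma0 M') (g : Gamma0 M),
      β x * ((γ : SL(2, ℤ)) : Mat) = ((g : SL(2, ℤ)) : Mat) * β y →
        ε x ∘ₗ ρ (dUnit M g) = σ (dUnit M' γ) ∘ₗ ε y) :
    Data (toGL M) (toGL M') (gammaRep ρ) (gammaRep σ) {negOne M} {negOne M'} ι where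
  α i := matGL (β i) (hβ.det_ne_zero i)
  ε := ε
  exists_mul := (factData O hβ hX).exists_mul
  unique := (factData O hβ hX).unique
  compat x y γ g h := hε x y γ g ((matGL_mul_toGL_iff _ _ _ _).mp h)
  triv := (factData O hβ hX).triv

end MatData

variable {N q : ℕ}

/-- Comparison of lower right entries from upper left entries. -/
lemma dUnit_eq_of_mul_eq {M : ℕ} (hM : N ∣ M) {S T : Mat} (hS : (S 0 0 : ZMod N) = 1)
    (hT : (T 0 0 : ZMod N) = 1) (hT0 : (T 1 0 : ZMod N) = 0) {γ : Gamma0 N} {g : Gamma0 M}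
    (h : S * ((γ : SL(2, ℤ)) : Mat) = ((g : SL(2, ℤ)) : Mat) * T) :
    ZMod.unitsMap hM (dUnit M g) = dUnit N γ := by
  have e := congrArg (Int.cast : ℤ → ZMod N) (congrFun (congrFun h 0) 0)
  simp only [Matrix.mul_apply, Fin.sum_univ_two] at e
  push_cast at e
  rw [hS, hT, hT0, Gamma0_mem.mp γ.2, mul_zero, mul_zero, add_zero, add_zero, one_mul,
    mul_one] at e
  have hg := congrArg (ZMod.castHom hM (ZMod N)) (gamma0_diag g)
  rw [map_mul, map_one, map_intCast] at hg
  refine Units.ext ?_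
  rw [ZMod.unitsMap_def, Units.coe_map, MonoidHom.coe_coe]
  linear_combination (-(ZMod.castHom hM (ZMod N) ((dUnit M g : (ZMod M)ˣ) : ZMod M))) *
      gamma0_diag γ + ((dUnit N γ : (ZMod N)ˣ) : ZMod N) * hg +
    (ZMod.castHom hM (ZMod N) ((dUnit M g : (ZMod M)ˣ) : ZMod M)) *
      ((dUnit N γ : (ZMod N)ˣ) : ZMod N) * e

section Traces

variable [hq : Fact q.Prime]

lemma degenReps_apply_zero (hqN : ¬ q ∣ N) (i : Option (Fin q)) :
    (degenReps N q i 0 0 : ZMod N) = 1 ∧ (degenReps N q i 1 0 : ZMod N) = 0 := by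
  cases i with
  | none =>
    have h := congrArg (Int.cast : ℤ → ZMod N) (al_spec hq.out hqN)
    push_cast at h
    rw [ZMod.natCast_self, zero_mul, sub_zero] at h
    simp [degenReps, h]
  | some j => simp [degenReps]

omit hq in
lemma traceMat_apply_zero (i : Option (Fin q)) :
    (traceMat N q i 0 0 : ZMod N) = 1 ∧ (traceMat N q i 1 0 : ZMod N) = 0 := by
  cases i <;> simp [traceMat]

variable (ρ : Representation O (ZMod N)ˣ A) (hqN : ¬ q ∣ N)

/-- The data of the trace. -/
noncomputable def traceData : Data (toGL (q * N)) (toGL N)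
    (gammaRep (pullRep ρ (dvd_mul_left N q))) (gammaRep ρ) {negOne (q * N)} {negOne N}
    (Option (Fin q)) :=
  matData (fact_traceMat' hqN) (fun _ hx _ hγ => lvl_mul hx hγ) _ ρ (fun _ => LinearMap.id)
    fun x y γ g h => by
      rw [LinearMap.id_comp, LinearMap.comp_id, pullRep_apply, dUnit_eq_of_mul_eq
        (dvd_mul_left N q) (traceMat_apply_zero x).1 (traceMat_apply_zero y).1
        (traceMat_apply_zero y).2 h]

/-- The data of the twisted trace. -/
noncomputable def traceTwistData : Data (toGL (q * N)) (toGL N)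
    (gammaRep (pullRep ρ (dvd_mul_left N q))) (gammaRep ρ) {negOne (q * N)} {negOne N}
    (Option (Fin q)) :=
  matData (fact_degenReps hqN) degenSet_mul_mem _ ρ (fun _ => LinearMap.id)
    fun x y γ g h => by
      rw [LinearMap.id_comp, LinearMap.comp_id, pullRep_apply, dUnit_eq_of_mul_eq
        (dvd_mul_left N q) (degenReps_apply_zero hqN x).1 (degenReps_apply_zero hqN y).1
        (degenReps_apply_zero hqN y).2 h]

/-- The trace `H¹(Γ₀(qN), ρ) → H¹(Γ₀(N), ρ)`. -/
noncomputable def trace : Coh1 (pullRep ρ (dvd_mul_left N q)) →ₗ[O] Coh1 ρ :=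
  (traceData ρ hqN).onH1 toGL_injective

/-- The trace adjoint to the degeneracy map of `z ↦ q z`. -/
noncomputable def traceTwist : Coh1 (pullRep ρ (dvd_mul_left N q)) →ₗ[O] Coh1 ρ :=
  (traceTwistData ρ hqN).onH1 toGL_injective

/-- `diag(1,q) Δ₀(N, r)` has the representatives `degenReps` over `Δ₀(qN, r)`. -/
theorem fact_degenReps_det (hqN : ¬ q ∣ N) {r : ℤ} (hr : ¬ (q : ℤ) ∣ r) :
    IsFact ((mm 1 0 0 (q : ℤ) * ·) '' DetLevel N r) (DetLevel (q * N) r) (degenReps N q) where
  det_ne_zero i := by rw [det_degenReps hqN]; exact_mod_cast hq.out.ne_zero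
  mem y hy i := by
    obtain ⟨hd, C, hC⟩ := hy
    push_cast at hC
    rw [Matrix.det_fin_two, hC] at hd
    have hy' : mm (y 0 0) ((q : ℤ) * y 0 1) ((N : ℤ) * C) (y 1 1) ∈ DetLevel N r :=
      mm_mem_detLevel.mpr ⟨by linear_combination hd, Dvd.intro _ rfl⟩
    cases i with
    | none =>
      have hm : mm ((q : ℤ) * alD N q) (alB N q) N 1 ∈ Lvl N :=
        mm_mem_detLevel.mpr ⟨by linear_combination al_spec hq.out hqN, dvd_rfl⟩
      refine ⟨_, mul_one r ▸ detLevel_mul hy' hm, ?_⟩
      conv_rhs => rw [mm_eta y, hC]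
      simp only [degenReps, mm_mul, mm_inj]
      refine ⟨?_, ?_, ?_, ?_⟩ <;> ring
    | some j =>
      have hm : mm 1 (j : ℕ) 0 1 ∈ Lvl N := mm_mem_detLevel.mpr ⟨by ring, dvd_zero _⟩
      refine ⟨_, mul_one r ▸ detLevel_mul hy' hm, ?_⟩
      conv_rhs => rw [mm_eta y, hC]
      simp only [degenReps, mm_mul, mm_inj]
      refine ⟨?_, ?_, ?_, ?_⟩ <;> ring
  fact := by
    rintro _ ⟨z, hz, rfl⟩
    obtain ⟨hd, C, hC⟩ := hz
    rw [Matrix.det_fin_two, hC] at hd
    by_cases ha : (q : ℤ) ∣ z 0 0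
    · obtain ⟨u, hu⟩ := ha
      refine ⟨none, mm (z 0 0 - z 0 1 * N) (z 0 1 * alD N q - u * alB N q)
        ((q : ℤ) * N * (C - z 1 1)) ((q : ℤ) * alD N q * z 1 1 - N * C * alB N q),
        mm_mem_detLevel.mpr ⟨?_, by push_cast; exact Dvd.intro _ rfl⟩, ?_⟩
      · linear_combination ((q : ℤ) * alD N q - N * alB N q) * hd + r * al_spec hq.out hqN
          - (C * N * alB N q - (N : ℤ) * z 1 1 * alB N q) * hu
      · conv_lhs => rw [mm_eta z, hC]
        simp only [degenReps, mm_mul, mm_inj]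
        refine ⟨?_, ?_, ?_, ?_⟩
        · linear_combination (-(z 0 0 : ℤ)) * al_spec hq.out hqN - (alB N q) * (N : ℤ) * hu
        · linear_combination (-(z 0 1 : ℤ)) * al_spec hq.out hqN - (alB N q) * hu
        · linear_combination (-((q : ℤ) * N * C)) * al_spec hq.out hqN
        · linear_combination (-((q : ℤ) * z 1 1)) * al_spec hq.out hqN
    · obtain ⟨j, hj⟩ := exists_fin_dvd hq.out ha (z 0 1)
      obtain ⟨u, hu⟩ := hj
      refine ⟨some j, mm (z 0 0) u ((q : ℤ) * N * C) (z 1 1 - N * C * (j : ℕ)),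
        mm_mem_detLevel.mpr ⟨?_, by push_cast; exact Dvd.intro _ rfl⟩, ?_⟩
      · linear_combination hd + (N : ℤ) * C * hu
      · conv_lhs => rw [mm_eta z, hC]
        simp only [degenReps, mm_mul, mm_inj]
        refine ⟨by ring, ?_, by ring, by ring⟩
        linear_combination hu
  unique := by
    intro i j y y' hy hy' e
    have hw : y'.adjugate * y ∈ DetLevel (q * N) (r * r) :=
      detLevel_mul (adjugate_mem_detLevel hy') hy
    have e' : y'.adjugate * y * degenReps N q i = r • degenReps N q j := by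
      rw [mul_assoc, e, ← mul_assoc, Matrix.adjugate_mul, hy'.1, Matrix.smul_mul, one_mul]
    generalize y'.adjugate * y = w at hw e'
    obtain ⟨hd, C, hC⟩ := hw
    push_cast at hC
    rw [Matrix.det_fin_two, hC] at hd
    rw [mm_eta w, hC] at e'
    have hps := Nat.prime_iff_prime_int.mp hq.out
    rcases i with _ | i <;> rcases j with _ | j <;>
      simp only [degenReps, mm_mul, smul_mm, mm_inj] at e' <;> obtain ⟨e1, e2, e3, e4⟩ := e'
    · rfl
    · refine absurd ⟨w 0 0 * alD N q + w 0 1 * N, ?_⟩ hr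
      linear_combination -e1
    · refine absurd ((hps.dvd_or_dvd (a := r) (b := r)
        ⟨r * alD N q * w 1 1 - w 0 1 * N * C, ?_⟩).elim id id) hr
      linear_combination -hd + w 1 1 * e1
    · refine congrArg some (fin_eq_of_dvd ?_)
      have hw0 : w 0 0 = r := by linear_combination e1
      rw [hw0] at e2
      refine (hps.dvd_or_dvd (a := r) ⟨-w 0 1, ?_⟩).resolve_left hr
      linear_combination e2

end Traces

end Fermat.Agent.HeckeModule
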