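import Fermat.Agent.HeckeModule.Away
import Fermat.Agent.HeckeModule.Localize

/-!
Maps between localised cohomology groups of different levels.
-/

set_option autoImplicit false

universe uO uA uB uC

namespace Fermat.Agent.HeckeModule

variable {O : Type uO} [CommRing O] {N N' N'' : ℕ}
  {A : Type uA} [AddCommGroup A] [Module O A] {B : Type uB} [AddCommGroup B] [Module O B]
  {C : Type uC} [AddCommGroup C] [Module O C]
  {ρ : Representation O (ZMod N)ˣ A} {ρ' : Representation O (ZMod N')ˣ B}
  {ρ'' : Representation O (ZMod N'')ˣ C}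

/-- A map commuting with the operators at primes outside `S` commutes with polynomials in them. -/
theorem map_awayIncl_smul {S : Set ℕ} (f : Coh1 ρ →ₗ[O] Coh1 ρ')
    (hf : ∀ (ℓ : ℕ) [Fact ℓ.Prime], ℓ ∉ S → ∀ u, f (heckeOp ρ ℓ u) = heckeOp ρ' ℓ (f u))
    (a : AwayPoly O S) (u : Coh1 ρ) :
    f (awayIncl O S a • u) = awayIncl O S a • f u := by
  induction a using MvPolynomial.induction_on generalizing u with
  | C r =>
    rw [← MvPolynomial.algebraMap_eq, AlgHom.commutes, algebraMap_smul, algebraMap_smul, map_smul]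
  | add P Q hP hQ => rw [map_add, add_smul, add_smul, map_add, hP, hQ]
  | mul_X P l hP =>
    have : Fact (l.1 : ℕ).Prime := ⟨l.1.2⟩
    rw [map_mul, awayIncl_X, mul_smul, mul_smul, hP]
    congr 1
    exact (congrArg f (X_smul ρ (l.1 : ℕ) u)).trans
      ((hf _ l.2 u).trans (X_smul ρ' (l.1 : ℕ) _).symm)

/-- `P` consists of polynomials in the operators at primes outside `S`. -/
def IsAway (S : Set ℕ) (P : Submonoid (HeckePoly O)) : Prop :=
  ∀ s ∈ P, ∃ a : AwayPoly O S, awayIncl O S a = s

lemma isAway_awayMonoid {S : Set ℕ} (m : Ideal (AwayPoly O S)) [m.IsPrime] :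
    IsAway S (awayMonoid m) := fun _ hs => by
  obtain ⟨a, -, ha⟩ := hs
  exact ⟨a, ha⟩

lemma IsAway.commute {S : Set ℕ} {P : Submonoid (HeckePoly O)} (hP : IsAway S P)
    (f : Coh1 ρ →ₗ[O] Coh1 ρ')
    (hf : ∀ (ℓ : ℕ) [Fact ℓ.Prime], ℓ ∉ S → ∀ u, f (heckeOp ρ ℓ u) = heckeOp ρ' ℓ (f u))
    (s : HeckePoly O) (hs : s ∈ P) (u : Coh1 ρ) : f (s • u) = s • f u := by
  obtain ⟨a, rfl⟩ := hP s hs
  exact map_awayIncl_smul f hf a u

variable (P : Submonoid (HeckePoly O))

/-- The map of localisations induced by a map commuting with `P`. -/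
noncomputable def locLift (f : Coh1 ρ →ₗ[O] Coh1 ρ')
    (hf : ∀ s ∈ P, ∀ u, f (s • u) = s • f u) : CohLoc P ρ →ₗ[O] CohLoc P ρ' where
  toFun x := LocalizedModule.liftOn x (fun p => LocalizedModule.mk (f p.1) p.2)
    fun p p' h => by
      obtain ⟨u, hu⟩ := h
      refine LocalizedModule.mk_eq.mpr ⟨u, ?_⟩
      simp only [Submonoid.smul_def] at hu ⊢
      rw [← hf _ p'.2.2, ← hf _ p.2.2, ← hf _ u.2, ← hf _ u.2, hu]
  map_add' x y := by
    induction x using LocalizedModule.induction_on with
    | _ a s =>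
      induction y using LocalizedModule.induction_on with
      | _ b t =>
        rw [LocalizedModule.mk_add_mk, LocalizedModule.liftOn_mk, LocalizedModule.liftOn_mk,
          LocalizedModule.liftOn_mk, LocalizedModule.mk_add_mk, map_add]
        simp only [Submonoid.smul_def]
        rw [hf _ t.2, hf _ s.2]
  map_smul' r x := by
    induction x using LocalizedModule.induction_on with
    | _ a s =>
      rw [LocalizedModule.smul'_mk, LocalizedModule.liftOn_mk, RingHom.id_apply,
        LocalizedModule.liftOn_mk, LocalizedModule.smul'_mk, map_smul]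

variable {P}

lemma locLift_mk (f : Coh1 ρ →ₗ[O] Coh1 ρ') (hf : ∀ s ∈ P, ∀ u, f (s • u) = s • f u)
    (u : Coh1 ρ) (s : P) :
    locLift P f hf (LocalizedModule.mk u s) = LocalizedModule.mk (f u) s :=
  by simp only [locLift, LinearMap.coe_mk, AddHom.coe_mk, LocalizedModule.liftOn_mk]

/-- Whatever commutes with `f` commutes with its localisation. -/
lemma locLift_smul (f : Coh1 ρ →ₗ[O] Coh1 ρ') (hf : ∀ s ∈ P, ∀ u, f (s • u) = s • f u)
    (a : HeckePoly O) (ha : ∀ u, f (a • u) = a • f u) (x : CohLoc P ρ) :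
    locLift P f hf (a • x) = a • locLift P f hf x := by
  induction x using LocalizedModule.induction_on with
  | _ u s =>
    rw [LocalizedModule.smul'_mk, locLift_mk, locLift_mk, ha, LocalizedModule.smul'_mk]

lemma locLift_locLift_eq_smul (f : Coh1 ρ →ₗ[O] Coh1 ρ') (hf : ∀ s ∈ P, ∀ u, f (s • u) = s • f u)
    (g : Coh1 ρ' →ₗ[O] Coh1 ρ) (hg : ∀ s ∈ P, ∀ u, g (s • u) = s • g u) (a : HeckePoly O)
    (h : ∀ u, g (f u) = a • u) (x : CohLoc P ρ) :
    locLift P g hg (locLift P f hf x) = a • x := by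
  induction x using LocalizedModule.induction_on with
  | _ u s => rw [locLift_mk, locLift_mk, h, LocalizedModule.smul'_mk]

end Fermat.Agent.HeckeModule
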