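import Fermat.Agent.HeckeModule.Trace

/-!
Dual form of Ihara's lemma: the two traces `H¹(Γ₀(qN)) → H¹(Γ₀(N))²` are jointly surjective away
from Eisenstein primes.
-/

set_option autoImplicit false

open CongruenceSubgroup Matrix.SpecialLinearGroup
open scoped MatrixGroups OnePoint

universe uO

namespace Fermat.Agent.HeckeModule

open HeckeJ0 LevelRaising

variable {N : ℕ} {ℓ : ℕ} [hℓ : Fact ℓ.Prime]

/-- The indices of `T_ℓ` as `Option (Fin ℓ)`. -/
noncomputable def idxEquiv (hℓN : ¬ ℓ ∣ N) : Option (Fin ℓ) ≃ Idx N ℓ :=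
  haveI : NeZero ℓ := ⟨hℓ.out.ne_zero⟩
  (Equiv.optionCongr (α := Fin ℓ) (β := ZMod ℓ)
    { toFun := fun i => ((i : ℕ) : ZMod ℓ)
      invFun := fun z => ⟨z.val, ZMod.val_lt z⟩
      left_inv := fun i => Fin.ext (ZMod.val_cast_of_lt i.2)
      right_inv := fun z => ZMod.natCast_zmod_val z }).trans
    (Equiv.subtypeUnivEquiv fun _ hN' => absurd hN' hℓN).symm

lemma rep_idxEquiv (hℓN : ¬ ℓ ∣ N) (i : Option (Fin ℓ)) :
    ((rep (idxEquiv (N := N) hℓN i) : GL (Fin 2) ℝ) : Matrix (Fin 2) (Fin 2) ℝ)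
      = (heckMat ℓ i).map (Int.cast : ℤ → ℝ) := by
  have : NeZero ℓ := ⟨hℓ.out.ne_zero⟩
  rcases i with _ | i
  · obtain ⟨j, hj, -⟩ | ⟨-, -, hx⟩ := rep_cases (idxEquiv (N := N) hℓN none)
    · exact absurd hj.symm (OnePoint.coe_ne_infty j)
    unfold IsTri at hx
    rw [hx]
    ext a b
    fin_cases a <;> fin_cases b <;> simp [heckMat]
  · obtain ⟨j, hj, hx⟩ | ⟨hj, -, -⟩ := rep_cases (idxEquiv (N := N) hℓN (some i))
    swap
    · exact absurd hj (OnePoint.coe_ne_infty _)
    have hval : j.val = (i : ℕ) := by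
      have h : ((i : ℕ) : ZMod ℓ) = j := OnePoint.coe_injective hj
      rw [← h, ZMod.val_cast_of_lt i.2]
    unfold IsTri at hx
    rw [hx, hval]
    ext a b
    fin_cases a <;> fin_cases b <;> simp [heckMat]

variable (O : Type uO) [CommRing O]

lemma exists_heckMat_mul (hℓN : ¬ ℓ ∣ N) (γ : Gamma0 N) (i : Option (Fin ℓ)) :
    heckMat ℓ i * ((γ : SL(2, ℤ)) : Mat) =
      (((haveI : NeZero ℓ := ⟨hℓ.out.ne_zero⟩
        (heckeData (trivRep N O O) ℓ).tr (idxEquiv hℓN i) γ : Gamma0 N) : SL(2, ℤ)) : Mat) *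
        heckMat ℓ ((idxEquiv hℓN).symm
          (haveI : NeZero ℓ := ⟨hℓ.out.ne_zero⟩
          (heckeData (trivRep N O O) ℓ).perm γ (idxEquiv hℓN i))) := by
  have : NeZero ℓ := ⟨hℓ.out.ne_zero⟩
  set D := heckeData (trivRep N O O) ℓ
  obtain ⟨k, hk⟩ := (idxEquiv (N := N) hℓN).surjective (D.perm γ (idxEquiv hℓN i))
  have h := congrArg Units.val (D.mul_spec (idxEquiv hℓN i) γ)
  rw [← hk] at h ⊢
  rw [Equiv.symm_apply_apply]
  refine map_cast_injective ?_
  show (_ * _ : Mat).map (Int.cast : ℤ → ℝ) = (_ * _ : Mat).map _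
  rw [Matrix.map_mul_intCast, Matrix.map_mul_intCast, ← rep_idxEquiv hℓN, ← rep_idxEquiv hℓN,
    ← val_toGL, ← val_toGL]
  exact h

variable [NeZero N]

/-- Hecke operators on intersection classes. -/
theorem heckeOp_interClass (hℓN : ¬ ℓ ∣ N) (v : Vec) :
    heckeOp _ ℓ (interClass (N := N) O v) =
      ∑ i : Option (Fin ℓ), (interClass O (act (heckMat ℓ i) v)
        - interClass O (act (heckMat ℓ i) vE)) := by
  have : NeZero ℓ := ⟨hℓ.out.ne_zero⟩
  simp only [interClass]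
  rw [heckeOp_toCoh]
  simp only [← map_sub]
  rw [← map_sum]
  refine congrArg _ (Subtype.ext (funext fun γ => ?_))
  set D := heckeData (trivRep N O O) ℓ
  show (∑ x : Idx N ℓ, (quarterInter N ((D.tr x γ : SL(2, ℤ)) : Mat) v : O)) = _
  simp only [Submodule.coe_sum, Finset.sum_apply, AddSubgroupClass.coe_sub, Pi.sub_apply,
    interCocycle_apply, ← Int.cast_sub, ← Int.cast_sum]
  congr 1
  refine mul_left_cancel₀ (show (4 : ℤ) ≠ 0 by norm_num) ?_
  simp only [Finset.mul_sum, mul_sub, four_mul_quarterInter (coe_mem_lvl _)]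
  by_cases hv : v = 0
  · subst hv
    simp only [(isSym_inter (coe_mem_lvl _)).zero, Finset.sum_const_zero]
    refine (Finset.sum_eq_zero fun i _ => ?_).symm
    have h0 : act (heckMat ℓ i) 0 = 0 := by simp [act]
    have h1 : ∀ M : Option (Fin ℓ), inter N ((γ : SL(2, ℤ)) : Mat) (act (heckMat ℓ M) vE) = 0 := by
      intro M
      cases M with
      | none =>
        rw [show act (heckMat ℓ none) vE = (ℓ : ℤ) • vE by simp [heckMat, vE],
          (isSym_inter (coe_mem_lvl _)).homog _ (by exact_mod_cast hℓ.out.ne_zero)]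
        exact (isSym_inter (coe_mem_lvl _)).apply_vE
      | some M =>
        rw [show act (heckMat ℓ (some M)) vE = vE by simp [heckMat, vE]]
        exact (isSym_inter (coe_mem_lvl _)).apply_vE
    rw [h0, (isSym_inter (coe_mem_lvl _)).zero, h1, sub_self]
  have hpos : ∀ i, 0 < (heckMat ℓ i).det := fun i => by
    rw [det_heckMat]; exact_mod_cast hℓ.out.pos
  have hℓ0 : (ℓ : ℤ) ≠ 0 := by exact_mod_cast hℓ.out.ne_zero
  have hγ := coe_mem_lvl γ
  have hfin : (DetLevel N ℓ ∩ Function.support (sepTerm 1 ((γ : SL(2, ℤ)) : Mat).adjugate vE v)).Finite :=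
    finite_support_sepTerm (by simp) (det_adjugate_pos hγ) vE v hℓ0 (fun x hx => hx.1)
  rw [← (idxEquiv (N := N) hℓN).sum_comp,
    sum_inter_of_fact (fact_heckMat_one hℓ.out hℓN) hpos hℓ0 (fun x hx => hx.1) hγ
      ((idxEquiv hℓN).trans ((D.permEquiv toGL_injective γ).trans (idxEquiv hℓN).symm))
      (fun i => coe_mem_lvl _) (fun i => exists_heckMat_mul O hℓN γ i) v,
    finsum_adjugate N (ℓ : ℤ) fun x => sepTerm 1 ((γ : SL(2, ℤ)) : Mat).adjugate vE v x,
    finsum_fact (fact_heckMat_one hℓ.out hℓN) _ hfin]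
  refine Finset.sum_congr rfl fun i _ => ?_
  rw [← inter_pair hγ (act_ne_zero (hpos i).ne' vE_ne_zero) (act_ne_zero (hpos i).ne' hv), crossing]
  exact finsum_mem_congr rfl fun z _ => by simp only [sepTerm, act_mul]

omit [NeZero N] in
/-- A symbol constant along congruent primitive vectors. -/
theorem apply_eq_of_congr {A : Type*} [AddCommGroup A] {G : Vec → A} (hG : IsSym N G)
    (hinv : ∀ δ ∈ Lvl N, G (act δ vE) = 0) {v w : Vec} (hv : IsCoprime v.1 v.2)
    (hw : IsCoprime w.1 w.2) (h1 : (N : ℤ) ∣ w.1 - v.1) (h2 : (N : ℤ) ∣ w.2 - v.2) :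
    G w = G v := by
  obtain ⟨d, b, hdb⟩ := hv
  obtain ⟨d', b', hdb'⟩ := hw
  -- `(a, -b; c, d)` and `(a', -b'; c', d')`
  obtain ⟨u1, hu1⟩ := h1
  obtain ⟨u2, hu2⟩ := h2
  set a := v.1
  set c := v.2
  set a' := w.1
  set c' := w.2
  set t := d * (-b - -b') - -b * (d - d')
  let δ : Mat := mm a' (a' * t + -b') c' (c' * t + d') * mm d b (-c) a
  have hδdet : δ.det = 1 := by
    simp only [δ, Matrix.det_mul, mm_det]
    linear_combination (d' * a' + b' * c') * hdb + hdb'
  have hδv : act δ v = w := by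
    simp only [δ, mm_mul, act_mm]
    refine Prod.ext ?_ ?_
    · show _ = a'
      linear_combination a' * hdb
    · show _ = c'
      linear_combination c' * hdb
  have hδN : δ ∈ Lvl N := by
    refine ⟨hδdet, ?_⟩
    simp only [δ, mm_mul, mm_one_zero]
    -- modulo `N` one has `a' = a` and `c' = c`
    refine ⟨u2 * (d - t * c) + c * d * (d' * u1 + b' * u2), ?_⟩
    linear_combination (d - t * c + c * d * b') * hu2 + (c * d') * hdb - (c * d) * hdb' +
      (c * d * d') * hu1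
  have hv0 : v ≠ 0 := by
    intro h0
    have ha : a = 0 := congrArg Prod.fst h0
    have hc : c = 0 := congrArg Prod.snd h0
    rw [ha, hc] at hdb
    simp at hdb
  rw [← hδv, hG.equiv δ hδN v hv0, hinv δ hδN, zero_add]

omit [NeZero N] in
/-- Hecke matrices at `r ≡ 1 (mod N)` fix all cusps of a constant symbol. -/
theorem apply_heckMat_eq {A : Type*} [AddCommGroup A] {G : Vec → A} (hG : IsSym N G)
    (hinv : ∀ δ ∈ Lvl N, G (act δ vE) = 0) {r : ℕ} (hr : r.Prime) (hr1 : (r : ZMod N) = 1)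
    (i : Option (Fin r)) {v : Vec} (hv : IsCoprime v.1 v.2) : G (act (heckMat r i) v) = G v := by
  have hr0 : (r : ℤ) ≠ 0 := by exact_mod_cast hr.ne_zero
  have hrN : (N : ℤ) ∣ (r : ℤ) - 1 := by
    rw [← ZMod.intCast_zmod_eq_zero_iff_dvd]; push_cast; rw [hr1, sub_self]
  have hps := Nat.prime_iff_prime_int.mp hr
  obtain ⟨a, c⟩ := v
  rcases i with _ | i
  · simp only [heckMat, act_mm, zero_mul, one_mul, add_zero, zero_add]
    by_cases hc : (r : ℤ) ∣ c
    · obtain ⟨c₁, rfl⟩ := hc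
      rw [show ((r : ℤ) * a, (r : ℤ) * c₁) = (r : ℤ) • (a, c₁) by simp, hG.homog _ hr0]
      refine apply_eq_of_congr hG hinv hv hv.of_mul_right_right ?_ ?_
      · simp
      · show (N : ℤ) ∣ c₁ - r * c₁
        rw [show c₁ - r * c₁ = ((r : ℤ) - 1) * -c₁ by ring]; exact hrN.mul_right _
    · refine apply_eq_of_congr hG hinv hv
        (IsCoprime.mul_left (hps.coprime_iff_not_dvd.mpr hc) hv) ?_ (by simp)
      show (N : ℤ) ∣ r * a - a
      rw [show (r : ℤ) * a - a = ((r : ℤ) - 1) * a by ring]; exact hrN.mul_right _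
  · set j : ℤ := ((i : ℕ) : ℤ)
    have hu : G (a + j * c, c) = G (a, c) := by
      have h := hG.equiv (uU j) (uU_mem N j) (a, c) (by
        intro h0
        simp only [Prod.ext_iff, Prod.fst_zero, Prod.snd_zero] at h0
        exact not_isCoprime_zero_zero (by simpa [h0.1, h0.2] using hv))
      rw [hinv _ (uU_mem N j), zero_add] at h
      simpa [uU] using h
    have hcop : IsCoprime (a + j * c) c := hv.add_mul_right_left j
    simp only [heckMat, act_mm, zero_mul, one_mul, zero_add]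
    rw [← hu]
    by_cases ha : (r : ℤ) ∣ a + j * c
    · obtain ⟨x, hx⟩ := ha
      rw [hx, show ((r : ℤ) * x, (r : ℤ) * c) = (r : ℤ) • (x, c) by simp, hG.homog _ hr0, ← hx]
      refine apply_eq_of_congr hG hinv hcop (hx ▸ hcop).of_mul_left_right ?_ (by simp)
      show (N : ℤ) ∣ x - (a + j * c)
      rw [hx, show x - (r : ℤ) * x = ((r : ℤ) - 1) * -x by ring]; exact hrN.mul_right _
    · refine apply_eq_of_congr hG hinv hcop
        (IsCoprime.mul_right (hps.coprime_iff_not_dvd.mpr ha).symm hcop) (by simp [j]) ?_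
      show (N : ℤ) ∣ r * c - c
      rw [show (r : ℤ) * c - c = ((r : ℤ) - 1) * c by ring]; exact hrN.mul_right _

section Symbol

/-- The symbol of a functional. -/
noncomputable def dualSymbol (φ : Coh1 (trivRep N O O) →ₗ[O] O) (v : Vec) : O :=
  φ (interClass O v)

theorem isSym_dualSymbol (φ : Coh1 (trivRep N O O) →ₗ[O] O) : IsSym N (dualSymbol O φ) := by
  have hval : ∀ (u w : Vec), (∀ γ : Gamma0 N, inter N ((γ : SL(2, ℤ)) : Mat) u
      = inter N ((γ : SL(2, ℤ)) : Mat) w) → interClass (N := N) O u = interClass O w := by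
    intro u w h
    refine congrArg (toCoh _) (Subtype.ext (funext fun γ => ?_))
    simp only [interCocycle_apply, quarterInter, h γ]
  refine ⟨?_, fun k hk v => congrArg φ (hval _ _ fun γ =>
    (isSym_inter (coe_mem_lvl γ)).homog k hk v), fun δ hδ v hv => ?_⟩
  · have h0 : interClass (N := N) O 0 = 0 := by
      rw [interClass, ← map_zero (toCoh (trivRep N O O))]
      refine congrArg _ (Subtype.ext (funext fun γ => ?_))
      show ((quarterInter N _ 0 : ℤ) : O) = 0
      rw [quarterInter, (isSym_inter (coe_mem_lvl γ)).zero, Int.zero_ediv, Int.cast_zero]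
    rw [dualSymbol, h0, map_zero]
  · rw [dualSymbol, dualSymbol, dualSymbol, ← map_add]
    refine congrArg φ ?_
    rw [interClass, interClass, interClass, ← map_add]
    refine congrArg _ (Subtype.ext (funext fun γ => ?_))
    simp only [Submodule.coe_add, Pi.add_apply, interCocycle_apply, ← Int.cast_add]
    congr 1
    refine mul_left_cancel₀ (show (4 : ℤ) ≠ 0 by norm_num) ?_
    simp only [mul_add, four_mul_quarterInter (coe_mem_lvl γ)]
    exact (isSym_inter (coe_mem_lvl γ)).equiv δ hδ v hv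

/-- The class of a functional. -/
noncomputable def dualCocycle (φ : Coh1 (trivRep N O O) →ₗ[O] O) : Cocycle (trivRep N O O) :=
  ⟨fun δ => dualSymbol O φ (act ((δ : SL(2, ℤ)) : Mat) vE), fun δ ε => by
    show dualSymbol O φ (act (((δ * ε : Gamma0 N) : SL(2, ℤ)) : Mat) vE) = _ + _
    rw [Subgroup.coe_mul, Matrix.SpecialLinearGroup.coe_mul]
    exact (isSym_dualSymbol O φ).apply_mul (coe_mem_lvl δ) (coe_mem_lvl ε),
    fun k hk => by
      rw [Set.mem_singleton_iff] at hk
      subst hk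
      show dualSymbol O φ (act ((negOne N : SL(2, ℤ)) : Mat) vE) = 0
      rw [show act ((negOne N : SL(2, ℤ)) : Mat) vE = (-1 : ℤ) • vE by simp [negOne, act, vE],
        (isSym_dualSymbol O φ).homog _ (by norm_num)]
      exact (isSym_dualSymbol O φ).apply_vE⟩

/-- The map from functionals to classes. -/
noncomputable def dualClass :
    (Coh1 (trivRep N O O) →ₗ[O] O) →ₗ[O] Coh1 (trivRep N O O) where
  toFun φ := toCoh _ (dualCocycle O φ)
  map_add' φ ψ := by rw [← map_add]; rfl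
  map_smul' r φ := by rw [RingHom.id_apply, ← map_smul]; rfl

theorem dualClass_comp_heckeOp (hℓN : ¬ ℓ ∣ N) (φ : Coh1 (trivRep N O O) →ₗ[O] O) :
    dualClass O (φ ∘ₗ heckeOp _ ℓ) = heckeOp _ ℓ (dualClass O φ) := by
  have : NeZero ℓ := ⟨hℓ.out.ne_zero⟩
  show toCoh _ _ = heckeOp _ ℓ (toCoh _ _)
  rw [heckeOp_toCoh]
  refine congrArg _ (Subtype.ext (funext fun δ => ?_))
  set D := heckeData (trivRep N O O) ℓ
  show φ (heckeOp _ ℓ (interClass O (act ((δ : SL(2, ℤ)) : Mat) vE)))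
    = ∑ x : Idx N ℓ, dualSymbol O φ (act ((D.tr x δ : SL(2, ℤ)) : Mat) vE)
  have hdet : ∀ i, (heckMat ℓ i).det ≠ 0 := fun i => by
    rw [det_heckMat]; exact_mod_cast hℓ.out.ne_zero
  rw [heckeOp_interClass O hℓN, map_sum, ← (idxEquiv (N := N) hℓN).sum_comp]
  simp only [map_sub]
  let σ := (idxEquiv (N := N) hℓN).trans ((D.permEquiv toGL_injective δ).trans (idxEquiv hℓN).symm)
  rw [Finset.sum_sub_distrib, sub_eq_iff_eq_add,
    ← Equiv.sum_comp σ fun i => φ (interClass O (act (heckMat ℓ i) vE)), ← Finset.sum_add_distrib]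
  refine Finset.sum_congr rfl fun i _ => ?_
  rw [← act_mul, exists_heckMat_mul O hℓN δ i, act_mul]
  exact (isSym_dualSymbol O φ).equiv _ (coe_mem_lvl _) _ (act_ne_zero (hdet _) vE_ne_zero)

theorem comp_eisen_eq_zero (hN : Liftable O N) {r : ℕ} [hr : Fact r.Prime]
    (hr1 : (r : ZMod N) = 1) {φ : Coh1 (trivRep N O O) →ₗ[O] O} (hφ : dualClass O φ = 0) :
    φ ∘ₗ (heckeOp _ r - ((r : O) + 1) • 1) = 0 := by
  have hrN := not_dvd_of_natCast_eq_one hr1
  have hinv : ∀ δ ∈ Lvl N, dualSymbol O φ (act δ vE) = 0 := fun δ hδ =>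
    toCoh_trivial_eq_zero _ (fun _ => rfl) (c := dualCocycle O φ) hφ (lvlElt hδ)
  refine LinearMap.ext_on_range (span_interClass O hN) fun v => ?_
  have hG := isSym_dualSymbol O φ
  show φ (heckeOp _ r (interClass O v) - ((r : O) + 1) • interClass O v) = 0
  rw [map_sub, map_smul, heckeOp_interClass O hrN, map_sum]
  simp only [map_sub]
  show ∑ i : Option (Fin r), (dualSymbol O φ (act (heckMat r i) v)
    - dualSymbol O φ (act (heckMat r i) vE)) - ((r : O) + 1) • dualSymbol O φ v = 0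
  have hfix : ∀ (i : Option (Fin r)) (w : Vec),
      dualSymbol O φ (act (heckMat r i) w) = dualSymbol O φ w := by
    intro i w
    by_cases hw : w = 0
    · subst hw
      rw [show act (heckMat r i) 0 = 0 by simp [act]]
    obtain ⟨a, c⟩ := w
    have hg : 0 < Int.gcd a c := Nat.pos_of_ne_zero fun h0 => hw (by
      rw [Int.gcd_eq_zero_iff] at h0; simp [h0.1, h0.2])
    obtain ⟨a', c', hcop, ha, hc⟩ := Int.exists_gcd_one hg
    have e : ((a, c) : Vec) = (Int.gcd a c : ℤ) • (a', c') := by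
      simp [← ha, ← hc, mul_comm]
    rw [e, act_zsmul, hG.homog _ (by exact_mod_cast hg.ne'), hG.homog _ (by exact_mod_cast hg.ne')]
    exact apply_heckMat_eq hG hinv hr.out hr1 i (v := (a', c'))
      (Int.isCoprime_iff_gcd_eq_one.mpr hcop)
  simp only [hfix, hG.apply_vE, sub_zero, Finset.sum_const, Finset.card_univ, Fintype.card_option,
    Fintype.card_fin]
  rw [← Nat.cast_smul_eq_nsmul O, Nat.cast_add, Nat.cast_one, sub_self]

theorem dualClass_comp_pow (hℓN : ¬ ℓ ∣ N) (φ : Coh1 (trivRep N O O) →ₗ[O] O) (c : O) (n : ℕ) :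
    dualClass O (φ ∘ₗ (heckeOp _ ℓ ^ 2 - c • 1) ^ n)
      = ((heckeOp (trivRep N O O) ℓ ^ 2 - c • 1) ^ n : Module.End O (Coh1 (trivRep N O O)))
        (dualClass O φ) := by
  have h2 : ∀ ψ : Coh1 (trivRep N O O) →ₗ[O] O, dualClass O (ψ ∘ₗ (heckeOp _ ℓ ^ 2 - c • 1))
      = (heckeOp (trivRep N O O) ℓ ^ 2 - c • 1 : Module.End O (Coh1 (trivRep N O O)))
        (dualClass O ψ) := fun ψ => by
    have e : ψ ∘ₗ (heckeOp (trivRep N O O) ℓ ^ 2 - c • 1)
        = (ψ ∘ₗ heckeOp _ ℓ) ∘ₗ heckeOp _ ℓ - c • ψ := by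
      rw [LinearMap.comp_sub, LinearMap.comp_smul, pow_two]
      rfl
    rw [e, map_sub, map_smul, dualClass_comp_heckeOp O hℓN, dualClass_comp_heckeOp O hℓN,
      LinearMap.sub_apply, LinearMap.smul_apply, pow_two]
    rfl
  induction n generalizing φ with
  | zero => rw [pow_zero]; rfl
  | succ n ih =>
    conv_lhs => rw [pow_succ']
    rw [pow_succ]
    show dualClass O ((φ ∘ₗ (heckeOp _ ℓ ^ 2 - c • 1)) ∘ₗ (heckeOp _ ℓ ^ 2 - c • 1) ^ n) = _
    rw [ih, h2]
    rfl

end Symbol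

section Surjective

variable {k : Type uO} [Field k] {p : ℕ} [CharP k p] [hp : Fact p.Prime] {q : ℕ}
  [hq : Fact q.Prime] {r : ℕ} [hr : Fact r.Prime]

/-- **Dual Ihara lemma**: every pair of classes, multiplied by powers of the non-Eisenstein
elements at `ℓ` and `r`, is in the image of the two traces. -/
theorem exists_trace_eq (hqN : ¬ q ∣ N) (hℓN : N < ℓ) (hℓp : ℓ ≠ p) (hℓq : ℓ ≠ q) (hℓ2 : ℓ ≠ 2)
    (hN : Liftable k N) (hr1 : (r : ZMod N) = 1) :
    ∃ n : ℕ, ∀ x y : Coh1 (trivRep N k k), ∃ z : Coh1 (trivRep (q * N) k k),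
      traceOne k hqN z = (iharaElt k ℓ ^ n * eisen k r) • x ∧
        traceDeg k hqN z = (iharaElt k ℓ ^ n * eisen k r) • y := by
  have hℓN' : ¬ ℓ ∣ N := fun hd => absurd (Nat.le_of_dvd (NeZero.pos N) hd) (by omega)
  have := finite_coh1 (trivRep N k k)
  let G := (traceOne k hqN).prod (traceDeg k hqN)
  let T : Module.End k (Coh1 (trivRep N k k)) := heckeOp _ ℓ ^ 2 - (((ℓ : k) + 1) ^ 2) • 1
  let K : Submodule k (Coh1 (trivRep N k k) × Coh1 (trivRep N k k)) :=
    LinearMap.ker (degenSum N k q)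
  have : Module.Finite k K := inferInstance
  -- a uniform exponent from the finite dimension of the kernel
  obtain ⟨m, v, hv⟩ := Module.Finite.exists_fin (R := k) (M := K)
  choose nf hnf using fun i => ihara (p := p) (ℓ := ℓ) hqN hℓN hℓp hℓq hℓ2 (show degenSum N k q
    ((v i : Coh1 (trivRep N k k) × Coh1 (trivRep N k k)).1,
      (v i : Coh1 (trivRep N k k) × Coh1 (trivRep N k k)).2) = 0 from (v i).2)
  let n := Finset.univ.sup nf
  have hKill : ∀ u : K, iharaElt k ℓ ^ n • (u : Coh1 (trivRep N k k) × Coh1 (trivRep N k k)).1 = 0 ∧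
      iharaElt k ℓ ^ n • (u : Coh1 (trivRep N k k) × Coh1 (trivRep N k k)).2 = 0 := by
    intro u
    have hu : u ∈ Submodule.span k (Set.range v) := hv ▸ Submodule.mem_top
    induction hu using Submodule.span_induction with
    | mem x hx =>
      obtain ⟨i, rfl⟩ := hx
      have hle : nf i ≤ n := Finset.le_sup (Finset.mem_univ i)
      rw [show iharaElt k ℓ ^ n = iharaElt k ℓ ^ (n - nf i) * iharaElt k ℓ ^ nf i by
        rw [← pow_add, Nat.sub_add_cancel hle], mul_smul, mul_smul, (hnf i).1, (hnf i).2, smul_zero]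
      exact ⟨rfl, rfl⟩
    | zero => simp
    | add x y _ _ hx hy => simp [hx.1, hx.2, hy.1, hy.2]
    | smul a x _ hx => simp [smul_comm _ a, hx.1, hx.2]
  refine ⟨n, fun x y => ?_⟩
  suffices hmem : ((iharaElt k ℓ ^ n * eisen k r) • x, (iharaElt k ℓ ^ n * eisen k r) • y)
      ∈ LinearMap.range G by
    obtain ⟨z, hz⟩ := hmem
    exact ⟨z, congrArg Prod.fst hz, congrArg Prod.snd hz⟩
  rw [← Subspace.dualAnnihilator_dualCoannihilator_eq (W := LinearMap.range G),
    Submodule.mem_dualCoannihilator]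
  intro Φ hΦ
  set φ₁ := Φ ∘ₗ LinearMap.inl k _ (Coh1 (trivRep N k k)) with hφ₁
  set φ₂ := Φ ∘ₗ LinearMap.inr k (Coh1 (trivRep N k k)) _ with hφ₂
  have hsplit : ∀ a b : Coh1 (trivRep N k k), Φ (a, b) = φ₁ a + φ₂ b := fun a b => by
    rw [hφ₁, hφ₂, LinearMap.comp_apply, LinearMap.comp_apply, ← map_add]
    simp
  have hrel : ∀ v, dualSymbol k φ₁ v + dualSymbol k φ₂ (diagVec q v) = 0 := by
    intro v
    have h := (Submodule.mem_dualAnnihilator Φ).mp hΦ _ ⟨interClass k v, rfl⟩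
    rw [show G (interClass k v) = (traceOne k hqN (interClass k v), traceDeg k hqN (interClass k v)) from rfl, traceOne_interClass, traceDeg_interClass, hsplit] at h
    exact h
  have hdeg : (dualClass k φ₁, dualClass k φ₂) ∈ K := by
    show degenSum N k q (toCoh _ _, toCoh _ _) = 0
    rw [degenSum, LinearMap.coprod_apply, degen_toCoh, degen_toCoh, ← map_add, toCoh_eq_zero_iff]
    refine ⟨0, fun γ => ?_⟩
    obtain ⟨g1, hg1, e111, e100, e101, e110⟩ := exists_conjDegen (N := N) one_ne_zero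
      (by rw [one_mul]; exact dvd_mul_left N q) γ
    obtain ⟨g2, hg2, e211, e200, e201, e210⟩ :=
      exists_conjDegen (N := N) hq.out.ne_zero (dvd_rfl (a := q * N)) γ
    rw [map_zero, sub_zero]
    refine (congrArg₂ (· + ·) (degenData_raw_apply (trivRep N k k) one_ne_zero
      (by rw [one_mul]; exact dvd_mul_left N q) (dualCocycle k φ₁).1 γ hg1)
      (degenData_raw_apply (trivRep N k k) hq.out.ne_zero dvd_rfl (dualCocycle k φ₂).1 γ hg2)).trans ?_
    show dualSymbol k φ₁ (act ((g1 : SL(2, ℤ)) : Mat) vE)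
      + dualSymbol k φ₂ (act ((g2 : SL(2, ℤ)) : Mat) vE) = 0
    have a1 : act ((g1 : SL(2, ℤ)) : Mat) vE = act ((γ : SL(2, ℤ)) : Mat) vE := by
      simp only [act_vE]
      rw [e100]
      have := e110
      rw [Nat.cast_one, one_mul] at this
      rw [this]
    have a2 : diagVec q (act ((γ : SL(2, ℤ)) : Mat) vE)
        = (q : ℤ) • act ((g2 : SL(2, ℤ)) : Mat) vE := by
      simp only [act_vE, diagVec, Prod.smul_mk, smul_eq_mul]
      rw [e200, ← e210]
    have h := hrel (act ((γ : SL(2, ℤ)) : Mat) vE)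
    rw [a2, (isSym_dualSymbol k φ₂).homog _ (by exact_mod_cast hq.out.ne_zero)] at h
    rw [a1]
    exact h
  obtain ⟨hk1, hk2⟩ := hKill ⟨_, hdeg⟩
  have hfin : ∀ φ : Coh1 (trivRep N k k) →ₗ[k] k, iharaElt k ℓ ^ n • dualClass k φ = 0 →
      ∀ u, φ ((iharaElt k ℓ ^ n * eisen k r) • u) = 0 := by
    intro φ hφ u
    have hpow : dualClass k (φ ∘ₗ T ^ n) = 0 := by
      rw [dualClass_comp_pow k hℓN']
      rw [iharaElt_pow_smul] at hφ
      exact hφ
    rw [mul_smul, iharaElt_pow_smul, eisen_smul]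
    exact LinearMap.congr_fun (comp_eisen_eq_zero k hN (r := r) hr1 hpow) u
  rw [hsplit, hfin φ₁ hk1, hfin φ₂ hk2, add_zero]

end Surjective

end Fermat.Agent.HeckeModule
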