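import Fermat.Agent.HeckeModule.Compose
import Fermat.Agent.HeckeModule.MatData
import Fermat.Agent.HeckeModule.TraceSurjective

/-!
The composites of the transfers with the degeneracy maps: `q + 1`, `T_q`, `ρ(q)⁻¹ T_q`, `q + 1`.
-/

set_option autoImplicit false

open CongruenceSubgroup Matrix.SpecialLinearGroup
open scoped MatrixGroups OnePoint

universe uO uA

namespace Fermat.Agent.HeckeModule

open HeckeJ0 LevelRaising

variable {O : Type uO} [CommRing O] {A : Type uA} [AddCommGroup A] [Module O A]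
  {N q : ℕ} [hq : Fact q.Prime]

lemma val_mul_eq {x y x' y' : GL (Fin 2) ℝ} {S T S' T' : Mat}
    (hx : (x : Matrix (Fin 2) (Fin 2) ℝ) = S.map (Int.cast : ℤ → ℝ))
    (hy : (y : Matrix (Fin 2) (Fin 2) ℝ) = T.map (Int.cast : ℤ → ℝ))
    (hx' : (x' : Matrix (Fin 2) (Fin 2) ℝ) = S'.map (Int.cast : ℤ → ℝ))
    (hy' : (y' : Matrix (Fin 2) (Fin 2) ℝ) = T'.map (Int.cast : ℤ → ℝ)) (h : S * T = S' * T') :
    x * y = x' * y' := by
  refine Units.ext ?_
  rw [Units.val_mul, Units.val_mul, hx, hy, hx', hy', ← Matrix.map_mul_intCast,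
    ← Matrix.map_mul_intCast, h]

lemma val_degenMat_mm {d : ℕ} (hd : d ≠ 0) :
    ((degenMat d : GL (Fin 2) ℝ) : Matrix (Fin 2) (Fin 2) ℝ)
      = (mm d 0 0 1).map (Int.cast : ℤ → ℝ) := val_degenMat hd

lemma val_one_mat : ((1 : GL (Fin 2) ℝ) : Matrix (Fin 2) (Fin 2) ℝ)
    = (1 : Mat).map (Int.cast : ℤ → ℝ) := by simp

/-- The scalar matrix `k`. -/
noncomputable def scalarGL (k : ℕ) (hk : k ≠ 0) : GL (Fin 2) ℝ :=
  matGL (mm k 0 0 k) (by simp [hk])

lemma scalarGL_comm {k : ℕ} (hk : k ≠ 0) (M : GL (Fin 2) ℝ) : Commute (scalarGL k hk) M := by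
  refine Units.ext ?_
  rw [Units.val_mul, Units.val_mul, scalarGL, val_matGL,
    show (mm (k : ℤ) 0 0 k).map (Int.cast : ℤ → ℝ) = (k : ℝ) • (1 : Matrix (Fin 2) (Fin 2) ℝ) by
      ext a b; fin_cases a <;> fin_cases b <;> simp,
    Matrix.smul_mul, Matrix.mul_smul, one_mul, mul_one]

lemma dUnit_lvlElt {S : Mat} (h : S ∈ Lvl N) :
    ((dUnit N (lvlElt h) : (ZMod N)ˣ) : ZMod N) = ((S 1 1 : ℤ) : ZMod N) := by
  rw [coe_dUnit]; rfl

/-- `q` as a unit modulo `N`. -/
noncomputable def qUnit (hqN : ¬ q ∣ N) : (ZMod N)ˣ :=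
  ZMod.unitOfCoprime q ((Nat.Prime.coprime_iff_not_dvd hq.out).mpr hqN)

@[simp] lemma coe_qUnit (hqN : ¬ q ∣ N) : ((qUnit hqN : (ZMod N)ˣ) : ZMod N) = q :=
  ZMod.coe_unitOfCoprime _ _

variable (hqN : ¬ q ∣ N)

include hqN in
lemma qUnit_mul_alD : (q : ZMod N) * ((alD N q : ℤ) : ZMod N) = 1 := by
  have h := congrArg (Int.cast : ℤ → ZMod N) (al_spec hq.out hqN)
  push_cast at h
  rwa [ZMod.natCast_self, zero_mul, sub_zero] at h

lemma aUnit_idxEquiv_none : aUnit (idxEquiv (N := N) hqN none) = qUnit hqN := by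
  rw [aUnit, dif_pos (show (idxEquiv (N := N) hqN none).1 = ∞ from rfl)]
  rfl

lemma aUnit_idxEquiv_some (j : Fin q) : aUnit (idxEquiv (N := N) hqN (some j)) = 1 := by
  rw [aUnit, dif_neg]
  exact OnePoint.coe_ne_infty _

variable (ρ : Representation O (ZMod N)ˣ A)

/-- `trace ∘ res = q + 1`. -/
theorem trace_degen_one (u : Coh1 ρ) :
    trace ρ hqN (degen ρ one_ne_zero (by rw [one_mul]; exact dvd_mul_left N q) u)
      = ((q : O) + 1) • u := by
  have h := Data.comp_eq_card_smul toGL_injective toGL_injective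
    (degenData ρ (N' := q * N) one_ne_zero (by rw [one_mul]; exact dvd_mul_left N q))
    (traceData ρ hqN) (z := 1) (fun M => Commute.one_left M)
    (fun p => lvlElt (traceMat_mem_lvl hq.out hqN p.2))
    (fun p => val_mul_eq (val_degenMat_mm one_ne_zero) (val_matGL _ ((fact_traceMat' hqN).det_ne_zero p.2)) (val_toGL _) val_one_mat (by
      rw [Nat.cast_one, ← mm_one, one_mul, mul_one]; rfl))
    (fun p => by
      have hd : dUnit N (lvlElt (traceMat_mem_lvl hq.out hqN p.2)) = 1 := by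
        refine Units.ext ?_
        rw [dUnit_lvlElt, Units.val_one]
        cases p.2 with
        | none => simp [traceMat]
        | some j => simp [traceMat, qUnit_mul_alD hqN]
      rw [gammaRep_apply, hd, map_one]
      rfl) u
  have hc : Fintype.card (Unit × Option (Fin q)) = q + 1 := by simp
  rw [hc, Nat.cast_add, Nat.cast_one] at h
  exact h

/-- `twisted trace ∘ (z ↦ q z) = q + 1`. -/
theorem traceTwist_degen (u : Coh1 ρ) :
    traceTwist ρ hqN (degen ρ hq.out.ne_zero dvd_rfl u) = ((q : O) + 1) • u := by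
  have hm : ∀ i : Option (Fin q), (match i with
      | none => mm ((q : ℤ) * alD N q) (alB N q) N 1
      | some j => mm 1 (j : ℕ) 0 1) ∈ Lvl N := by
    rintro (_ | j)
    · exact mm_mem_detLevel.mpr ⟨by linear_combination al_spec hq.out hqN, dvd_rfl⟩
    · exact mm_mem_detLevel.mpr ⟨by ring, dvd_zero _⟩
  have h := Data.comp_eq_card_smul toGL_injective toGL_injective
    (degenData ρ (N' := q * N) hq.out.ne_zero dvd_rfl)
    (traceTwistData ρ hqN) (scalarGL_comm hq.out.ne_zero)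
    (fun p => lvlElt (hm p.2))
    (fun p => val_mul_eq (val_degenMat_mm hq.out.ne_zero)
      (val_matGL _ ((fact_degenReps hqN).det_ne_zero p.2)) (val_toGL _)
      (val_matGL (mm (q : ℤ) 0 0 q) (by simp [hq.out.ne_zero])) (by
        show _ = _ * mm (q : ℤ) 0 0 q
        rcases p with ⟨⟨⟩, _ | j⟩ <;> simp only [degenReps, lvlElt, mm_mul, mm_inj] <;>
          refine ⟨?_, ?_, ?_, ?_⟩ <;> ring))
    (fun p => by
      have hd : dUnit N (lvlElt (hm p.2)) = 1 := by
        refine Units.ext ?_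
        rw [dUnit_lvlElt, Units.val_one]
        rcases p with ⟨⟨⟩, _ | j⟩ <;> simp
      rw [gammaRep_apply, hd, map_one]
      rfl) u
  have hc : Fintype.card (Unit × Option (Fin q)) = q + 1 := by simp
  rw [hc, Nat.cast_add, Nat.cast_one] at h
  exact h

/-- `twisted trace ∘ res = T_q`. -/
theorem traceTwist_degen_one (u : Coh1 ρ) :
    traceTwist ρ hqN (degen ρ one_ne_zero (by rw [one_mul]; exact dvd_mul_left N q) u)
      = heckeOp ρ q u := by
  have : NeZero q := ⟨hq.out.ne_zero⟩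
  have hm : ∀ i : Option (Fin q), (match i with
      | none => mm (alD N q) (alB N q) N q
      | some _ => 1) ∈ Lvl N := by
    rintro (_ | j)
    · exact mm_mem_detLevel.mpr ⟨by linear_combination al_spec hq.out hqN, dvd_rfl⟩
    · exact one_mem_lvl N
  refine Data.comp_eq toGL_injective toGL_injective
    (degenData ρ (N' := q * N) one_ne_zero (by rw [one_mul]; exact dvd_mul_left N q))
    (traceTwistData ρ hqN) (heckeData ρ q) (z := 1) (fun M => Commute.one_left M)
    ((Equiv.punitProd _).trans (idxEquiv hqN)) (fun p => lvlElt (hm p.2))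
    (fun p => by
      refine (val_mul_eq (val_degenMat_mm one_ne_zero)
        (val_matGL _ ((fact_degenReps hqN).det_ne_zero p.2)) (val_toGL _)
        (rep_idxEquiv hqN p.2) ?_).trans (congrArg _ (one_mul _).symm)
      rcases p with ⟨⟨⟩, _ | j⟩ <;>
        simp only [degenReps, heckMat, lvlElt, mm_one, mm_mul, mm_inj, Nat.cast_one] <;>
        refine ⟨?_, ?_, ?_, ?_⟩ <;> ring)
    (fun p => ?_) u
  show LinearMap.id ∘ₗ LinearMap.id ∘ₗ ρ _ = ρ (aUnit _)
  rw [LinearMap.id_comp, LinearMap.id_comp]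
  refine congrArg ρ ?_
  rcases p with ⟨⟨⟩, _ | j⟩
  · show _ = aUnit (idxEquiv hqN none)
    rw [aUnit_idxEquiv_none]
    refine Units.ext ?_
    rw [dUnit_lvlElt, coe_qUnit]
    simp
  · show _ = aUnit (idxEquiv hqN (some j))
    rw [aUnit_idxEquiv_some]
    refine Units.ext ?_
    rw [dUnit_lvlElt]
    simp

lemma isIntertwining_apply (v : (ZMod N)ˣ) : IsIntertwining ρ ρ (ρ v) := fun w a => by
  rw [← Module.End.mul_apply, ← Module.End.mul_apply, ← map_mul, ← map_mul, mul_comm]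

/-- `trace ∘ (z ↦ q z) = ρ(q)⁻¹ T_q`. -/
theorem trace_degen (u : Coh1 ρ) :
    trace ρ hqN (degen ρ hq.out.ne_zero dvd_rfl u)
      = cohMapO (ρ (qUnit hqN)⁻¹) (isIntertwining_apply ρ _) (heckeOp ρ q u) := by
  have : NeZero q := ⟨hq.out.ne_zero⟩
  set v : (ZMod N)ˣ := (qUnit hqN)⁻¹
  let D : Data (toGL N) (toGL N) (gammaRep ρ) (gammaRep ρ) {negOne N} {negOne N} (Idx N q) :=
    { heckeData ρ q with
      ε := fun x => ρ v ∘ₗ (heckeData ρ q).ε x
      compat := fun x y γ g h => by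
        rw [LinearMap.comp_assoc, (heckeData ρ q).compat x y γ g h, ← LinearMap.comp_assoc,
          ← LinearMap.comp_assoc]
        refine congrArg (· ∘ₗ _) (LinearMap.ext fun a => ?_)
        exact isIntertwining_apply ρ v _ a }
  have hm : ∀ i : Option (Fin q), (match i with
      | none => 1
      | some _ => mm (q : ℤ) (alB N q) N (alD N q)) ∈ Lvl N := by
    rintro (_ | j)
    · exact one_mem_lvl N
    · exact mm_mem_detLevel.mpr ⟨by linear_combination al_spec hq.out hqN, dvd_rfl⟩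
  obtain ⟨c, rfl⟩ := toCoh_surjective ρ u
  refine (Data.comp_eq toGL_injective toGL_injective
    (degenData ρ (N' := q * N) hq.out.ne_zero dvd_rfl)
    (traceData ρ hqN) D (z := 1) (fun M => Commute.one_left M)
    ((Equiv.punitProd _).trans (idxEquiv hqN)) (fun p => lvlElt (hm p.2))
    (fun p => by
      refine (val_mul_eq (val_degenMat_mm hq.out.ne_zero)
        (val_matGL _ ((fact_traceMat' hqN).det_ne_zero p.2)) (val_toGL _)
        (rep_idxEquiv hqN p.2) ?_).trans (congrArg _ (one_mul _).symm)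
      rcases p with ⟨⟨⟩, _ | j⟩ <;>
        simp only [traceMat, heckMat, lvlElt, mm_one, mm_mul, mm_inj] <;>
        refine ⟨?_, ?_, ?_, ?_⟩ <;> first | trivial | ring1)
    (fun p => ?_) (toCoh ρ c)).trans ?_
  · show LinearMap.id ∘ₗ LinearMap.id ∘ₗ ρ _ = ρ v ∘ₗ ρ (aUnit _)
    rw [LinearMap.id_comp, LinearMap.id_comp, ← Module.End.mul_eq_comp, ← map_mul]
    refine congrArg ρ ?_
    rcases p with ⟨⟨⟩, _ | j⟩
    · show _ = v * aUnit (idxEquiv hqN none)
      rw [aUnit_idxEquiv_none, inv_mul_cancel]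
      refine Units.ext ?_
      rw [dUnit_lvlElt]
      simp
    · show _ = v * aUnit (idxEquiv hqN (some j))
      rw [aUnit_idxEquiv_some, mul_one, eq_inv_iff_mul_eq_one]
      refine Units.ext ?_
      rw [Units.val_mul, dUnit_lvlElt, coe_qUnit, Units.val_one, mul_comm]
      simpa using qUnit_mul_alD hqN
  · rw [heckeOp_toCoh, cohMapO_toCoh]
    refine congrArg (toCoh ρ) (Subtype.ext (funext fun γ => ?_))
    show D.raw c.1 γ = ρ v ((heckeData ρ q).raw c.1 γ)
    rw [Data.raw_apply, Data.raw_apply, map_sum]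
    rfl

end Fermat.Agent.HeckeModule
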