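import Mathlib.RepresentationTheory.Basic
import Mathlib.LinearAlgebra.Quotient.Basic
import Mathlib.GroupTheory.Coset.Basic
import Mathlib.Algebra.BigOperators.Pi
import Mathlib.Data.Fintype.Basic

/-!
First cohomology of a group with coefficients in a representation, and the operators attached to
"double coset data" inside an ambient group. All identities between such operators are proved by
comparing equivariant functions on the ambient group, up to constants.
-/

set_option autoImplicit false

universe uO uA uB uC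

namespace Fermat.Agent.HeckeModule

variable {O : Type uO} [CommRing O]
  {A : Type uA} [AddCommGroup A] [Module O A]
  {B : Type uB} [AddCommGroup B] [Module O B]
  {C : Type uC} [AddCommGroup C] [Module O C]
  {Γ Γ' : Type*} [Group Γ] [Group Γ'] {G : Type*} [Group G]

/-- Cocycles vanishing on the set `K` (in applications `K = {-1}`). -/
def cocycles (ρ : Representation O Γ A) (K : Set Γ) : Submodule O (Γ → A) where
  carrier := {c | (∀ g h, c (g * h) = c g + ρ g (c h)) ∧ ∀ k ∈ K, c k = 0}
  zero_mem' := ⟨fun g h => by simp, fun k _ => rfl⟩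
  add_mem' := fun {c d} hc hd => ⟨fun g h => by
    simp only [Pi.add_apply, hc.1, hd.1, map_add]; abel, fun k hk => by
    simp [hc.2 k hk, hd.2 k hk]⟩
  smul_mem' := fun r c hc => ⟨fun g h => by simp [hc.1, smul_add], fun k hk => by
    simp [hc.2 k hk]⟩

/-- The coboundary of an element. -/
def cobound (ρ : Representation O Γ A) : A →ₗ[O] (Γ → A) :=
  LinearMap.pi fun g => ρ g - 1

@[simp] lemma cobound_apply (ρ : Representation O Γ A) (a : A) (g : Γ) :
    cobound ρ a g = ρ g a - a := rfl

/-- The coboundaries, inside the cocycles. -/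
def coboundaries (ρ : Representation O Γ A) (K : Set Γ) : Submodule O (cocycles ρ K) :=
  Submodule.comap (cocycles ρ K).subtype (LinearMap.range (cobound ρ))

/-- First cohomology (classes of cocycles vanishing on `K`). -/
abbrev H1 (ρ : Representation O Γ A) (K : Set Γ) : Type _ :=
  cocycles ρ K ⧸ coboundaries ρ K

/-- The class of a cocycle. -/
def cls (ρ : Representation O Γ A) (K : Set Γ) : cocycles ρ K →ₗ[O] H1 ρ K :=
  (coboundaries ρ K).mkQ

lemma cls_surjective (ρ : Representation O Γ A) (K : Set Γ) : Function.Surjective (cls ρ K) :=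
  Submodule.mkQ_surjective _

lemma cls_eq_cls_iff {ρ : Representation O Γ A} {K : Set Γ} (c d : cocycles ρ K) :
    cls ρ K c = cls ρ K d ↔ ∃ a : A, ∀ g, c.1 g - d.1 g = ρ g a - a := by
  rw [cls, Submodule.mkQ_apply, Submodule.mkQ_apply, Submodule.Quotient.eq, coboundaries,
    Submodule.mem_comap, LinearMap.mem_range]
  simp only [funext_iff, cobound_apply, Submodule.coe_subtype, AddSubgroupClass.coe_sub,
    Pi.sub_apply]
  exact exists_congr fun a => forall_congr' fun g => eq_comm

lemma cls_eq_zero_iff {ρ : Representation O Γ A} {K : Set Γ} (c : cocycles ρ K) :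
    cls ρ K c = 0 ↔ ∃ a : A, ∀ g, c.1 g = ρ g a - a := by
  rw [← map_zero (cls ρ K), cls_eq_cls_iff]
  simp

/-- Double coset data from `(Γ, ρ)` to `(Γ', σ)` inside the ambient group `G`. -/
structure Data (i : Γ →* G) (j : Γ' →* G) (ρ : Representation O Γ A)
    (σ : Representation O Γ' B) (K : Set Γ) (K' : Set Γ') (ι : Type*) where
  /-- the representatives -/
  α : ι → G
  /-- the coefficient maps -/
  ε : ι → A →ₗ[O] B
  exists_mul : ∀ (x : ι) (γ : Γ'), ∃ (y : ι) (g : Γ), α x * j γ = i g * α y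
  unique : ∀ (x y : ι) (g : Γ), i g * α x = α y → x = y
  compat : ∀ (x y : ι) (γ : Γ') (g : Γ), α x * j γ = i g * α y → ε x ∘ₗ ρ g = σ γ ∘ₗ ε y
  triv : ∀ (x y : ι) (k : Γ') (g : Γ), k ∈ K' → α x * j k = i g * α y → g ∈ K

namespace Data

variable {i : Γ →* G} {j : Γ' →* G} {ρ : Representation O Γ A} {σ : Representation O Γ' B}
  {K : Set Γ} {K' : Set Γ'} {ι : Type*} [Fintype ι] (D : Data i j ρ σ K K' ι)

/-- The permutation attached to an element. -/
noncomputable def perm (γ : Γ') (x : ι) : ι := (D.exists_mul x γ).choose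

/-- The transfer element. -/
noncomputable def tr (x : ι) (γ : Γ') : Γ := (D.exists_mul x γ).choose_spec.choose

omit [Fintype ι] in
lemma mul_spec (x : ι) (γ : Γ') : D.α x * j γ = i (D.tr x γ) * D.α (D.perm γ x) :=
  (D.exists_mul x γ).choose_spec.choose_spec

variable (hi : Function.Injective i)
include hi

omit [Fintype ι] in
lemma spec_unique {x y : ι} {γ : Γ'} {g : Γ} (h : D.α x * j γ = i g * D.α y) :
    D.perm γ x = y ∧ D.tr x γ = g := by
  rw [D.mul_spec] at h
  have hy : D.perm γ x = y := by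
    refine D.unique _ _ (g⁻¹ * D.tr x γ) ?_
    rw [map_mul, map_inv, mul_assoc, h, inv_mul_cancel_left]
  refine ⟨hy, hi ?_⟩
  rw [hy] at h
  exact mul_right_cancel h

omit [Fintype ι] in
lemma perm_mul (γ δ : Γ') (x : ι) :
    D.perm (γ * δ) x = D.perm δ (D.perm γ x) ∧
      D.tr x (γ * δ) = D.tr x γ * D.tr (D.perm γ x) δ := by
  refine D.spec_unique hi ?_
  rw [map_mul, map_mul, ← mul_assoc, D.mul_spec, mul_assoc, D.mul_spec, mul_assoc]

omit [Fintype ι] in
lemma perm_one (x : ι) : D.perm 1 x = x ∧ D.tr x 1 = 1 :=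
  D.spec_unique hi (by rw [map_one, map_one, mul_one, one_mul])

/-- `perm` as a permutation. -/
noncomputable def permEquiv (γ : Γ') : Equiv.Perm ι where
  toFun := D.perm γ
  invFun := D.perm γ⁻¹
  left_inv x := by rw [← (D.perm_mul hi γ γ⁻¹ x).1, mul_inv_cancel, (D.perm_one hi x).1]
  right_inv x := by rw [← (D.perm_mul hi γ⁻¹ γ x).1, inv_mul_cancel, (D.perm_one hi x).1]

omit hi in
/-- The transfer on functions. -/
noncomputable def raw : (Γ → A) →ₗ[O] (Γ' → B) where
  toFun c γ := ∑ x, D.ε x (c (D.tr x γ))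
  map_add' c d := funext fun γ => by simp [Finset.sum_add_distrib]
  map_smul' r c := funext fun γ => by simp [Finset.smul_sum]

omit hi in
lemma raw_apply (c : Γ → A) (γ : Γ') : D.raw c γ = ∑ x, D.ε x (c (D.tr x γ)) := rfl

lemma sum_perm (γ : Γ') (a : A) : σ γ (∑ x, D.ε x a) = ∑ x, D.ε x (ρ (D.tr x γ) a) := by
  have h : ∑ x, D.ε x (ρ (D.tr x γ) a) = ∑ x, σ γ (D.ε (D.permEquiv hi γ x) a) :=
    Finset.sum_congr rfl fun x _ => LinearMap.congr_fun (D.compat _ _ _ _ (D.mul_spec x γ)) a
  rw [h, map_sum, Equiv.sum_comp (D.permEquiv hi γ) fun x => σ γ (D.ε x a)]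

lemma raw_cobound (a : A) : D.raw (cobound ρ a) = cobound σ (∑ x, D.ε x a) := by
  funext γ
  rw [cobound_apply, D.sum_perm hi, D.raw_apply]
  simp [Finset.sum_sub_distrib]

lemma raw_mem (c : cocycles ρ K) : D.raw c.1 ∈ cocycles σ K' := by
  refine ⟨fun γ δ => ?_, fun k hk => ?_⟩
  · rw [D.raw_apply, D.raw_apply, D.raw_apply, map_sum]
    have h : ∀ x, D.ε x (c.1 (D.tr x (γ * δ)))
        = D.ε x (c.1 (D.tr x γ)) + σ γ (D.ε (D.permEquiv hi γ x) (c.1 (D.tr (D.permEquiv hi γ x) δ))) := by
      intro x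
      rw [(D.perm_mul hi γ δ x).2, c.2.1, map_add]
      congr 1
      exact LinearMap.congr_fun (D.compat _ _ _ _ (D.mul_spec x γ)) _
    rw [Finset.sum_congr rfl (fun x _ => h x), Finset.sum_add_distrib,
      Equiv.sum_comp (D.permEquiv hi γ) fun x => σ γ (D.ε x (c.1 (D.tr x δ)))]
  · rw [D.raw_apply]
    exact Finset.sum_eq_zero fun x _ => by
      rw [c.2.2 _ (D.triv _ _ _ _ hk (D.mul_spec x k)), map_zero]

/-- The operator on cocycles. -/
noncomputable def onCocycles : cocycles ρ K →ₗ[O] cocycles σ K' :=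
  (D.raw ∘ₗ (cocycles ρ K).subtype).codRestrict _ fun c => D.raw_mem hi c

/-- The operator on `H¹`. -/
noncomputable def onH1 : H1 ρ K →ₗ[O] H1 σ K' :=
  (coboundaries ρ K).mapQ (coboundaries σ K') (D.onCocycles hi) fun c hc => by
    obtain ⟨a, ha⟩ := hc
    refine ⟨∑ x, D.ε x a, ?_⟩
    rw [← D.raw_cobound hi, ha]
    rfl

lemma onH1_cls (c : cocycles ρ K) : D.onH1 hi (cls ρ K c) = cls σ K' (D.onCocycles hi c) := rfl

end Data

/-- `F` is equivariant with cocycle `c`. -/
def IsEquivariant (i : Γ →* G) (ρ : Representation O Γ A) (c : Γ → A) (F : G → A) : Prop :=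
  ∀ (g : Γ) (M : G), F (i g * M) = c g + ρ g (F M)

lemma exists_isEquivariant (i : Γ →* G) (hi : Function.Injective i) {ρ : Representation O Γ A}
    {K : Set Γ} (c : cocycles ρ K) : ∃ F : G → A, IsEquivariant i ρ c.1 F := by
  let out : G → G := fun M => Quotient.out (Quotient.mk (QuotientGroup.rightRel i.range) M)
  have hout : ∀ M, ∃ g : Γ, M = i g * out M := fun M => by
    have h : (QuotientGroup.rightRel i.range) (out M) M := Quotient.exact (Quotient.out_eq _)
    rw [QuotientGroup.rightRel_apply] at h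
    obtain ⟨g, hg⟩ := h
    exact ⟨g, by rw [hg, inv_mul_cancel_right]⟩
  choose gf hgf using hout
  refine ⟨fun M => c.1 (gf M), fun g M => ?_⟩
  show c.1 (gf (i g * M)) = _
  rw [← c.2.1]
  refine congrArg c.1 (hi (mul_right_cancel (b := out M) ?_))
  have hsame : out (i g * M) = out M := by
    refine congrArg Quotient.out (Quotient.sound ?_)
    show QuotientGroup.rightRel i.range _ _
    rw [QuotientGroup.rightRel_apply, mul_inv_rev, mul_inv_cancel_left]
    exact i.range.inv_mem ⟨g, rfl⟩
  have h1 := hgf (i g * M)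
  rw [hsame] at h1
  rw [← h1, map_mul, mul_assoc, ← hgf M]

/-- The operator of double coset data on functions on the ambient group. -/
def Data.act {i : Γ →* G} {j : Γ' →* G} {ρ : Representation O Γ A} {σ : Representation O Γ' B}
    {K : Set Γ} {K' : Set Γ'} {ι : Type*} [Fintype ι] (D : Data i j ρ σ K K' ι) (F : G → A) :
    G → B :=
  fun M => ∑ x, D.ε x (F (D.α x * M))

lemma Data.isEquivariant_act {i : Γ →* G} {j : Γ' →* G} {ρ : Representation O Γ A}
    {σ : Representation O Γ' B} {K : Set Γ} {K' : Set Γ'} {ι : Type*} [Fintype ι]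
    (D : Data i j ρ σ K K' ι) (hi : Function.Injective i) {c : Γ → A} {F : G → A}
    (hF : IsEquivariant i ρ c F) : IsEquivariant j σ (D.raw c) (D.act F) := by
  intro γ M
  simp only [Data.act]
  have h : ∀ x, D.ε x (F (D.α x * (j γ * M)))
      = D.ε x (c (D.tr x γ)) + σ γ (D.ε (D.permEquiv hi γ x) (F (D.α (D.permEquiv hi γ x) * M))) := by
    intro x
    rw [← mul_assoc, D.mul_spec, mul_assoc, hF, map_add]
    congr 1
    exact LinearMap.congr_fun (D.compat _ _ _ _ (D.mul_spec x γ)) _
  rw [Finset.sum_congr rfl (fun x _ => h x), Finset.sum_add_distrib, map_sum,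
    Equiv.sum_comp (D.permEquiv hi γ) fun x => σ γ (D.ε x (F (D.α x * M)))]
  rfl

lemma IsEquivariant.add {i : Γ →* G} {ρ : Representation O Γ A} {c d : Γ → A} {F H : G → A}
    (hF : IsEquivariant i ρ c F) (hH : IsEquivariant i ρ d H) :
    IsEquivariant i ρ (c + d) (F + H) := fun g M => by
  simp only [Pi.add_apply, hF g M, hH g M, map_add]
  abel

lemma IsEquivariant.smul {i : Γ →* G} {ρ : Representation O Γ A} {c : Γ → A} {F : G → A}
    (hF : IsEquivariant i ρ c F) (r : O) : IsEquivariant i ρ (r • c) (r • F) := fun g M => by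
  simp [hF g M, smul_add]

/-- Two cocycles with equivariant functions differing by a constant have the same class. -/
lemma cls_eq_of_equivariant {i : Γ →* G} {ρ : Representation O Γ A} {K : Set Γ}
    {c d : cocycles ρ K} {F H : G → A} (hF : IsEquivariant i ρ c.1 F)
    (hH : IsEquivariant i ρ d.1 H) (a : A) (hFH : ∀ M, F M = H M + a) :
    cls ρ K c = cls ρ K d := by
  refine (cls_eq_cls_iff c d).mpr ⟨-a, fun g => ?_⟩
  have h1 := hF g 1
  have h2 := hH g 1
  rw [hFH, hFH, map_add] at h1
  rw [h2] at h1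
  rw [map_neg, eq_comm, ← sub_eq_zero]
  rw [← sub_eq_zero] at h1
  convert h1 using 1
  abel

end Fermat.Agent.HeckeModule
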