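import Fermat.Agent.LevelRaising.Spanning
import Fermat.Agent.HeckeModule.Ihara

/-!
Intersection classes in `H¹(Γ₀(N))` span it (integral Poincaré duality, any characteristic, when
there is no obstruction from elliptic points).
-/

set_option autoImplicit false

open CongruenceSubgroup
open scoped MatrixGroups

universe uO

namespace Fermat.Agent.HeckeModule

open LevelRaising
open EichlerShimura (transfer transfer_mul)

lemma rhoForm_edge_ne_zero {h : Mat} (hh : h.det = 1) :
    rhoForm (act h vE) (act h (0, 1)) ≠ 0 := by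
  intro h0
  have hg := rhoForm_gram (act h vE) (act h (0, 1))
  rw [h0, crossDet_act, hh] at hg
  simp only [rhoForm] at hg
  simp [crossDet, vE] at hg
  generalize (act h (1, 0)).1 = a, (act h (1, 0)).2 = c, (act h (0, 1)).1 = b,
    (act h (0, 1)).2 = d at hg
  have e1 : 2 * a * a - a * c - c * a + 2 * c * c = 2 * (a * a - a * c + c * c) := by ring
  have e2 : 2 * b * b - b * d - d * b + 2 * d * d = 2 * (b * b - b * d + d * d) := by ring
  rw [e1, e2] at hg
  have : (2 : ℤ) ∣ 3 := ⟨(a * a - a * c + c * c) * (2 * (b * b - b * d + d * d)), by linarith⟩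
  omega

lemma side_edge {h : Mat} (hh : h.det = 1) :
    side (act h vE) (act h (0, 1)) = 1 ∨ side (act h vE) (act h (0, 1)) = -1 := by
  have h1 : crossDet (act h vE) (act h (0, 1)) * rhoForm (act h vE) (act h (0, 1)) ≠ 0 := by
    refine mul_ne_zero ?_ (rhoForm_edge_ne_zero hh)
    rw [crossDet_act, hh]
    simp [crossDet, vE]
  rcases lt_or_gt_of_ne h1 with h2 | h2
  · exact Or.inr (Int.sign_eq_neg_one_of_neg h2)
  · exact Or.inl (Int.sign_eq_one_of_pos h2)

lemma side_neg_neg (u v : Vec) : side (-u) (-v) = side u v := by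
  simp [side, crossDet, rhoForm]

lemma act_neg_mat (M : Mat) (v : Vec) : act (-M) v = -act M v := by
  simp [act, Prod.ext_iff]
  constructor <;> ring

lemma act_neg_vec (M : Mat) (v : Vec) : act M (-v) = -act M v := by
  simp [act, Prod.ext_iff]
  constructor <;> ring

variable {N : ℕ}

/-- The crossing number of a Farey edge is divisible by four. -/
theorem four_dvd_crossing_edge {g h : Mat} (hg : g.det = 1) (hh : h.det = 1) :
    (4 : ℤ) ∣ crossing (Lvl N) 1 g (act h vE) (act h (0, 1)) := by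
  set u := act h vE
  set v := act h (0, 1)
  set F := sepTerm 1 g u v
  let P : Set Mat := {x | x ∈ Lvl N ∧ (0 < x 1 1 ∨ (x 1 1 = 0 ∧ 0 < x 1 0))}
  have hrow : ∀ x ∈ Lvl N, ¬ (x 1 1 = 0 ∧ x 1 0 = 0) := fun x hx ⟨h1, h0⟩ => by
    have := hx.1
    rw [Matrix.det_fin_two, h1, h0] at this
    simp at this
  have hneg : ∀ x ∈ Lvl N, -x ∈ Lvl N := fun x hx =>
    ⟨by rw [Matrix.det_neg]; simp [hx.1], by simpa using hx.2.neg_right⟩
  have hsplit : Lvl N = P ∪ (fun x => -x) '' P := by
    refine Set.Subset.antisymm (fun x hx => ?_) ?_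
    · have := hrow x hx
      by_cases hp : 0 < x 1 1 ∨ (x 1 1 = 0 ∧ 0 < x 1 0)
      · exact Or.inl ⟨hx, hp⟩
      · refine Or.inr ⟨-x, ⟨hneg x hx, ?_⟩, neg_neg x⟩
        simp only [Matrix.neg_apply]
        omega
    · rintro x (hx | ⟨y, hy, rfl⟩)
      exacts [hx.1, hneg y hy.1]
  have hdisj : Disjoint P ((fun x => -x) '' P) := by
    refine Set.disjoint_left.mpr fun x hx => ?_
    rintro ⟨y, hy, rfl⟩
    have h1 := hx.2
    have h2 := hy.2
    simp only [Matrix.neg_apply] at h1
    omega
  have hfin : (Lvl N ∩ Function.support F).Finite :=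
    finite_support_sepTerm (by simp) (by rw [hg]; exact one_pos) u v one_ne_zero fun x hx => hx.1
  have hP : P ⊆ Lvl N := fun x hx => hx.1
  have hPneg : (fun x => -x) '' P ⊆ Lvl N := by rintro _ ⟨y, hy, rfl⟩; exact hneg y hy.1
  have hsum : crossing (Lvl N) 1 g u v = 2 * ∑ᶠ x ∈ P, F x := by
    rw [crossing]
    conv_lhs => rw [hsplit]
    rw [finsum_mem_union' hdisj (hfin.subset (Set.inter_subset_inter_left _ hP))
      (hfin.subset (Set.inter_subset_inter_left _ hPneg)),
      finsum_mem_image fun a _ b _ e => neg_injective e, two_mul]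
    refine congrArg₂ (· + ·) rfl (finsum_mem_congr rfl fun x _ => ?_)
    simp only [F, sepTerm, act_neg_mat, act_neg_vec, side_neg_neg]
  rw [hsum, show (4 : ℤ) = 2 * 2 by norm_num]
  refine mul_dvd_mul_left 2 ?_
  refine finsum_mem_induction (fun n : ℤ => (2 : ℤ) ∣ n) (dvd_zero _) (fun _ _ => dvd_add) ?_
  intro x hx
  have e1 : side (act g (act x u)) (act g (act x v)) = 1 ∨
      side (act g (act x u)) (act g (act x v)) = -1 := by
    simp only [u, v, ← act_mul]
    exact side_edge (by rw [Matrix.det_mul, Matrix.det_mul, hg, hx.1.1, hh]; norm_num)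
  have e2 : side (act 1 (act x u)) (act 1 (act x v)) = 1 ∨
      side (act 1 (act x u)) (act 1 (act x v)) = -1 := by
    simp only [u, v, ← act_mul]
    exact side_edge (by rw [Matrix.det_mul, Matrix.det_mul, hx.1.1, hh]; simp)
  show (2 : ℤ) ∣ side _ _ - side _ _
  omega

lemma edgeRep_det {N : ℕ} (j : EdgeIdx N) : (edgeRep j).det = 1 :=
  Matrix.SpecialLinearGroup.det_coe _

theorem four_dvd_inter [NeZero N] {γ : Mat} (hγ : γ ∈ Lvl N) (v : Vec) :
    (4 : ℤ) ∣ inter N γ v := by
  have hG : IsSym N ((Int.castAddHom (ZMod 4)) ∘ inter N γ) := (isSym_inter hγ).map _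
  have h0 := eq_zero_of_edgeVal hG fun j => by
    have h1 := inter_pair hγ (u := act (edgeRep j) vE) (v := act (edgeRep j) (0, 1))
      (act_ne_zero (by rw [edgeRep_det]; exact one_ne_zero) vE_ne_zero)
      (act_ne_zero (by rw [edgeRep_det]; exact one_ne_zero) (by simp [Prod.ext_iff]))
    have h2 := four_dvd_crossing_edge (N := N) (g := γ.adjugate) (h := edgeRep j)
      (adjugate_mem_detLevel hγ).1 (edgeRep_det j)
    rw [h1] at h2
    simp only [edgeVal, Function.comp_apply, Int.coe_castAddHom, ← Int.cast_sub]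
    exact (ZMod.intCast_zmod_eq_zero_iff_dvd _ 4).mpr h2
  exact (ZMod.intCast_zmod_eq_zero_iff_dvd _ 4).mp (congrFun h0 v)

/-- The intersection number: a quarter of `inter`. -/
noncomputable def quarterInter (N : ℕ) (γ : Mat) (v : Vec) : ℤ := inter N γ v / 4

lemma four_mul_quarterInter [NeZero N] {γ : Mat} (hγ : γ ∈ Lvl N) (v : Vec) :
    4 * quarterInter N γ v = inter N γ v :=
  Int.mul_ediv_cancel' (four_dvd_inter hγ v)

lemma coe_mem_lvl (γ : Gamma0 N) : ((γ : SL(2, ℤ)) : Mat) ∈ Lvl N :=
  (LevelRaising.mem_Gamma0_iff _).mp γ.2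

variable (O : Type uO) [CommRing O] [NeZero N]

/-- The intersection class attached to a cusp. -/
noncomputable def interCocycle (v : Vec) : Cocycle (trivRep N O O) :=
  ⟨fun γ => (quarterInter N ((γ : SL(2, ℤ)) : Mat) v : ℤ), fun γ δ => by
    show ((quarterInter N (((γ * δ : Gamma0 N) : SL(2, ℤ)) : Mat) v : ℤ) : O)
      = (quarterInter N ((γ : SL(2, ℤ)) : Mat) v : ℤ) + (quarterInter N ((δ : SL(2, ℤ)) : Mat) v : ℤ)
    rw [← Int.cast_add]
    congr 1
    refine mul_left_cancel₀ (show (4 : ℤ) ≠ 0 by norm_num) ?_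
    rw [mul_add, four_mul_quarterInter (coe_mem_lvl _), four_mul_quarterInter (coe_mem_lvl _),
      four_mul_quarterInter (coe_mem_lvl _), Subgroup.coe_mul, Matrix.SpecialLinearGroup.coe_mul,
      inter_mul (coe_mem_lvl _) (coe_mem_lvl _)],
    fun k hk => by
      rw [Set.mem_singleton_iff] at hk
      subst hk
      show ((quarterInter N (((negOne N : Gamma0 N) : SL(2, ℤ)) : Mat) v : ℤ) : O) = 0
      have h1 := inter_mul (coe_mem_lvl (negOne N)) (coe_mem_lvl (negOne N)) v
      rw [← Matrix.SpecialLinearGroup.coe_mul, ← Subgroup.coe_mul,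
        show negOne N * negOne N = 1 from Subtype.ext (by simp [negOne])] at h1
      have h2 : inter N (1 : Mat) v = 0 := by
        have := inter_mul (one_mem_lvl N) (one_mem_lvl N) v
        rw [one_mul] at this
        linarith
      rw [Subgroup.coe_one, Matrix.SpecialLinearGroup.coe_one, h2] at h1
      have h3 := four_mul_quarterInter (coe_mem_lvl (negOne N)) v
      rw [show quarterInter N _ v = 0 by omega, Int.cast_zero]⟩

lemma interCocycle_apply (v : Vec) (γ : Gamma0 N) :
    (interCocycle O v).1 γ = (quarterInter N ((γ : SL(2, ℤ)) : Mat) v : ℤ) := rfl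

/-- The intersection class. -/
noncomputable def interClass (v : Vec) : Coh1 (trivRep N O O) :=
  toCoh _ (interCocycle O v)

section Potential

variable {X : Type*} (e : X → X) {A : Type*} [AddCommGroup A] [Module O A]

omit [NeZero N] in
theorem exists_potential_three (he : ∀ x, e (e (e x)) = x) (a : X → A)
    (ha : ∀ x, a x + a (e x) + a (e (e x)) = 0) (h : IsUnit (3 : O) ∨ ∀ x, e x ≠ x) :
    ∃ ψ : X → A, ∀ x, ψ x - ψ (e x) = a x := by
  classical
  rcases h with ⟨u, hu⟩ | h
  · refine ⟨fun x => (↑u⁻¹ : O) • ((2 : O) • a x + a (e x)), fun x => ?_⟩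
    have h1 : a (e (e x)) = -(a x) - a (e x) := by linear_combination (norm := abel) ha x
    have h2 : (2 : O) • a x + a (e x) - ((2 : O) • a (e x) + a (e (e x))) = (3 : O) • a x := by
      rw [h1, show (3 : O) = 2 + 1 by norm_num, add_smul, one_smul, two_smul O (a (e x))]
      abel
    rw [← smul_sub, h2, ← hu, smul_smul, Units.inv_mul, one_smul]
  · let : LinearOrder X := IsWellOrder.linearOrder WellOrderingRel
    let ψ : X → A := fun x =>
      if x < e x ∧ x < e (e x) then 0 else if e x < x ∧ e x < e (e x) then a x else -a (e (e x))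
    refine ⟨ψ, fun x => ?_⟩
    have d0 : e x ≠ x := h x
    have d1 : e (e x) ≠ e x := h (e x)
    have d2 : e (e x) ≠ x := fun h' => h x ((congrArg e h').symm.trans (he x))
    have h1 : a (e (e x)) = -(a x) - a (e x) := by linear_combination (norm := abel) ha x
    rcases lt_or_gt_of_ne d0 with p | p <;> rcases lt_or_gt_of_ne d2 with q | q <;>
      rcases lt_or_gt_of_ne d1 with r | r
    all_goals first
      | (exfalso; order)
      | (simp [ψ, he, p, q, r, p.not_gt, q.not_gt, r.not_gt, h1]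
         try module)

omit [NeZero N] in
theorem exists_potential_two (he : ∀ x, e (e x) = x) (a : X → A)
    (ha : ∀ x, a x + a (e x) = 0) (h : IsUnit (2 : O) ∨ ∀ x, e x ≠ x) :
    ∃ w : X → A, ∀ x, w x - w (e x) = a x := by
  classical
  rcases h with ⟨u, hu⟩ | h
  · refine ⟨fun x => (↑u⁻¹ : O) • a x, fun x => ?_⟩
    have h1 : a (e x) = -a x := eq_neg_of_add_eq_zero_right (ha x)
    show (↑u⁻¹ : O) • a x - (↑u⁻¹ : O) • a (e x) = a x
    rw [← smul_sub, h1, sub_neg_eq_add, ← two_smul O (a x), ← hu, smul_smul, Units.inv_mul,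
      one_smul]
  · let : LinearOrder X := IsWellOrder.linearOrder WellOrderingRel
    refine ⟨fun x => if x < e x then a x else 0, fun x => ?_⟩
    rcases lt_or_gt_of_ne (h x) with p | p
    · simp only [he, if_neg p.not_gt, if_pos p, zero_sub]
      exact (eq_neg_of_add_eq_zero_left (ha x)).symm
    · simp only [he, if_neg p.not_gt, if_pos p, sub_zero]

end Potential

/-- The crossing number of the `j`-th edge seen from `g`. -/
noncomputable def edgeCross (g : SL(2, ℤ)) (j : EdgeIdx N) : ℤ :=
  crossing (Lvl N) 1 (g : Mat).adjugate (act (edgeRep j) vE) (act (edgeRep j) (0, 1)) / 4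

omit [NeZero N] in
lemma four_mul_edgeCross (g : SL(2, ℤ)) (j : EdgeIdx N) :
    4 * edgeCross g j =
      crossing (Lvl N) 1 (g : Mat).adjugate (act (edgeRep j) vE) (act (edgeRep j) (0, 1)) :=
  Int.mul_ediv_cancel' (four_dvd_crossing_edge
    (by rw [Matrix.det_adjugate, g.det_coe]; simp) (edgeRep_det j))

lemma edgeCross_mul_left (γ : Gamma0 N) (g : SL(2, ℤ)) (j : EdgeIdx N) :
    edgeCross ((γ : SL(2, ℤ)) * g) j = edgeCross g j +
      (quarterInter N ((γ : SL(2, ℤ)) : Mat) (act (edgeRep j) (0, 1))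
        - quarterInter N ((γ : SL(2, ℤ)) : Mat) (act (edgeRep j) vE)) := by
  refine mul_left_cancel₀ (show (4 : ℤ) ≠ 0 by norm_num) ?_
  have hγ := coe_mem_lvl γ
  rw [mul_add, mul_sub, four_mul_edgeCross, four_mul_edgeCross, four_mul_quarterInter hγ,
    four_mul_quarterInter hγ, Matrix.SpecialLinearGroup.coe_mul, Matrix.adjugate_mul_distrib,
    crossing_trans (g' := ((γ : SL(2, ℤ)) : Mat).adjugate) (by simp) (det_adjugate_pos hγ)
      (by rw [Matrix.det_mul, Matrix.det_adjugate, Matrix.det_adjugate]; simp)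
      one_ne_zero (fun x hx => hx.1),
    inter_pair hγ (act_ne_zero (by rw [edgeRep_det]; exact one_ne_zero) vE_ne_zero)
      (act_ne_zero (by rw [edgeRep_det]; exact one_ne_zero) (by simp [Prod.ext_iff]))]
  have e := crossing_mul_right (adjugate_mem_detLevel hγ) (r := 1) 1 (g : Mat).adjugate
    (act (edgeRep j) vE) (act (edgeRep j) (0, 1))
  rw [one_mul] at e
  rw [e]
  ring

lemma coe_elV : (elV : Mat) = tauMat := by
  ext i j
  fin_cases i <;> fin_cases j <;>
    simp [elV, tauMat, ModularGroup.S, ModularGroup.T, Matrix.mul_apply, Fin.sum_univ_two]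

lemma coe_S : ((ModularGroup.S : SL(2, ℤ)) : Mat) = sMat := by
  ext i j
  fin_cases i <;> fin_cases j <;> simp [sMat, ModularGroup.S]

omit [NeZero N] in
lemma edgeCross_elV (g : SL(2, ℤ)) (j : EdgeIdx N) : edgeCross (g * elV) j = edgeCross g j := by
  rw [edgeCross, edgeCross, Matrix.SpecialLinearGroup.coe_mul, coe_elV, crossing_tauMat]

/-- The coset of an element. -/
noncomputable def edgeOf (g : SL(2, ℤ)) : EdgeIdx N := (g⁻¹ : SL(2, ℤ))

omit [NeZero N] in
lemma mul_out_edgeOf_mem (g : SL(2, ℤ)) : g * (edgeOf (N := N) g).out ∈ Gamma0 N := by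
  obtain ⟨h, hh⟩ := QuotientGroup.mk_out_eq_mul (Gamma0 N) g⁻¹
  show g * Quotient.out ((g⁻¹ : SL(2, ℤ)) : EdgeIdx N) ∈ _
  rw [hh, ← mul_assoc, mul_inv_cancel, one_mul]
  exact h.2

omit [NeZero N] in
open Classical in
lemma edgeCross_S (g : SL(2, ℤ)) (j : EdgeIdx N) :
    edgeCross (g * ModularGroup.S) j - edgeCross g j =
      (if edgeOf g = j then 1 else 0) - (if edgeOf (g * ModularGroup.S) = j then 1 else 0) := by
  classical
  refine mul_left_cancel₀ (show (4 : ℤ) ≠ 0 by norm_num) ?_
  rw [mul_sub, four_mul_edgeCross, four_mul_edgeCross, Matrix.SpecialLinearGroup.coe_mul, coe_S,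
    Matrix.adjugate_mul_distrib]
  have hg : (g : Mat) ∈ Lvl 1 := mem_lvl_one.mpr g.det_coe
  have hga := adjugate_mem_detLevel hg
  have hX : ∀ x ∈ Lvl N, x.det = 1 := fun x hx => hx.1
  have hd : 0 < (sMat.adjugate * (g : Mat).adjugate).det := by
    rw [Matrix.det_mul, Matrix.det_adjugate, Matrix.det_adjugate]
    simp [sMat]
  have hd' : 0 < (g : Mat).adjugate.det := by rw [Matrix.det_adjugate]; simp
  rw [crossing_trans (g' := (g : Mat).adjugate) (by simp) hd' hd one_ne_zero hX,
    add_sub_cancel_left, crossing]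
  let z : Mat → Mat := fun h => (g : Mat) * h * (edgeRep j).adjugate
  have hz : ∀ h, (g : Mat).adjugate * z h * edgeRep j = h := fun h => by
    simp only [z, ← mul_assoc, adjugate_mul_lvl hg, one_mul]
    rw [mul_assoc, Matrix.adjugate_mul, edgeRep_det, one_smul, mul_one]
  have hterm : ∀ y, sepTerm (g : Mat).adjugate (sMat.adjugate * (g : Mat).adjugate)
      (act (edgeRep j) vE) (act (edgeRep j) (0, 1)) y
      = sepTerm 1 sMat.adjugate vE (0, 1) ((g : Mat).adjugate * y * edgeRep j) := fun y => by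
    simp only [sepTerm, act_mul, act_one]
  have hmem : ∀ k : SL(2, ℤ), z (k : Mat) ∈ Lvl N ↔ edgeOf (N := N) (g * k) = j := by
    intro k
    have hzk : z (k : Mat) = ((g * k * j.out : SL(2, ℤ)) : Mat) := by
      simp only [z, edgeRep, Matrix.SpecialLinearGroup.coe_mul, ← Matrix.SpecialLinearGroup.coe_inv,
        inv_inv]
    rw [hzk, ← LevelRaising.mem_Gamma0_iff]
    constructor
    · intro h
      rw [edgeOf, ← QuotientGroup.out_eq' j, QuotientGroup.eq, inv_inv]
      exact h
    · rintro rfl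
      exact mul_out_edgeOf_mem _
  let T : Finset Mat := {1, -1, sMat, -sMat}
  have hzinj : Function.Injective z := fun a b e => by rw [← hz a, e, hz b]
  rw [finsum_mem_eq_sum_of_inter_support_eq _ (t := (T.filter fun k => z k ∈ Lvl N).image z)]
  · rw [Finset.sum_image fun a _ b _ e => hzinj e, Finset.sum_filter]
    simp only [hterm, hz]
    have m1 : z 1 ∈ Lvl N ↔ edgeOf (N := N) g = j := by simpa using hmem 1
    have m3 : z sMat ∈ Lvl N ↔ edgeOf (N := N) (g * ModularGroup.S) = j := by
      rw [← coe_S]; exact hmem _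
    have hzneg : ∀ k, z (-k) = -z k := fun k => by simp [z]
    have hnegmem : ∀ y : Mat, -y ∈ Lvl N ↔ y ∈ Lvl N := fun y => by
      simp [mem_detLevel, Matrix.det_neg]
    rw [Finset.sum_insert, Finset.sum_insert, Finset.sum_insert, Finset.sum_singleton,
      show sepTerm 1 sMat.adjugate vE (0, 1) 1 = 2 by decide,
      show sepTerm 1 sMat.adjugate vE (0, 1) (-1) = 2 by decide,
      show sepTerm 1 sMat.adjugate vE (0, 1) sMat = -2 by decide,
      show sepTerm 1 sMat.adjugate vE (0, 1) (-sMat) = -2 by decide]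
    · simp only [hzneg, hnegmem, m1, m3]
      split_ifs <;> ring
    · simp only [Finset.mem_singleton]; decide
    · simp only [Finset.mem_insert, Finset.mem_singleton, not_or]; decide
    · simp only [Finset.mem_insert, Finset.mem_singleton, not_or]; decide
  · ext y
    simp only [Set.mem_inter_iff, Function.mem_support, Finset.coe_image, Finset.coe_filter,
      Set.mem_image, Set.mem_ofPred_eq]
    constructor
    · rintro ⟨hy, hne⟩
      refine ⟨⟨(g : Mat).adjugate * y * edgeRep j, ⟨?_, ?_⟩, ?_⟩, hne⟩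
      · rw [hterm] at hne
        have hdet : ((g : Mat).adjugate * y * edgeRep j).det = 1 := by
          rw [Matrix.det_mul, Matrix.det_mul, hy.1, edgeRep_det, Matrix.det_adjugate]
          simp
        rcases eq_of_separates hdet hne with h | h | h | h <;> simp [T, h]
      all_goals
        have hyz : z ((g : Mat).adjugate * y * edgeRep j) = y := by
          simp only [z, ← mul_assoc, mul_adjugate_lvl hg, one_mul]
          rw [mul_assoc, Matrix.mul_adjugate, edgeRep_det, one_smul, mul_one]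
      · rw [hyz]; exact hy
      · exact hyz
    · rintro ⟨⟨k, ⟨-, hk⟩, rfl⟩, hne⟩
      exact ⟨hk, hne⟩

/-- The weighted intersection cocycles exhaust `H¹`. -/
theorem span_interClass (hN : Liftable O N) :
    Submodule.span O (Set.range fun v => interClass (N := N) O v) = ⊤ := by
  classical
  rw [eq_top_iff]
  intro u _
  obtain ⟨c, rfl⟩ := toCoh_surjective _ u
  have hc := cocycle_trivial_mul _ (fun _ => rfl) c
  have hc1 : c.1 1 = 0 := by
    have h := hc 1 1
    rwa [mul_one, left_eq_add] at h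
  have hcn : c.1 (negOne N) = 0 := c.2.2 _ rfl
  have heV : ∀ x : EdgeIdx N, elV • elV • elV • x = x := fun x => by
    rw [smul_smul, smul_smul, elV_cube, EichlerShimura.neg_one_smul_coset]
  let e : EdgeIdx N → EdgeIdx N := fun j => elV⁻¹ • j
  have he : ∀ x, e (e (e x)) = x := fun x => by
    show elV⁻¹ • elV⁻¹ • elV⁻¹ • x = x
    conv_lhs => rw [← heV x]
    simp only [inv_smul_smul]
  obtain ⟨ψ, hψ⟩ := exists_potential_three O e he (fun j => c.1 (transfer elV (e j)))
    (fun x => by
      have h1 : transfer elV (e x) * transfer elV (e (e x)) * transfer elV (e (e (e x)))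
          = negOne N := by
        rw [← transfer_neg_one (e (e (e x))), ← elV_cube, transfer_mul, transfer_mul]
        simp only [e, smul_inv_smul]
      rw [← hc, ← hc, h1, hcn])
    (hN.2.imp_right fun h x hx => h x (by
      conv_lhs => rw [← hx]
      exact smul_inv_smul _ _))
  let Φ : SL(2, ℤ) → O := fun g => c.1 ⟨_, mul_out_edgeOf_mem (N := N) g⟩ + ψ (edgeOf g)
  have hΦl : ∀ (γ : Gamma0 N) (g : SL(2, ℤ)), Φ ((γ : SL(2, ℤ)) * g) = c.1 γ + Φ g := by
    intro γ g
    have h1 : edgeOf (N := N) ((γ : SL(2, ℤ)) * g) = edgeOf g := by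
      rw [edgeOf, edgeOf, QuotientGroup.eq, inv_inv, mul_assoc, mul_inv_cancel, mul_one]
      exact γ.2
    have h2 : (⟨_, mul_out_edgeOf_mem (N := N) ((γ : SL(2, ℤ)) * g)⟩ : Gamma0 N)
        = γ * ⟨_, mul_out_edgeOf_mem (N := N) g⟩ :=
      Subtype.ext (by simp only [Subgroup.coe_mul, h1, mul_assoc])
    show c.1 _ + ψ _ = _
    rw [h2, hc, h1, add_assoc]
  have hΦV : ∀ g, Φ (g * elV) = Φ g := by
    intro g
    have h1 : edgeOf (N := N) (g * elV) = e (edgeOf g) := by
      rw [edgeOf, mul_inv_rev]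
      rfl
    have h2 : (⟨_, mul_out_edgeOf_mem (N := N) (g * elV)⟩ : Gamma0 N)
        = ⟨_, mul_out_edgeOf_mem (N := N) g⟩ * transfer elV (e (edgeOf g)) := by
      refine Subtype.ext ?_
      simp only [Subgroup.coe_mul, h1, transfer, EichlerShimura.rep, e, smul_inv_smul]
      group
    show c.1 _ + ψ _ = c.1 _ + ψ _
    rw [h2, hc, h1]
    linear_combination -hψ (edgeOf g)
  have hneg : ∀ g : SL(2, ℤ), Φ (-g) = Φ g := fun g => by
    have := hΦl (negOne N) g
    rw [hcn, zero_add] at this
    simpa [negOne] using this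
  let u : EdgeIdx N → O := fun j => Φ (j.out⁻¹ * ModularGroup.S) - Φ j.out⁻¹
  have hu : ∀ g, Φ (g * ModularGroup.S) - Φ g = u (edgeOf g) := by
    intro g
    let γ : Gamma0 N := ⟨_, mul_out_edgeOf_mem (N := N) g⟩
    have hg : g = (γ : SL(2, ℤ)) * (edgeOf (N := N) g).out⁻¹ := (mul_inv_cancel_right _ _).symm
    conv_lhs => rw [hg, mul_assoc, hΦl, hΦl]
    show _ = Φ _ - Φ _
    ring
  have hedge : ∀ j : EdgeIdx N, edgeOf (N := N) j.out⁻¹ = j := fun j => by
    rw [edgeOf, inv_inv, QuotientGroup.out_eq']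
  let f : EdgeIdx N → EdgeIdx N := fun j => ModularGroup.S⁻¹ • j
  have hf : ∀ g, edgeOf (N := N) (g * ModularGroup.S) = f (edgeOf g) := fun g => by
    rw [edgeOf, mul_inv_rev]
    rfl
  obtain ⟨w, hw⟩ := exists_potential_two O f
    (fun x => by
      show ModularGroup.S⁻¹ • ModularGroup.S⁻¹ • x = x
      conv_lhs => rw [← EichlerShimura.S_smul_S_smul x]
      simp only [inv_smul_smul])
    u (fun x => by
      conv_lhs => rw [← hedge x, ← hf, ← hu, ← hu, mul_assoc, S_sq_eq, mul_neg_one, hneg]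
      ring)
    (hN.1.imp_right fun h x hx => h x (by
      conv_lhs => rw [← hx]
      exact smul_inv_smul _ _))
  let Ψ : SL(2, ℤ) → O := fun g => ∑ j, w j * (edgeCross g j : ℤ)
  have hΔS : ∀ g, Ψ (g * ModularGroup.S) - Ψ g = Φ (g * ModularGroup.S) - Φ g := by
    intro g
    rw [hu, ← hw (edgeOf g), ← hf]
    simp only [Ψ, ← Finset.sum_sub_distrib, ← mul_sub, ← Int.cast_sub, edgeCross_S]
    simp [mul_sub, Finset.sum_sub_distrib]
  let K : Subgroup SL(2, ℤ) :=
    { carrier := {h | ∀ g, Ψ (g * h) - Φ (g * h) = Ψ g - Φ g}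
      one_mem' := fun g => by rw [mul_one]
      mul_mem' := fun {a b} ha hb g => by rw [← mul_assoc, hb, ha]
      inv_mem' := fun {a} ha g => by
        have := ha (g * a⁻¹)
        rw [inv_mul_cancel_right] at this
        exact this.symm }
  have hK : K = ⊤ := by
    rw [eq_top_iff, ← closure_S_elV, Subgroup.closure_le]
    rintro h (rfl | rfl) g
    · linear_combination hΔS g
    · simp only [Ψ, edgeCross_elV, hΦV]
  have hmain : ∀ γ : Gamma0 N, c.1 γ = ∑ j, w j *
      ((quarterInter N ((γ : SL(2, ℤ)) : Mat) (act (edgeRep j) (0, 1)) : O)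
        - (quarterInter N ((γ : SL(2, ℤ)) : Mat) (act (edgeRep j) vE) : O)) := by
    intro γ
    have h1 := (hK.symm ▸ Subgroup.mem_top (γ : SL(2, ℤ)) : (γ : SL(2, ℤ)) ∈ K) 1
    rw [one_mul] at h1
    have h2 := hΦl γ 1
    have h3 : Ψ ((γ : SL(2, ℤ))) = Ψ 1 + ∑ j, w j *
        ((quarterInter N ((γ : SL(2, ℤ)) : Mat) (act (edgeRep j) (0, 1)) : O)
          - (quarterInter N ((γ : SL(2, ℤ)) : Mat) (act (edgeRep j) vE) : O)) := by
      simp only [Ψ, ← Finset.sum_add_distrib]
      refine Finset.sum_congr rfl fun j _ => ?_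
      have := edgeCross_mul_left γ 1 j
      rw [mul_one] at this
      rw [this]
      push_cast
      ring
    rw [mul_one] at h2
    linear_combination -h2 - h1 + h3
  have hrepr : c = ∑ j, w j • (interCocycle (N := N) O (act (edgeRep j) (0, 1))
      - interCocycle O (act (edgeRep j) vE)) := by
    refine Subtype.ext (funext fun γ => ?_)
    rw [hmain]
    simp [interCocycle_apply]
  rw [hrepr, map_sum]
  refine Submodule.sum_mem _ fun j _ => ?_
  rw [map_smul, map_sub]
  exact Submodule.smul_mem _ _ (sub_mem (Submodule.subset_span ⟨_, rfl⟩) (Submodule.subset_span ⟨_, rfl⟩))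

end Fermat.Agent.HeckeModule
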