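import Mathlib.Data.ZMod.Units
import Mathlib.RingTheory.Adjoin.Polynomial.Basic
import Fermat.Agent.HeckeJ0.Reps
import Fermat.Agent.HeckeModule.Core

/-!
`H¹(Γ₀(N), A)` for a module `A` with an action of `(ℤ/N)ˣ`, with its Hecke operators.
-/

set_option autoImplicit false

open CongruenceSubgroup Matrix.SpecialLinearGroup
open scoped MatrixGroups OnePoint

universe uO uA uB

namespace Fermat.Agent.HeckeModule

open HeckeJ0

variable {N : ℕ}

/-- The lower right entry, as a unit. -/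
noncomputable def dUnit (N : ℕ) : Gamma0 N →* (ZMod N)ˣ := (Gamma0Map N).toHomUnits

lemma coe_dUnit (γ : Gamma0 N) :
    ((dUnit N γ : (ZMod N)ˣ) : ZMod N) = (((γ : SL(2, ℤ)) 1 1 : ℤ) : ZMod N) := by
  rw [dUnit, MonoidHom.coe_toHomUnits]
  rfl

lemma gamma0_diag (γ : Gamma0 N) :
    (((γ : SL(2, ℤ)) 0 0 : ℤ) : ZMod N) * ((dUnit N γ : (ZMod N)ˣ) : ZMod N) = 1 := by
  have h := congrArg (Int.cast : ℤ → ZMod N) (γ : SL(2, ℤ)).det_coe
  rw [Matrix.det_fin_two] at h
  push_cast at h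
  rw [coe_dUnit]
  linear_combination h + (((γ : SL(2, ℤ)) 0 1 : ℤ) : ZMod N) * Gamma0_mem.mp γ.2

/-- The embedding in `GL₂(ℝ)`. -/
noncomputable def toGL (N : ℕ) : Gamma0 N →* GL (Fin 2) ℝ := (mapGL ℝ).comp (Gamma0 N).subtype

lemma toGL_apply (γ : Gamma0 N) : toGL N γ = mapGL ℝ (γ : SL(2, ℤ)) := rfl

lemma toGL_injective : Function.Injective (toGL N) := mapGL_Gamma0_injective

/-- The element `-1`. -/
def negOne (N : ℕ) : Gamma0 N := ⟨-1, by rw [Gamma0_mem]; simp⟩

variable {O : Type uO} [CommRing O] {A : Type uA} [AddCommGroup A] [Module O A]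
  {B : Type uB} [AddCommGroup B] [Module O B]

/-- The representation of `Γ₀(N)` attached to a representation of `(ℤ/N)ˣ`. -/
noncomputable def gammaRep (ρ : Representation O (ZMod N)ˣ A) : Representation O (Gamma0 N) A :=
  ρ.comp (dUnit N)

@[simp] lemma gammaRep_apply (ρ : Representation O (ZMod N)ˣ A) (γ : Gamma0 N) :
    gammaRep ρ γ = ρ (dUnit N γ) := rfl

/-- The cohomology group `H¹(Γ₀(N), A)` (classes vanishing at `-1`). -/
def Coh1 (ρ : Representation O (ZMod N)ˣ A) : Type _ := H1 (gammaRep ρ) {negOne N}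

noncomputable instance (ρ : Representation O (ZMod N)ˣ A) : AddCommGroup (Coh1 ρ) :=
  inferInstanceAs (AddCommGroup (H1 (gammaRep ρ) {negOne N}))

noncomputable instance (ρ : Representation O (ZMod N)ˣ A) : Module O (Coh1 ρ) :=
  inferInstanceAs (Module O (H1 (gammaRep ρ) {negOne N}))

/-- The cocycles. -/
noncomputable abbrev Cocycle (ρ : Representation O (ZMod N)ˣ A) := cocycles (gammaRep ρ) {negOne N}

/-- The class map. -/
noncomputable def toCoh (ρ : Representation O (ZMod N)ˣ A) : Cocycle ρ →ₗ[O] Coh1 ρ :=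
  cls (gammaRep ρ) {negOne N}

lemma toCoh_surjective (ρ : Representation O (ZMod N)ˣ A) : Function.Surjective (toCoh ρ) :=
  cls_surjective _ _

section Hecke

variable {ℓ : ℕ} [Fact ℓ.Prime]

open Classical in
/-- The unit modulo `N` given by the upper left entry of a representative. -/
noncomputable def aUnit (x : Idx N ℓ) : (ZMod N)ˣ :=
  if h : x.1 = ∞ then
    ZMod.unitOfCoprime ℓ ((Nat.Prime.coprime_iff_not_dvd Fact.out).mpr fun hN => x.2 hN h)
  else 1

lemma coe_aUnit (x : Idx N ℓ) {a b d : ℕ} (h : IsTri (rep x) a b d) :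
    ((aUnit x : (ZMod N)ˣ) : ZMod N) = a := by
  unfold IsTri at h
  rcases rep_cases x with ⟨j, hj, h'⟩ | ⟨hj, -, h'⟩ <;> unfold IsTri at h' <;> rw [h'] at h <;>
    have h00 := congrFun (congrFun h 0) 0 <;> simp at h00
  · obtain rfl : a = 1 := by exact_mod_cast h00.symm
    rw [aUnit, dif_neg (by rw [hj]; exact OnePoint.coe_ne_infty j)]
    simp
  · subst h00
    rw [aUnit, dif_pos hj]
    simp [ZMod.coe_unitOfCoprime]

omit [Fact ℓ.Prime] in
lemma isTri_compat {S T : GL (Fin 2) ℝ} {a b d a' b' d' : ℕ} (hS : IsTri S a b d)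
    (hT : IsTri T a' b' d') {γ g : Gamma0 N}
    (h : S * toGL N γ = toGL N g * T) :
    (a : ZMod N) * (dUnit N g : (ZMod N)ˣ) = (dUnit N γ : (ZMod N)ˣ) * (a' : ZMod N) := by
  have e : ((S * toGL N γ : GL (Fin 2) ℝ) : Matrix (Fin 2) (Fin 2) ℝ) 0 0
      = ((toGL N g * T : GL (Fin 2) ℝ) : Matrix (Fin 2) (Fin 2) ℝ) 0 0 := by rw [h]
  unfold IsTri at hS hT
  rw [Units.val_mul, Units.val_mul, hS, hT, Matrix.mul_apply, Matrix.mul_apply, Fin.sum_univ_two,
    Fin.sum_univ_two, toGL_apply, toGL_apply, val_mapGL_apply, val_mapGL_apply, val_mapGL_apply,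
    val_mapGL_apply] at e
  simp at e
  have e' : (a : ℤ) * (γ : SL(2, ℤ)) 0 0 + (b : ℤ) * (γ : SL(2, ℤ)) 1 0
      = (g : SL(2, ℤ)) 0 0 * (a' : ℤ) := by exact_mod_cast e
  have e'' := congrArg (Int.cast : ℤ → ZMod N) e'
  push_cast at e''
  rw [Gamma0_mem.mp γ.2, mul_zero, add_zero] at e''
  linear_combination ((dUnit N g : (ZMod N)ˣ) : ZMod N) * (dUnit N γ : (ZMod N)ˣ) * e''
    - (a : ZMod N) * (dUnit N g : (ZMod N)ˣ) * gamma0_diag γ
    + (a' : ZMod N) * (dUnit N γ : (ZMod N)ˣ) * gamma0_diag g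

lemma exists_isTri (x : Idx N ℓ) : ∃ a b d : ℕ, IsTri (rep x) a b d := by
  rcases rep_cases x with ⟨j, -, h⟩ | ⟨-, -, h⟩
  exacts [⟨_, _, _, h⟩, ⟨_, _, _, h⟩]

/-- The double coset data of the `ℓ`-th Hecke operator. -/
noncomputable def heckeData (ρ : Representation O (ZMod N)ˣ A) (ℓ : ℕ) [Fact ℓ.Prime] :
    Data (toGL N) (toGL N) (gammaRep ρ) (gammaRep ρ) {negOne N} {negOne N} (Idx N ℓ) where
  α := rep
  ε x := ρ (aUnit x)
  exists_mul x γ := ⟨_, _, rep_mul x γ⟩
  unique x y g h := rep_unique (g : SL(2, ℤ)) h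
  compat x y γ g h := by
    obtain ⟨a, b, d, hx⟩ := exists_isTri x
    obtain ⟨a', b', d', hy⟩ := exists_isTri y
    have key : aUnit x * dUnit N g = dUnit N γ * aUnit y := by
      refine Units.ext ?_
      rw [Units.val_mul, Units.val_mul, coe_aUnit x hx, coe_aUnit y hy]
      exact isTri_compat hx hy h
    rw [gammaRep_apply, gammaRep_apply, ← Module.End.mul_eq_comp, ← Module.End.mul_eq_comp,
      ← map_mul, ← map_mul, key]
  triv x y k g hk h := by
    rw [Set.mem_singleton_iff] at hk ⊢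
    subst hk
    have hneg : toGL N (negOne N) = -1 := by
      ext a b
      rw [toGL_apply, val_mapGL_apply, Units.val_neg, Units.val_one]
      fin_cases a <;> fin_cases b <;> simp [negOne]
    have h' : rep x * toGL N (negOne N) = toGL N (negOne N) * rep x := by
      rw [hneg, neg_one_mul, mul_neg_one]
    obtain ⟨hy1, hg1⟩ := perm_gOf_unique (x := x) (γ := negOne N) h'
    obtain ⟨hy2, hg2⟩ := perm_gOf_unique (x := x) (γ := negOne N) h
    rw [← hg2, hg1]

/-- The Hecke operator `T_ℓ` (or `U_ℓ` for `ℓ ∣ N`). -/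
noncomputable def heckeOp (ρ : Representation O (ZMod N)ˣ A) (ℓ : ℕ) [Fact ℓ.Prime] :
    Module.End O (Coh1 ρ) :=
  haveI : NeZero ℓ := ⟨(Fact.out : ℓ.Prime).ne_zero⟩
  (heckeData ρ ℓ).onH1 toGL_injective

lemma heckeOp_toCoh [NeZero ℓ] (ρ : Representation O (ZMod N)ˣ A) (c : Cocycle ρ) :
    heckeOp ρ ℓ (toCoh ρ c) = toCoh ρ ((heckeData ρ ℓ).onCocycles toGL_injective c) := rfl

theorem heckeOp_comm (ρ : Representation O (ZMod N)ˣ A) (m : ℕ) [Fact m.Prime] :
    heckeOp ρ ℓ * heckeOp ρ m = heckeOp ρ m * heckeOp ρ ℓ := by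
  have : NeZero ℓ := ⟨(Fact.out : ℓ.Prime).ne_zero⟩
  have : NeZero m := ⟨(Fact.out : m.Prime).ne_zero⟩
  rcases eq_or_ne ℓ m with h | hne
  · subst h; rfl
  refine LinearMap.ext fun u => ?_
  obtain ⟨c, rfl⟩ := toCoh_surjective ρ u
  simp only [Module.End.mul_apply, heckeOp_toCoh]
  obtain ⟨F, hF⟩ := exists_isEquivariant (toGL N) toGL_injective c
  set Dl := heckeData ρ ℓ
  set Dm := heckeData ρ m
  have hl : IsEquivariant (toGL N) (gammaRep ρ)
      (Dl.onCocycles toGL_injective (Dm.onCocycles toGL_injective c)).1 (Dl.act (Dm.act F)) :=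
    Dl.isEquivariant_act toGL_injective (Dm.isEquivariant_act toGL_injective hF)
  have hm : IsEquivariant (toGL N) (gammaRep ρ)
      (Dm.onCocycles toGL_injective (Dl.onCocycles toGL_injective c)).1 (Dm.act (Dl.act F)) :=
    Dm.isEquivariant_act toGL_injective (Dl.isEquivariant_act toGL_injective hF)
  obtain ⟨e, he⟩ := exists_swap_equiv (N := N) (ℓ := ℓ) (m := m) hne
  choose g hg using he
  refine (cls_eq_of_equivariant hm hl (∑ p : Idx N ℓ × Idx N m,
    ρ (aUnit p.1 * aUnit p.2) (c.1 (g p))) fun M => ?_).symm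
  simp only [Data.act, map_sum]
  rw [← Finset.sum_product', ← Finset.sum_product', Finset.univ_product_univ,
    Finset.univ_product_univ]
  -- both sides are sums of `ρ (a) (F (product of two representatives * M))`
  have key : ∀ p : Idx N ℓ × Idx N m,
      ρ (aUnit p.1 * aUnit p.2) (F (rep p.1 * rep p.2 * M))
        = ρ (aUnit p.1 * aUnit p.2) (c.1 (g p))
          + ρ (aUnit (e p).1 * aUnit (e p).2) (F (rep (e p).1 * rep (e p).2 * M)) := by
    intro p
    obtain ⟨a₁, b₁, d₁, h₁⟩ := exists_isTri p.1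
    obtain ⟨a₂, b₂, d₂, h₂⟩ := exists_isTri p.2
    obtain ⟨a₃, b₃, d₃, h₃⟩ := exists_isTri (e p).1
    obtain ⟨a₄, b₄, d₄, h₄⟩ := exists_isTri (e p).2
    have hu : aUnit p.1 * aUnit p.2 * dUnit N (g p) = aUnit (e p).1 * aUnit (e p).2 := by
      refine Units.ext ?_
      have hcomp := isTri_compat (h₁.mul h₂) (h₃.mul h₄) (γ := 1) (g := g p)
        (by rw [map_one, mul_one]; exact hg p)
      rw [map_one, Units.val_one, one_mul] at hcomp
      rw [Units.val_mul, Units.val_mul, Units.val_mul, coe_aUnit _ h₁, coe_aUnit _ h₂,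
        coe_aUnit _ h₃, coe_aUnit _ h₄]
      push_cast at hcomp
      exact hcomp
    rw [hg p, mul_assoc, ← toGL_apply, hF, map_add, gammaRep_apply, ← Module.End.mul_apply,
      ← map_mul, hu]
  calc ∑ p : Idx N m × Idx N ℓ, ρ (aUnit p.1) (ρ (aUnit p.2) (F (rep p.2 * (rep p.1 * M))))
      = ∑ p : Idx N ℓ × Idx N m, ρ (aUnit p.1 * aUnit p.2) (F (rep p.1 * rep p.2 * M)) := by
        refine Fintype.sum_equiv (Equiv.prodComm _ _) _ _ fun p => ?_
        rw [← Module.End.mul_apply, ← map_mul, ← mul_assoc]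
        simp only [Equiv.prodComm_apply, Prod.fst_swap, Prod.snd_swap]
        rw [mul_comm (aUnit p.1)]
    _ = (∑ p : Idx N ℓ × Idx N m, ρ (aUnit p.1 * aUnit p.2) (c.1 (g p)))
          + ∑ q : Idx N m × Idx N ℓ, ρ (aUnit q.1 * aUnit q.2) (F (rep q.1 * rep q.2 * M)) := by
        rw [Finset.sum_congr rfl (fun p _ => key p), Finset.sum_add_distrib,
          Equiv.sum_comp e fun q : Idx N m × Idx N ℓ =>
            ρ (aUnit q.1 * aUnit q.2) (F (rep q.1 * rep q.2 * M))]
    _ = _ := by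
        rw [add_comm]
        congr 1
        refine Fintype.sum_equiv (Equiv.prodComm _ _) _ _ fun q => ?_
        simp only [Equiv.prodComm_apply, Prod.fst_swap, Prod.snd_swap]
        show _ = ρ (aUnit q.2) (ρ (aUnit q.1) (F (rep q.1 * (rep q.2 * M))))
        rw [← Module.End.mul_apply, ← map_mul, ← mul_assoc, mul_comm (aUnit q.2)]

end Hecke

/-- The polynomial ring in the Hecke operators. -/
abbrev HeckePoly (O : Type uO) [CommRing O] : Type uO := MvPolynomial Nat.Primes O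

/-- The `ℓ`-th operator. -/
noncomputable def heckeGen (ρ : Representation O (ZMod N)ˣ A) (l : Nat.Primes) :
    Module.End O (Coh1 ρ) :=
  haveI : Fact (l : ℕ).Prime := ⟨l.2⟩
  heckeOp ρ l

lemma heckeGen_comm (ρ : Representation O (ZMod N)ˣ A) (l m : Nat.Primes) :
    Commute (heckeGen ρ l) (heckeGen ρ m) := by
  have : Fact (l : ℕ).Prime := ⟨l.2⟩
  have : Fact (m : ℕ).Prime := ⟨m.2⟩
  exact heckeOp_comm ρ (m : ℕ)

/-- The action of the polynomial ring. -/
noncomputable def heckeHom (ρ : Representation O (ZMod N)ˣ A) :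
    HeckePoly O →ₐ[O] Module.End O (Coh1 ρ) :=
  haveI : IsMulCommutative (Algebra.adjoin O (Set.range (heckeGen ρ))) :=
    Algebra.isMulCommutative_adjoin O fun _ hx _ hy => by
      obtain ⟨l, rfl⟩ := hx
      obtain ⟨m, rfl⟩ := hy
      exact heckeGen_comm ρ l m
  open scoped IsMulCommutative in
  (Algebra.adjoin O (Set.range (heckeGen ρ))).val.comp
    (MvPolynomial.aeval fun l => ⟨heckeGen ρ l, Algebra.subset_adjoin ⟨l, rfl⟩⟩)

lemma heckeHom_X (ρ : Representation O (ZMod N)ˣ A) (l : Nat.Primes) :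
    heckeHom ρ (MvPolynomial.X l) = heckeGen ρ l := by
  simp [heckeHom]

noncomputable instance instModuleHeckePoly (ρ : Representation O (ZMod N)ˣ A) :
    Module (HeckePoly O) (Coh1 ρ) :=
  Module.compHom _ (heckeHom ρ).toRingHom

lemma heckePoly_smul_def (ρ : Representation O (ZMod N)ˣ A) (P : HeckePoly O) (u : Coh1 ρ) :
    P • u = heckeHom ρ P u := rfl

instance (ρ : Representation O (ZMod N)ˣ A) : IsScalarTower O (HeckePoly O) (Coh1 ρ) :=
  ⟨fun r P u => by
    rw [heckePoly_smul_def, heckePoly_smul_def, map_smul, LinearMap.smul_apply]⟩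

lemma X_smul (ρ : Representation O (ZMod N)ˣ A) (ℓ : ℕ) [hℓ : Fact ℓ.Prime] (u : Coh1 ρ) :
    (MvPolynomial.X (⟨ℓ, hℓ.out⟩ : Nat.Primes) : HeckePoly O) • u = heckeOp ρ ℓ u := by
  exact LinearMap.congr_fun (heckeHom_X ρ ⟨ℓ, hℓ.out⟩) u

end Fermat.Agent.HeckeModule
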