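import Mathlib.LinearAlgebra.Dual.Lemmas
import Fermat.Agent.HeckeModule.Duality

/-!
Transfers from level `qN` to level `N`: joint surjectivity (dual form of Ihara's lemma).
-/

set_option autoImplicit false

open CongruenceSubgroup Matrix.SpecialLinearGroup
open scoped MatrixGroups OnePoint

universe uO

namespace Fermat.Agent.HeckeModule

open HeckeJ0 LevelRaising

/-- An integral matrix of nonzero determinant in `GL₂(ℝ)`. -/
noncomputable def matGL (M : Mat) (h : M.det ≠ 0) : GL (Fin 2) ℝ :=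
  Matrix.GeneralLinearGroup.mkOfDetNeZero (M.map (Int.cast : ℤ → ℝ)) (by
    rw [show M.map (Int.cast : ℤ → ℝ) = (Int.castRingHom ℝ).mapMatrix M from rfl,
      ← RingHom.map_det]
    simpa using h)

lemma val_matGL (M : Mat) (h : M.det ≠ 0) :
    ((matGL M h : GL (Fin 2) ℝ) : Matrix (Fin 2) (Fin 2) ℝ) = M.map (Int.cast : ℤ → ℝ) := rfl

lemma val_toGL {N : ℕ} (γ : Gamma0 N) :
    ((toGL N γ : GL (Fin 2) ℝ) : Matrix (Fin 2) (Fin 2) ℝ)
      = ((γ : SL(2, ℤ)) : Mat).map (Int.cast : ℤ → ℝ) := by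
  ext i j
  rw [toGL_apply, val_mapGL_apply]
  rfl

lemma map_cast_injective :
    Function.Injective fun M : Mat => M.map (Int.cast : ℤ → ℝ) :=
  fun _ _ h => Matrix.map_injective Int.cast_injective h

lemma matGL_mul_toGL_iff {N N' : ℕ} {M M' : Mat} (h : M.det ≠ 0) (h' : M'.det ≠ 0)
    (γ : Gamma0 N) (g : Gamma0 N') :
    matGL M h * toGL N γ = toGL N' g * matGL M' h' ↔
      M * ((γ : SL(2, ℤ)) : Mat) = ((g : SL(2, ℤ)) : Mat) * M' := by
  rw [Units.ext_iff, Units.val_mul, Units.val_mul, val_matGL, val_matGL, val_toGL, val_toGL,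
    ← Matrix.map_mul_intCast, ← Matrix.map_mul_intCast]
  exact map_cast_injective.eq_iff

/-- An element of `Lvl N` as an element of `Gamma0 N`. -/
def lvlElt {N : ℕ} {M : Mat} (h : M ∈ Lvl N) : Gamma0 N :=
  ⟨⟨M, h.1⟩, (LevelRaising.mem_Gamma0_iff _).mpr h⟩

section FactData

variable {N M : ℕ} {X : Set Mat} {ι : Type*} {β : ι → Mat}
  (O : Type uO) [CommRing O]

/-- Double coset data of a left factorisation, with trivial coefficients. -/
noncomputable def factData (hβ : IsFact X (Lvl M) β)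
    (hX : ∀ x ∈ X, ∀ γ ∈ Lvl N, x * γ ∈ X) :
    Data (toGL M) (toGL N) (gammaRep (trivRep M O O)) (gammaRep (trivRep N O O))
      {negOne M} {negOne N} ι where
  α i := matGL (β i) (hβ.det_ne_zero i)
  ε _ := LinearMap.id
  exists_mul x γ := by
    have hx : β x ∈ X := by simpa using hβ.mem 1 (one_mem_lvl M) x
    obtain ⟨i, y, hy, he⟩ := hβ.fact _ (hX _ hx _ (coe_mem_lvl γ))
    exact ⟨i, lvlElt hy, (matGL_mul_toGL_iff _ _ _ _).mpr he⟩
  unique x y g h := by
    have h' : ((g : SL(2, ℤ)) : Mat) * β x = β y := by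
      refine map_cast_injective ?_
      show (_ * β x : Mat).map (Int.cast : ℤ → ℝ) = _
      rw [Matrix.map_mul_intCast, ← val_toGL, ← val_matGL (β x) (hβ.det_ne_zero x),
        ← Units.val_mul, h, val_matGL]
    exact hβ.unique (coe_mem_lvl g) (one_mem_lvl M) (h'.trans (one_mul _).symm)
  compat x y γ g _ := rfl
  triv x y k g hk h := by
    rw [Set.mem_singleton_iff] at hk ⊢
    subst hk
    have h' := (matGL_mul_toGL_iff _ _ _ _).mp h
    have hm : (-1 : Mat) ∈ Lvl M := ⟨by simp [Matrix.det_fin_two], by simp⟩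
    have e1 : ((negOne N : SL(2, ℤ)) : Mat) = -1 := by simp [negOne]
    rw [e1, mul_neg_one, ← neg_one_mul] at h'
    obtain rfl := hβ.unique hm (coe_mem_lvl g) h'
    refine Subtype.ext (Subtype.ext ?_)
    rw [show ((negOne M : SL(2, ℤ)) : Mat) = -1 by simp [negOne]]
    exact (mat_cancel_right (hβ.det_ne_zero x) h').symm

/-- Intersection numbers are transferred to the sum over the adjugate set. -/
theorem sum_inter_of_fact [Fintype ι] (hβ : IsFact X (Lvl M) β) (hpos : ∀ i, 0 < (β i).det)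
    {r : ℤ} (hr : r ≠ 0) (hXr : ∀ x ∈ X, x.det = r) {γ : Mat} (hγ : γ ∈ Lvl N)
    {y : ι → Mat} (σ : ι ≃ ι) (hy : ∀ x, y x ∈ Lvl M) (he : ∀ x, β x * γ = y x * β (σ x))
    (v : Vec) :
    ∑ x, inter M (y x) v = ∑ᶠ x ∈ X, sepTerm 1 γ.adjugate vE v x.adjugate := by
  have hpos' : ∀ i, 0 < (β i).adjugate.det := fun i => by
    rw [Matrix.det_adjugate]; simpa using hpos i
  have hposγ : ∀ i, 0 < (γ.adjugate * (β i).adjugate).det := fun i => by
    rw [Matrix.det_mul]; exact mul_pos (det_adjugate_pos hγ) (hpos' i)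
  have hfin : (X ∩ Function.support fun x => sepTerm 1 γ.adjugate vE v x.adjugate).Finite := by
    refine (((finite_support_sepTerm (X := Matrix.adjugate '' X) (show (0 : ℤ) < (1 : Mat).det by rw [Matrix.det_one]; exact one_pos) (det_adjugate_pos hγ)
      vE v hr ?_).image Matrix.adjugate)).subset ?_
    · rintro _ ⟨x, hx, rfl⟩
      rw [Matrix.det_adjugate]; simpa using hXr x hx
    · rintro x ⟨hx, hne⟩
      exact ⟨x.adjugate, ⟨⟨x, hx, rfl⟩, hne⟩, by simp [Matrix.adjugate_adjugate]⟩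
  have hXM : ∀ x ∈ Lvl M, x.det = 1 := fun x hx => hx.1
  calc ∑ x, inter M (y x) v
      = ∑ x, ((crossing (Lvl M) 1 (β x).adjugate vE v
          - crossing (Lvl M) 1 (β (σ x)).adjugate vE v)
          + ∑ᶠ z ∈ Lvl M, sepTerm 1 γ.adjugate vE v ((z * β x).adjugate)) := by
        refine Finset.sum_congr rfl fun x _ => ?_
        rw [inter_eq_crossing (hy x) (hpos' (σ x)), ← Matrix.adjugate_mul_distrib, ← he,
          Matrix.adjugate_mul_distrib,
          crossing_trans (hpos' (σ x)) (hpos' x) (hposγ x) one_ne_zero hXM,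
          crossing_trans (g := 1) (by simp) (hpos' (σ x)) (hpos' x) one_ne_zero hXM vE v]
        have e : crossing (Lvl M) (β x).adjugate (γ.adjugate * (β x).adjugate) vE v
            = ∑ᶠ z ∈ Lvl M, sepTerm 1 γ.adjugate vE v ((z * β x).adjugate) := by
          rw [crossing, ← finsum_adjugate M 1 fun z => sepTerm 1 γ.adjugate vE v ((z * β x).adjugate)]
          refine finsum_mem_congr rfl fun z _ => ?_
          rw [Matrix.adjugate_mul_distrib, Matrix.adjugate_adjugate _ (by simp)]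
          simp [sepTerm, act_mul]
        rw [e]
        ring
    _ = ∑ x, ∑ᶠ z ∈ Lvl M, sepTerm 1 γ.adjugate vE v ((z * β x).adjugate) := by
        rw [Finset.sum_add_distrib, Finset.sum_sub_distrib,
          Equiv.sum_comp σ fun x => crossing (Lvl M) 1 (β x).adjugate vE v, sub_self, zero_add]
    _ = _ := (finsum_fact hβ _ hfin).symm

variable [Fintype ι]

theorem factData_interCocycle [NeZero M] [NeZero N] (hβ : IsFact X (Lvl M) β)
    (hX : ∀ x ∈ X, ∀ γ ∈ Lvl N, x * γ ∈ X) (hpos : ∀ i, 0 < (β i).det) {r : ℤ} (hr : r ≠ 0)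
    (hXr : ∀ x ∈ X, x.det = r) (v w : Vec)
    (hw : ∀ γ ∈ Lvl N, ∑ᶠ x ∈ X, sepTerm 1 γ.adjugate vE v x.adjugate = inter N γ w) :
    (factData O hβ hX).onCocycles toGL_injective (interCocycle O v) = interCocycle O w := by
  refine Subtype.ext (funext fun γ => ?_)
  set D := factData O hβ hX
  have he : ∀ x, β x * ((γ : SL(2, ℤ)) : Mat)
      = ((D.tr x γ : SL(2, ℤ)) : Mat) * β (D.permEquiv toGL_injective γ x) :=
    fun x => (matGL_mul_toGL_iff (hβ.det_ne_zero _) (hβ.det_ne_zero _) _ _).mp (D.mul_spec x γ)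
  have hsum := sum_inter_of_fact (N := N) hβ hpos hr hXr (coe_mem_lvl γ)
    (D.permEquiv toGL_injective γ) (fun x => coe_mem_lvl (D.tr x γ)) he v
  rw [hw _ (coe_mem_lvl γ)] at hsum
  show ∑ x, (quarterInter M ((D.tr x γ : SL(2, ℤ)) : Mat) v : O) = _
  rw [interCocycle_apply, ← Int.cast_sum]
  congr 1
  refine mul_left_cancel₀ (show (4 : ℤ) ≠ 0 by norm_num) ?_
  rw [Finset.mul_sum, four_mul_quarterInter (coe_mem_lvl _), ← hsum]
  exact Finset.sum_congr rfl fun x _ => four_mul_quarterInter (coe_mem_lvl _) v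

end FactData

section Traces

variable (O : Type uO) [CommRing O] (N q : ℕ) [hq : Fact q.Prime]

/-- The matrices `diag(1,q) Γ₀(N)`. -/
def degenSet : Set Mat := (mm 1 0 0 (q : ℤ) * ·) '' Lvl N

/-- Their representatives. -/
def degenReps : Option (Fin q) → Mat
  | none => mm (q * alD N q) (alB N q) (q * N : ℤ) q
  | some j => mm 1 (j : ℕ) 0 q

variable {N q}

lemma det_degenReps (hqN : ¬ q ∣ N) (i : Option (Fin q)) : (degenReps N q i).det = q := by
  cases i with
  | none => simp only [degenReps, mm_det]; linear_combination (q : ℤ) * al_spec hq.out hqN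
  | some j => simp [degenReps]

lemma det_of_mem_degenSet {x : Mat} (hx : x ∈ degenSet N q) : x.det = q := by
  obtain ⟨z, hz, rfl⟩ := hx
  rw [Matrix.det_mul, hz.1]; simp

theorem fact_degenReps (hqN : ¬ q ∣ N) :
    IsFact (degenSet N q) (Lvl (q * N)) (degenReps N q) where
  det_ne_zero i := by rw [det_degenReps hqN]; exact_mod_cast hq.out.ne_zero
  mem y hy i := by
    obtain ⟨hd, C, hC⟩ := hy
    push_cast at hC
    rw [Matrix.det_fin_two, hC] at hd
    have hy' : mm (y 0 0) ((q : ℤ) * y 0 1) ((N : ℤ) * C) (y 1 1) ∈ Lvl N :=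
      mm_mem_detLevel.mpr ⟨by linear_combination hd, Dvd.intro _ rfl⟩
    cases i with
    | none =>
      have hm : mm ((q : ℤ) * alD N q) (alB N q) N 1 ∈ Lvl N :=
        mm_mem_detLevel.mpr ⟨by linear_combination al_spec hq.out hqN, dvd_rfl⟩
      refine ⟨_, lvl_mul hy' hm, ?_⟩
      conv_rhs => rw [mm_eta y, hC]
      simp only [degenReps, mm_mul, mm_inj]
      refine ⟨?_, ?_, ?_, ?_⟩ <;> ring
    | some j =>
      have hm : mm 1 (j : ℕ) 0 1 ∈ Lvl N := mm_mem_detLevel.mpr ⟨by ring, dvd_zero _⟩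
      refine ⟨_, lvl_mul hy' hm, ?_⟩
      conv_rhs => rw [mm_eta y, hC]
      simp only [degenReps, mm_mul, mm_inj]
      refine ⟨?_, ?_, ?_, ?_⟩ <;> ring
  fact := by
    rintro _ ⟨z, hz, rfl⟩
    obtain ⟨hd, C, hC⟩ := hz
    rw [Matrix.det_fin_two, hC] at hd
    by_cases ha : (q : ℤ) ∣ z 0 0
    · obtain ⟨u, hu⟩ := ha
      refine ⟨none, mm (z 0 0 - z 0 1 * N) (z 0 1 * alD N q - u * alB N q)
        ((q : ℤ) * N * (C - z 1 1)) ((q : ℤ) * alD N q * z 1 1 - N * C * alB N q),
        mm_mem_detLevel.mpr ⟨?_, by push_cast; exact Dvd.intro _ rfl⟩, ?_⟩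
      · linear_combination ((q : ℤ) * alD N q - N * alB N q) * hd + al_spec hq.out hqN
          - (C * N * alB N q - (N : ℤ) * z 1 1 * alB N q) * hu
      · conv_lhs => rw [mm_eta z, hC]
        simp only [degenReps, mm_mul, mm_inj]
        refine ⟨?_, ?_, ?_, ?_⟩
        · linear_combination (-(z 0 0 : ℤ)) * al_spec hq.out hqN - (alB N q) * (N : ℤ) * hu
        · linear_combination (-(z 0 1 : ℤ)) * al_spec hq.out hqN - (alB N q) * hu
        · linear_combination (-((q : ℤ) * N * C)) * al_spec hq.out hqN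
        · linear_combination (-((q : ℤ) * z 1 1)) * al_spec hq.out hqN
    · obtain ⟨j, hj⟩ := exists_fin_dvd hq.out ha (z 0 1)
      obtain ⟨u, hu⟩ := hj
      refine ⟨some j, mm (z 0 0) u ((q : ℤ) * N * C) (z 1 1 - N * C * (j : ℕ)),
        mm_mem_detLevel.mpr ⟨?_, by push_cast; exact Dvd.intro _ rfl⟩, ?_⟩
      · linear_combination hd + (N : ℤ) * C * hu
      · conv_lhs => rw [mm_eta z, hC]
        simp only [degenReps, mm_mul, mm_inj]
        refine ⟨by ring, ?_, by ring, by ring⟩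
        linear_combination hu
  unique := by
    intro i j y y' hy hy' e
    have hw := lvl_mul (adjugate_mem_detLevel hy') hy
    have e' : y'.adjugate * y * degenReps N q i = degenReps N q j := by
      rw [mul_assoc, e, ← mul_assoc, adjugate_mul_lvl hy', one_mul]
    generalize y'.adjugate * y = w at hw e'
    obtain ⟨hd, C, hC⟩ := hw
    push_cast at hC
    rw [Matrix.det_fin_two, hC] at hd
    rw [mm_eta w, hC] at e'
    have hN : (N : ℤ) ≠ 0 := fun h => hqN (by rw [show N = 0 by exact_mod_cast h]; exact dvd_zero q)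
    have hq0 : (q : ℤ) ≠ 0 := by exact_mod_cast hq.out.ne_zero
    have h1 : ¬ (q : ℤ) ∣ 1 := by exact_mod_cast hq.out.not_dvd_one
    rcases i with _ | i <;> rcases j with _ | j <;>
      simp only [degenReps, mm_mul, mm_inj] at e' <;> obtain ⟨e1, e2, e3, e4⟩ := e'
    · rfl
    · refine absurd ⟨w 0 0 * alD N q + w 0 1 * N, ?_⟩ h1
      linear_combination -e1
    · refine absurd ⟨alD N q * w 1 1 - w 0 1 * N * C, ?_⟩ h1
      linear_combination -hd + w 1 1 * e1
    · refine congrArg some (fin_eq_of_dvd ?_)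
      refine ⟨-w 0 1, ?_⟩
      have hw0 : w 0 0 = 1 := by simpa using e1
      rw [hw0] at e2
      linear_combination e2

variable (hqN : ¬ q ∣ N)

lemma fact_traceMat' (hqN : ¬ q ∣ N) : IsFact (Lvl N) (Lvl (q * N)) (traceMat N q) := by
  rw [mul_comm q N]
  exact fact_traceMat_one hq.out hqN

lemma degenSet_mul_mem : ∀ x ∈ degenSet N q, ∀ γ ∈ Lvl N, x * γ ∈ degenSet N q := by
  rintro _ ⟨z, hz, rfl⟩ γ hγ
  exact ⟨z * γ, lvl_mul hz hγ, (mul_assoc _ _ _).symm⟩

/-- The trace `H¹(Γ₀(qN)) → H¹(Γ₀(N))`. -/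
noncomputable def traceOne : Coh1 (trivRep (q * N) O O) →ₗ[O] Coh1 (trivRep N O O) :=
  (factData O (fact_traceMat' hqN) fun _ hx _ hγ => lvl_mul hx hγ).onH1 toGL_injective

/-- The trace adjoint to the degeneracy map of `z ↦ q z`. -/
noncomputable def traceDeg : Coh1 (trivRep (q * N) O O) →ₗ[O] Coh1 (trivRep N O O) :=
  (factData O (fact_degenReps hqN) degenSet_mul_mem).onH1 toGL_injective

/-- Multiplication of the first coordinate by `q`. -/
def diagVec (q : ℕ) (v : Vec) : Vec := ((q : ℤ) * v.1, v.2)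

variable [NeZero N]

instance : NeZero (q * N) := ⟨mul_ne_zero hq.out.ne_zero (NeZero.ne N)⟩

theorem traceOne_interClass (v : Vec) :
    traceOne O hqN (interClass O v) = interClass O v := by
  refine congrArg (toCoh _) (factData_interCocycle O _ _ (fun i => ?_) one_ne_zero
    (fun x hx => hx.1) v v fun γ hγ => ?_)
  · rw [det_traceMat hq.out hqN]; exact one_pos
  · exact finsum_adjugate N 1 fun x => sepTerm 1 γ.adjugate vE v x

theorem traceDeg_interClass (v : Vec) :
    traceDeg O hqN (interClass O v) = interClass O (diagVec q v) := by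
  refine congrArg (toCoh _) (factData_interCocycle O _ _ (fun i => ?_)
    (r := (q : ℤ)) (by exact_mod_cast hq.out.ne_zero) (fun x hx => det_of_mem_degenSet hx)
    v (diagVec q v) fun γ hγ => ?_)
  · rw [det_degenReps hqN]; exact_mod_cast hq.out.pos
  have hinj : Set.InjOn (mm 1 0 0 (q : ℤ) * ·) (Lvl N) := fun a _ b _ e =>
    mat_cancel_left (by simpa using hq.out.ne_zero) e
  rw [degenSet, finsum_mem_image hinj]
  have hD : (mm 1 0 0 (q : ℤ)).adjugate = mm q 0 0 1 := by
    rw [adjugate_mm]; simp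
  have hsum : ∑ᶠ z ∈ Lvl N, sepTerm 1 γ.adjugate vE v ((mm 1 0 0 (q : ℤ) * z).adjugate)
      = crossing (Lvl N) 1 γ.adjugate (act (mm q 0 0 1) vE) (act (mm q 0 0 1) v) := by
    rw [crossing, ← finsum_adjugate N 1]
    refine finsum_mem_congr rfl fun z _ => ?_
    rw [Matrix.adjugate_mul_distrib, Matrix.adjugate_adjugate _ (by simp), hD]
    simp [sepTerm, act_mul]
  rw [hsum]
  have hG := isSym_inter hγ
  by_cases hv : v = 0
  · subst hv
    have h1 : act (mm (q : ℤ) 0 0 1) (0 : Vec) = 0 := by simp [act]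
    rw [h1, show diagVec q (0 : Vec) = 0 by simp [diagVec], hG.zero, crossing]
    refine finsum_mem_eq_zero_of_forall_eq_zero fun x _ => ?_
    simp [sepTerm, side_eq_zero, crossDet, act]
  · have hdq : (mm (q : ℤ) 0 0 1).det ≠ 0 := by simpa using hq.out.ne_zero
    rw [inter_pair hγ (act_ne_zero hdq vE_ne_zero) (act_ne_zero hdq hv),
      show act (mm (q : ℤ) 0 0 1) vE = (q : ℤ) • vE by simp [vE],
      hG.homog _ (by exact_mod_cast hq.out.ne_zero), hG.apply_vE, sub_zero]
    simp [diagVec]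

end Traces

end Fermat.Agent.HeckeModule
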